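/-
T16 / LB (SH1): the Shimura class `psi : Γ₀(p) → ℤ/n`, `n = (p-1)/gcd(p-1,12)`.
Mathlib only.  Owner: helper49.

EXPORTS (namespace `Fermat.Agent.S16.LB.Shimura`):
* `nu p = gcd (p-1) 12`, `nn p = (p-1)/gcd(p-1,12)`, `nn_mul_nu : nn p * nu p = p - 1`
* `toMat p g` : the integer matrix of `g : Gamma0 p`
* `aHom p : Gamma0 p →* ZMod p` (upper-left entry), `aUnit p : Gamma0 p →* (ZMod p)ˣ`,
  `aUnit_surjective`
* `chi p : (ZMod p)ˣ →* Multiplicative (ZMod (nn p))`, `chi_surjective`,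
  `chi_eq_one_iff : chi p u = 1 ↔ u ^ nu p = 1`
* `psi p : Additive (Gamma0 p) →+ ZMod (nn p)`, `psi_surjective`, `zsmul_psi_eq_zero_iff`
* `psi_eq_zero_of_trace_sq_eq_four`, `psi_eq_zero_of_trace_eq_zero`,
  `psi_eq_zero_of_trace_sq_eq_one`
* `psi_rel` : from an integer matrix relation `A * g = g' * B` (`p ∣ B 1 0`)
  `psi g' = psi g + chiA uA - chiA uB`.
-/
import Mathlib

set_option autoImplicit false

open scoped MatrixGroups
open CongruenceSubgroup Matrix

namespace Fermat.Agent.S16.LB.Shimura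

variable (p : ℕ)

/-- `gcd (p-1) 12`. -/
def nu : ℕ := Nat.gcd (p - 1) 12

/-- `(p-1)/gcd(p-1,12)`; this is `ModularCurve.eisensteinNumerator p` (by `rfl`). -/
def nn : ℕ := (p - 1) / Nat.gcd (p - 1) 12

theorem nu_pos : 0 < nu p := Nat.gcd_pos_of_pos_right _ (by norm_num)

theorem nn_mul_nu : nn p * nu p = p - 1 :=
  Nat.div_mul_cancel (Nat.gcd_dvd_left _ _)

theorem nn_dvd : nn p ∣ p - 1 := ⟨nu p, (nn_mul_nu p).symm⟩

theorem nu_dvd_twelve : nu p ∣ 12 := Nat.gcd_dvd_right _ _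

/-- The integer matrix underlying an element of `Γ₀(p)`. -/
abbrev toMat (g : Gamma0 p) : Matrix (Fin 2) (Fin 2) ℤ :=
  ((g : SL(2, ℤ)) : Matrix (Fin 2) (Fin 2) ℤ)

theorem toMat_mul (g h : Gamma0 p) : toMat p (g * h) = toMat p g * toMat p h := by
  simp [toMat]

theorem toMat_one : toMat p 1 = 1 := by simp [toMat]

theorem toMat_det (g : Gamma0 p) : (toMat p g).det = 1 := g.1.2

theorem toMat_one_zero (g : Gamma0 p) : ((toMat p g 1 0 : ℤ) : ZMod p) = 0 :=
  Gamma0_mem.mp g.2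

variable [Fact p.Prime]

theorem nn_pos : 0 < nn p := by
  have hp : 1 < p := (Fact.out : p.Prime).one_lt
  have h := nn_mul_nu p
  rcases Nat.eq_zero_or_pos (nn p) with h0 | h0
  · rw [h0, zero_mul] at h; omega
  · exact h0

instance : NeZero (nn p) := ⟨(nn_pos p).ne'⟩

/-! ### The upper-left entry character -/

/-- The upper-left entry mod `p`, a monoid hom on `Γ₀(p)`. -/
def aHom : Gamma0 p →* ZMod p where
  toFun g := ((toMat p g 0 0 : ℤ) : ZMod p)
  map_one' := by rw [toMat_one]; simp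
  map_mul' g h := by
    have hB' := toMat_one_zero p h
    rw [toMat_mul, (two_mul_expl _ _).1]; push_cast; rw [hB']; ring

@[simp] theorem aHom_apply (g : Gamma0 p) : aHom p g = ((toMat p g 0 0 : ℤ) : ZMod p) := rfl

/-- The upper-left entry as a unit mod `p`. -/
def aUnit : Gamma0 p →* (ZMod p)ˣ := (aHom p).toHomUnits

@[simp] theorem coe_aUnit (g : Gamma0 p) : ((aUnit p g : (ZMod p)ˣ) : ZMod p)
    = ((toMat p g 0 0 : ℤ) : ZMod p) := rfl

theorem a_mul_d (g : Gamma0 p) :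
    ((toMat p g 0 0 : ℤ) : ZMod p) * ((toMat p g 1 1 : ℤ) : ZMod p) = 1 := by
  have hdet := toMat_det p g
  rw [Matrix.det_fin_two] at hdet
  have hc := toMat_one_zero p g
  have := congrArg (fun z : ℤ => (z : ZMod p)) hdet
  simp only [Int.cast_one, Int.cast_sub, Int.cast_mul] at this
  rw [hc, mul_zero, sub_zero] at this
  exact this

theorem aUnit_surjective : Function.Surjective (aUnit p) := by
  intro u
  have hcop : IsCoprime (((u : ZMod p).val : ℤ)) (p : ℤ) :=
    Nat.isCoprime_iff_coprime.mpr (ZMod.val_coe_unit_coprime u)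
  obtain ⟨x, y, hxy⟩ := hcop
  -- x * a + y * p = 1
  let M : Matrix (Fin 2) (Fin 2) ℤ := !![((u : ZMod p).val : ℤ), -y; (p : ℤ), x]
  have hM : M.det = 1 := by
    rw [Matrix.det_fin_two_of]; linarith
  let g : SL(2, ℤ) := ⟨M, hM⟩
  have hg : g ∈ Gamma0 p := by
    rw [Gamma0_mem]
    show (((p : ℤ)) : ZMod p) = 0
    simp
  refine ⟨⟨g, hg⟩, ?_⟩
  apply Units.ext
  rw [coe_aUnit]
  show ((((u : ZMod p).val : ℤ)) : ZMod p) = u
  simp

/-! ### The character `chi : (ℤ/p)ˣ → ℤ/n` -/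

theorem card_units : Nat.card (ZMod p)ˣ = p - 1 := by
  rw [Nat.card_eq_fintype_card, ZMod.card_units]

/-- A chosen generator of `(ℤ/p)ˣ`. -/
noncomputable def gen : (ZMod p)ˣ :=
  (IsCyclic.exists_generator (α := (ZMod p)ˣ)).choose

theorem gen_spec : ∀ x : (ZMod p)ˣ, x ∈ Subgroup.zpowers (gen p) :=
  (IsCyclic.exists_generator (α := (ZMod p)ˣ)).choose_spec

theorem orderOf_gen : orderOf (gen p) = p - 1 := by
  rw [orderOf_eq_card_of_forall_mem_zpowers (gen_spec p), card_units]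

/-- Discrete logarithm. -/
noncomputable def logEquiv : Multiplicative (ZMod (p - 1)) ≃* (ZMod p)ˣ :=
  zmodMulEquivOfGenerator (gen_spec p) (card_units p)

/-- The Shimura character `(ℤ/p)ˣ → ℤ/n`, written multiplicatively. -/
noncomputable def chi : (ZMod p)ˣ →* Multiplicative (ZMod (nn p)) :=
  (AddMonoidHom.toMultiplicative
      (ZMod.castHom (nn_dvd p) (ZMod (nn p))).toAddMonoidHom).comp
    (logEquiv p).symm.toMonoidHom

theorem chi_gen_zpow (i : ℤ) : chi p (gen p ^ i) = Multiplicative.ofAdd ((i : ZMod (nn p))) := by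
  unfold chi logEquiv
  simp only [MonoidHom.coe_comp, MulEquiv.coe_toMonoidHom, Function.comp_apply,
    zmodMulEquivOfGenerator_symm_apply_zpow]
  show Multiplicative.ofAdd ((ZMod.castHom (nn_dvd p) (ZMod (nn p))) ((i : ZMod (p - 1)))) = _
  rw [map_intCast]

theorem chi_surjective : Function.Surjective (chi p) := by
  intro y
  obtain ⟨i, hi⟩ := ZMod.intCast_surjective (Multiplicative.toAdd y)
  exact ⟨gen p ^ i, by rw [chi_gen_zpow, hi]; rfl⟩

theorem chi_eq_one_iff (u : (ZMod p)ˣ) : chi p u = 1 ↔ u ^ nu p = 1 := by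
  obtain ⟨i, rfl⟩ := Subgroup.mem_zpowers_iff.mp (gen_spec p u)
  rw [chi_gen_zpow]
  have h1 : (Multiplicative.ofAdd ((i : ZMod (nn p))) = 1) ↔ ((nn p : ℤ) ∣ i) := by
    rw [← ZMod.intCast_zmod_eq_zero_iff_dvd]
    exact Iff.rfl
  rw [h1, ← zpow_natCast, ← _root_.zpow_mul, ← orderOf_dvd_iff_zpow_eq_one, orderOf_gen,
    ← nn_mul_nu p]
  push_cast
  have hν : ((nu p : ℕ) : ℤ) ≠ 0 := by exact_mod_cast (nu_pos p).ne'
  exact (mul_dvd_mul_iff_right hν).symm

/-- additive version of `chi`. -/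
noncomputable def chiA (u : (ZMod p)ˣ) : ZMod (nn p) := Multiplicative.toAdd (chi p u)

theorem chiA_mul (u v : (ZMod p)ˣ) : chiA p (u * v) = chiA p u + chiA p v := by
  unfold chiA; rw [map_mul]; rfl

theorem chiA_one : chiA p 1 = 0 := by
  unfold chiA; rw [map_one]; rfl

theorem chiA_eq_zero_iff (u : (ZMod p)ˣ) : chiA p u = 0 ↔ u ^ nu p = 1 := by
  rw [← chi_eq_one_iff]; exact Iff.rfl

theorem chiA_surjective : Function.Surjective (chiA p) := fun y => by
  obtain ⟨u, hu⟩ := chi_surjective p (Multiplicative.ofAdd y)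
  exact ⟨u, by unfold chiA; rw [hu]; rfl⟩

/-- `u ^ 12 = 1` implies `chiA u = 0`. -/
theorem chiA_eq_zero_of_pow_twelve (u : (ZMod p)ˣ) (h : u ^ 12 = 1) : chiA p u = 0 := by
  rw [chiA_eq_zero_iff]
  have h1 : u ^ (p - 1) = 1 := ZMod.units_pow_card_sub_one_eq_one p u
  exact pow_gcd_eq_one.mpr ⟨h1, h⟩

/-! ### The class `psi` -/

/-- The Shimura class `psi : Γ₀(p) → ℤ/n`, `g ↦ chi (g₀₀ mod p)`. -/
noncomputable def psi : Additive (Gamma0 p) →+ ZMod (nn p) :=
  MonoidHom.toAdditiveLeft ((chi p).comp (aUnit p))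

theorem psi_apply (g : Gamma0 p) : psi p (Additive.ofMul g) = chiA p (aUnit p g) := rfl

theorem psi_surjective : Function.Surjective (psi p) := by
  intro y
  obtain ⟨u, hu⟩ := chiA_surjective p y
  obtain ⟨g, hg⟩ := aUnit_surjective p u
  exact ⟨Additive.ofMul g, by rw [psi_apply, hg, hu]⟩

/-- `psi` has exact order `n` in `Hom(Γ₀(p), ℤ/n)`. -/
theorem zsmul_psi_eq_zero_iff (k : ℤ) : k • psi p = 0 ↔ (nn p : ℤ) ∣ k := by
  constructor
  · intro h
    obtain ⟨g, hg⟩ := psi_surjective p 1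
    have := DFunLike.congr_fun h g
    rw [AddMonoidHom.smul_apply, hg, AddMonoidHom.zero_apply, zsmul_one] at this
    exact (ZMod.intCast_zmod_eq_zero_iff_dvd k (nn p)).mp this
  · rintro ⟨m, rfl⟩
    refine AddMonoidHom.ext fun g => ?_
    rw [AddMonoidHom.smul_apply, AddMonoidHom.zero_apply, zsmul_eq_mul]
    push_cast
    rw [ZMod.natCast_self, zero_mul, zero_mul]

/-! ### Vanishing on parabolic and elliptic elements -/

/-- `a * d = 1` and `(a + d)^2 ∈ {4, 0, 1}` imply `a ^ 12 = 1` in a field. -/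
theorem pow_twelve_eq_one_of_trace {F : Type*} [Field F] (a d : F) (h : a * d = 1)
    (ht : (a + d) ^ 2 = 4 ∨ (a + d) ^ 2 = 0 ∨ (a + d) ^ 2 = 1) : a ^ 12 = 1 := by
  rcases ht with ht | ht | ht
  · have h0 : (a - d) ^ 2 = 0 := by linear_combination ht - 4 * h
    have had : a = d := by
      have := pow_eq_zero_iff (two_ne_zero) |>.mp h0
      exact sub_eq_zero.mp this
    have h2 : a ^ 2 = 1 := by rw [← had] at h; rw [pow_two]; exact h
    calc a ^ 12 = (a ^ 2) ^ 6 := by ring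
      _ = 1 := by rw [h2, one_pow]
  · have h0 : a + d = 0 := pow_eq_zero_iff (two_ne_zero) |>.mp ht
    have hd : d = -a := by linear_combination h0
    have h2 : a ^ 2 = -1 := by rw [hd] at h; linear_combination -h
    calc a ^ 12 = (a ^ 2) ^ 6 := by ring
      _ = 1 := by rw [h2]; norm_num
  · have h3 : a ^ 3 = -(a + d) := by
      linear_combination (-(a + d) - a) * h + a * ht
    calc a ^ 12 = (a ^ 3) ^ 4 := by ring
      _ = ((a + d) ^ 2) ^ 2 := by rw [h3]; ring
      _ = 1 := by rw [ht, one_pow]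

theorem trace_cast (g : Gamma0 p) : (((toMat p g).trace : ℤ) : ZMod p)
    = ((toMat p g 0 0 : ℤ) : ZMod p) + ((toMat p g 1 1 : ℤ) : ZMod p) := by
  rw [Matrix.trace_fin_two]; push_cast; rfl

/-- `psi` vanishes on every `g` whose trace squared is `4`, `0` or `1`. -/
theorem psi_eq_zero_of_trace_sq (g : Gamma0 p)
    (ht : (toMat p g).trace ^ 2 = 4 ∨ (toMat p g).trace ^ 2 = 0 ∨ (toMat p g).trace ^ 2 = 1) :
    psi p (Additive.ofMul g) = 0 := by
  rw [psi_apply]
  apply chiA_eq_zero_of_pow_twelve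
  apply Units.ext
  rw [Units.val_pow_eq_pow_val, coe_aUnit, Units.val_one]
  apply pow_twelve_eq_one_of_trace _ _ (a_mul_d p g)
  rw [← trace_cast]
  rcases ht with ht | ht | ht
  · left; have := congrArg (fun z : ℤ => (z : ZMod p)) ht; simpa using this
  · right; left; have := congrArg (fun z : ℤ => (z : ZMod p)) ht; simpa using this
  · right; right; have := congrArg (fun z : ℤ => (z : ZMod p)) ht; simpa using this

theorem psi_eq_zero_of_trace_sq_eq_four (g : Gamma0 p) (ht : (toMat p g).trace ^ 2 = 4) :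
    psi p (Additive.ofMul g) = 0 := psi_eq_zero_of_trace_sq p g (Or.inl ht)

/-! ### Finite order elements of `SL(2,ℤ)` have `|trace| ≤ 2` -/

omit [Fact p.Prime] in
theorem trace_pow_succ_succ (M : Matrix (Fin 2) (Fin 2) ℤ) (hdet : M.det = 1) (k : ℕ) :
    (M ^ (k + 2)).trace = M.trace * (M ^ (k + 1)).trace - (M ^ k).trace := by
  have hCH : M ^ 2 = M.trace • M - 1 := by
    rw [Matrix.det_fin_two] at hdet
    ext i j
    fin_cases i <;> fin_cases j <;>
      simp [pow_two, Matrix.mul_apply, Fin.sum_univ_two, Matrix.trace_fin_two, Matrix.smul_apply,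
        -zsmul_eq_mul] <;>
      nlinarith [hdet]
  calc (M ^ (k + 2)).trace = (M ^ k * M ^ 2).trace := by rw [← pow_add]
    _ = (M ^ k * (M.trace • M - 1)).trace := by rw [hCH]
    _ = M.trace * (M ^ (k + 1)).trace - (M ^ k).trace := by
      rw [mul_sub, mul_one, Matrix.mul_smul, Matrix.trace_sub, Matrix.trace_smul, ← pow_succ,
        smul_eq_mul]

omit [Fact p.Prime] in
theorem abs_trace_pow_lt (M : Matrix (Fin 2) (Fin 2) ℤ) (hdet : M.det = 1)
    (ht : 3 ≤ |M.trace|) (k : ℕ) :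
    2 ≤ |(M ^ k).trace| ∧ |(M ^ k).trace| < |(M ^ (k + 1)).trace| := by
  induction k with
  | zero =>
    simp only [pow_zero, zero_add, pow_one]
    rw [Matrix.trace_one]
    simp only [Fintype.card_fin, Nat.cast_ofNat]
    constructor
    · norm_num
    · have : |(2 : ℤ)| = 2 := by norm_num
      rw [this]; omega
  | succ k ih =>
    refine ⟨by omega, ?_⟩
    rw [trace_pow_succ_succ M hdet k]
    have h1 : |M.trace * (M ^ (k + 1)).trace| = |M.trace| * |(M ^ (k + 1)).trace| := abs_mul _ _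
    have h2 := abs_sub_abs_le_abs_sub (M.trace * (M ^ (k + 1)).trace) ((M ^ k).trace)
    have h3 : 3 * |(M ^ (k + 1)).trace| ≤ |M.trace| * |(M ^ (k + 1)).trace| :=
      mul_le_mul_of_nonneg_right ht (abs_nonneg _)
    omega

omit [Fact p.Prime] in
/-- A finite order element of `SL(2,ℤ)` has `|trace| ≤ 2`. -/
theorem abs_trace_le_two_of_isOfFinOrder (g : SL(2, ℤ)) (hg : IsOfFinOrder g) :
    |(g : Matrix (Fin 2) (Fin 2) ℤ).trace| ≤ 2 := by
  by_contra hlt
  rw [not_le] at hlt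
  have ht : 3 ≤ |(g : Matrix (Fin 2) (Fin 2) ℤ).trace| := by omega
  obtain ⟨m, hm, hgm⟩ := isOfFinOrder_iff_pow_eq_one.mp hg
  obtain ⟨k, rfl⟩ : ∃ k, m = k + 1 := ⟨m - 1, by omega⟩
  have h := abs_trace_pow_lt (g : Matrix (Fin 2) (Fin 2) ℤ) g.2 ht k
  have h1 : ((g : Matrix (Fin 2) (Fin 2) ℤ)) ^ (k + 1) = 1 := by
    have := congrArg (fun x : SL(2, ℤ) => (x : Matrix (Fin 2) (Fin 2) ℤ)) hgm
    simpa using this
  rw [h1, Matrix.trace_one] at h
  simp only [Fintype.card_fin, Nat.cast_ofNat] at h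
  have : |(2 : ℤ)| = 2 := by norm_num
  omega

/-- `psi` vanishes on elements of finite order. -/
theorem psi_eq_zero_of_isOfFinOrder (g : Gamma0 p) (hg : IsOfFinOrder g) :
    psi p (Additive.ofMul g) = 0 := by
  have hg' : IsOfFinOrder (g : SL(2, ℤ)) := by
    obtain ⟨m, hm, hgm⟩ := isOfFinOrder_iff_pow_eq_one.mp hg
    refine isOfFinOrder_iff_pow_eq_one.mpr ⟨m, hm, ?_⟩
    rw [← Subgroup.coe_pow, hgm, Subgroup.coe_one]
  have h := abs_trace_le_two_of_isOfFinOrder (g : SL(2, ℤ)) hg'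
  apply psi_eq_zero_of_trace_sq
  have h' : |(toMat p g).trace| ≤ 2 := h
  rw [abs_le] at h'
  obtain ⟨h1, h2⟩ := h'
  have : (toMat p g).trace = -2 ∨ (toMat p g).trace = -1 ∨ (toMat p g).trace = 0 ∨
      (toMat p g).trace = 1 ∨ (toMat p g).trace = 2 := by omega
  rcases this with h | h | h | h | h <;> rw [h] <;> norm_num

/-! ### The relation used in the Hecke eigenvalue computation -/

/-- Integer-matrix relation `A * g = g' * B` with `p ∣ B 1 0`:
`A₀₀ * a(g) = a(g') * B₀₀` mod `p`. -/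
theorem aHom_rel {A B : Matrix (Fin 2) (Fin 2) ℤ} {g g' : Gamma0 p}
    (h : A * toMat p g = toMat p g' * B) (hB : ((B 1 0 : ℤ) : ZMod p) = 0) :
    ((A 0 0 : ℤ) : ZMod p) * aHom p g = aHom p g' * ((B 0 0 : ℤ) : ZMod p) := by
  have h00 := congrFun (congrFun h 0) 0
  rw [(two_mul_expl _ _).1, (two_mul_expl _ _).1] at h00
  have := congrArg (fun z : ℤ => (z : ZMod p)) h00
  simp only [Int.cast_add, Int.cast_mul] at this
  rw [toMat_one_zero p g, hB, mul_zero, mul_zero, add_zero, add_zero] at this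
  exact this

/-- The cocycle relation for `psi`: if `A * g = g' * B` as integer matrices, `p ∣ B 1 0` and
`A₀₀`, `B₀₀` are units mod `p`, then `psi g' = psi g + chiA A₀₀ - chiA B₀₀`. -/
theorem psi_rel {A B : Matrix (Fin 2) (Fin 2) ℤ} {g g' : Gamma0 p}
    (h : A * toMat p g = toMat p g' * B) (hB : ((B 1 0 : ℤ) : ZMod p) = 0)
    (uA uB : (ZMod p)ˣ) (huA : (uA : ZMod p) = ((A 0 0 : ℤ) : ZMod p))
    (huB : (uB : ZMod p) = ((B 0 0 : ℤ) : ZMod p)) :
    psi p (Additive.ofMul g') = psi p (Additive.ofMul g) + chiA p uA - chiA p uB := by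
  have hrel := aHom_rel p h hB
  have hu : uA * aUnit p g = aUnit p g' * uB := by
    apply Units.ext
    rw [Units.val_mul, Units.val_mul, huA, huB]
    exact hrel
  have := congrArg (chiA p) hu
  rw [chiA_mul, chiA_mul] at this
  rw [psi_apply, psi_apply]
  linear_combination -this

end Fermat.Agent.S16.LB.Shimura
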