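/-
T16 / LB-H2 (helper86): period equivariance, H1-independent core.

For a weight two cusp form `f` on `Γ₀(N)` the period homomorphism of `T_ℓ f` (resp. `U_q f`) at
`γ` is the sum over the Hecke coset representatives `x` of the periods of `f` at the elements
`t x ∈ Γ₀(N)` determined by `α_x γ = t_x α_{σ x}`.

EXPORTS (namespace `Fermat.Agent.S16.LB.HeckePeriod`):
* `isPrim_slash_GL` : chain rule, `IsPrim φ F → 0 < det α → IsPrim (φ ∣[2] α) (F ∘ (α • ·))`
* `periodMap_eq_sum` : generic telescoping identity for a finite family `α : X → GL(2,ℝ)⁺`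
* `periodMap_heckeT`, `periodMap_heckeU` : the two Hecke cases with the prelude representatives
-/
import Mathlib
import Fermat.Agent.S21_helper65.Linear
import Fermat.Prelude.Sol.S_ModularForm_heckeT_slash_eq_self_of_mem_Gamma0
import Fermat.Prelude.Def_ModularForm_HeckeOperatorForms

set_option autoImplicit false

open UpperHalfPlane hiding I
open ModularForm Complex Filter Topology CongruenceSubgroup
open scoped MatrixGroups ModularForm Manifold OnePoint

namespace Fermat.Agent.S16.LB.HeckePeriod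

open Fermat.Agent.S21_helper65 ModularCurve ModularCurve.Period
open P2MW.S_ModularForm_heckeT_slash_eq_self_of_mem_Gamma0.ModularForm.HeckeSlashInvariance
open Matrix.SpecialLinearGroup

/-- Derivative of a Möbius transformation. -/
theorem hasDerivAt_moebius (α : GL (Fin 2) ℝ) (w : ℂ) (hw : denom α w ≠ 0) :
    HasDerivAt (fun z : ℂ => num α z / denom α z)
      ((α.det.val : ℂ) / denom α w ^ 2) w := by
  have h1 : HasDerivAt (fun z : ℂ => num α z) ((α 0 0 : ℝ) : ℂ) w := by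
    unfold num
    simpa using ((hasDerivAt_id w).const_mul ((α 0 0 : ℝ) : ℂ)).add_const ((α 0 1 : ℝ) : ℂ)
  have h2 : HasDerivAt (fun z : ℂ => denom α z) ((α 1 0 : ℝ) : ℂ) w := by
    unfold denom
    simpa using ((hasDerivAt_id w).const_mul ((α 1 0 : ℝ) : ℂ)).add_const ((α 1 1 : ℝ) : ℂ)
  have h3 := h1.div h2 hw
  refine h3.congr_deriv ?_
  rw [Matrix.GeneralLinearGroup.val_det_apply, Matrix.det_fin_two]
  unfold num denom
  push_cast
  ring

/-- Chain rule for primitives under `GL(2, ℝ)⁺` in weight two: `(f ∣[2] α) dz = α^*(f dz)`. -/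
theorem isPrim_slash_GL {φ F : ℍ → ℂ} (h : IsPrim φ F) (α : GL (Fin 2) ℝ)
    (hα : 0 < α.det.val) : IsPrim (φ ∣[(2 : ℤ)] α) (fun z => F (α • z)) := by
  intro τ
  have hden : denom α (τ : ℂ) ≠ 0 := denom_ne_zero α τ
  have hm := hasDerivAt_moebius α (τ : ℂ) hden
  have hcoe : (((α • τ : ℍ)) : ℂ) = num α τ / denom α τ := coe_smul_of_det_pos hα τ
  have hF := h (α • τ)
  rw [hcoe] at hF
  have hcomp := hF.comp (τ : ℂ) hm
  have hval : (φ ∣[(2 : ℤ)] α) τ = φ (α • τ) * ((α.det.val : ℂ) / denom α τ ^ 2) := by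
    rw [ModularForm.slash_apply]
    have hσ : σ α = .refl ℝ ℂ := by rw [σ, if_pos hα]
    rw [hσ]
    simp only [ContinuousAlgEquiv.refl_apply]
    rw [abs_of_pos hα]
    have : (2 : ℤ) - 1 = 1 := by norm_num
    rw [this, zpow_one, zpow_neg, div_eq_mul_inv, mul_assoc]
    norm_cast
  rw [hval]
  refine hcomp.congr_of_eventuallyEq ?_
  have hopen : {w : ℂ | 0 < w.im} ∈ 𝓝 (τ : ℂ) :=
    (isOpen_lt continuous_const Complex.continuous_im).mem_nhds τ.2
  filter_upwards [hopen] with w hw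
  simp only [Function.comp_apply]
  have e1 : ofComplex w = ⟨w, hw⟩ := ofComplex_apply_of_im_pos hw
  rw [e1]
  have e2 : ((α • (⟨w, hw⟩ : ℍ) : ℍ) : ℂ) = num α w / denom α w :=
    coe_smul_of_det_pos hα ⟨w, hw⟩
  rw [← e2, ofComplex_apply]

theorem isPrim_sum {X : Type*} (s : Finset X) (φ F : X → ℍ → ℂ)
    (h : ∀ x ∈ s, IsPrim (φ x) (F x)) : IsPrim (∑ x ∈ s, φ x) (fun z => ∑ x ∈ s, F x z) := by
  classical
  induction s using Finset.induction_on with
  | empty =>
    simpa using isPrim_const 0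
  | insert a s ha ih =>
    have h1 := h a (Finset.mem_insert_self a s)
    have h2 := ih (fun x hx => h x (Finset.mem_insert_of_mem hx))
    have h3 := h1.add h2
    rw [Finset.sum_insert ha]
    convert h3 using 1
    funext z
    simp [Finset.sum_insert ha]

/-- **Core telescoping identity.**  If `f' = ∑ₓ f ∣[2] αₓ` for a finite family `α` of matrices of
positive determinant, and `αₓ γ = tₓ α_{σ x}` with `tₓ ∈ Γ₀(N)` and `σ` a permutation, then the
period of `f'` at `γ` is the sum of the periods of `f` at the `tₓ`. -/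
theorem periodMap_eq_sum {N : ℕ} [NeZero N] {X : Type*} [Fintype X] (α : X → GL (Fin 2) ℝ)
    (hα : ∀ x, 0 < (α x).det.val)
    (f f' : CuspForm (Gamma0 N) 2) (hf' : (⇑f' : ℍ → ℂ) = ∑ x, (⇑f) ∣[(2 : ℤ)] α x)
    (γ : Gamma0 N) (σ : Equiv.Perm X) (t : X → Gamma0 N)
    (h : ∀ x, α x * mapGL ℝ (γ : SL(2, ℤ)) = mapGL ℝ ((t x : Gamma0 N) : SL(2, ℤ)) * α (σ x)) :
    periodMap N f' (Additive.ofMul γ) = ∑ x, periodMap N f (Additive.ofMul (t x)) := by
  obtain ⟨F, hF⟩ := exists_hasEquivariantPrimitive f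
  obtain ⟨F', hF'⟩ := exists_hasEquivariantPrimitive f'
  have hFp : IsPrim (⇑f) F := hF.1
  have hF'p : IsPrim (⇑f') F' := hF'.1
  have hG : IsPrim (⇑f') (fun z => ∑ x, F (α x • z)) := by
    rw [hf']
    exact isPrim_sum Finset.univ (fun x => (⇑f) ∣[(2 : ℤ)] α x) (fun x z => F (α x • z))
      (fun x _ => isPrim_slash_GL hFp (α x) (hα x))
  obtain ⟨c, hc⟩ := hF'p.exists_sub_const hG
  rw [periodMap_apply f' hF' γ UpperHalfPlane.I]
  have e1 : F' ((γ : SL(2, ℤ)) • UpperHalfPlane.I) - F' UpperHalfPlane.I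
      = (∑ x, F (α x • ((γ : SL(2, ℤ)) • UpperHalfPlane.I))) - ∑ x, F (α x • UpperHalfPlane.I) := by
    have h1 := hc ((γ : SL(2, ℤ)) • UpperHalfPlane.I)
    have h2 := hc UpperHalfPlane.I
    linear_combination h1 - h2
  rw [e1]
  have e2 : ∀ x, F (α x • ((γ : SL(2, ℤ)) • UpperHalfPlane.I))
      = F (α (σ x) • UpperHalfPlane.I) + periodMap N f (Additive.ofMul (t x)) := by
    intro x
    rw [periodMap_apply f hF (t x) (α (σ x) • UpperHalfPlane.I)]
    have : α x • ((γ : SL(2, ℤ)) • UpperHalfPlane.I)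
        = ((t x : Gamma0 N) : SL(2, ℤ)) • (α (σ x) • UpperHalfPlane.I) := by
      rw [ModularGroup.sl_moeb, ModularGroup.sl_moeb, ← mul_smul, ← mul_smul]
      congr 1
      exact h x
    rw [this]
    ring
  simp_rw [e2]
  rw [Finset.sum_add_distrib, Equiv.sum_comp σ (fun x => F (α x • UpperHalfPlane.I))]
  ring

theorem det_heckeRep_pos (ℓ : ℕ) (x : OnePoint (ZMod ℓ)) : 0 < (heckeRep ℓ x).det.val := by
  induction x using OnePoint.rec with
  | infty => exact det_heckeDiagMatrix_pos ℓ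
  | coe j => exact det_heckeMatrix_pos ℓ j.val

/-- Period equivariance for `T_ℓ`, `ℓ ∤ N`, in H1-independent form. -/
theorem periodMap_heckeT {N : ℕ} [NeZero N] {ℓ : ℕ} [NeZero ℓ] (hℓ : ℓ.Prime) (hℓN : ¬ ℓ ∣ N)
    (f : CuspForm (Gamma0 N) 2) (γ : Gamma0 N) (t : OnePoint (ZMod ℓ) → Gamma0 N)
    (σ : Equiv.Perm (OnePoint (ZMod ℓ)))
    (hmul : ∀ x, heckeRep ℓ x * mapGL ℝ (γ : SL(2, ℤ))
      = mapGL ℝ ((t x : Gamma0 N) : SL(2, ℤ)) * heckeRep ℓ (σ x)) :
    periodMap N (CuspForm.heckeTLin 2 hℓ hℓN f) (Additive.ofMul γ)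
      = ∑ x, periodMap N f (Additive.ofMul (t x)) := by
  refine periodMap_eq_sum (heckeRep ℓ) (det_heckeRep_pos ℓ) f _ ?_ γ σ t hmul
  rw [CuspForm.coe_heckeTLin_apply, heckeT_eq_sum_onePoint]

/-- Period equivariance for `U_q`, `q ∣ N`, in H1-independent form. -/
theorem periodMap_heckeU {N : ℕ} [NeZero N] {q : ℕ} [NeZero q] (hqN : q ∣ N)
    (f : CuspForm (Gamma0 N) 2) (γ : Gamma0 N) (t : ZMod q → Gamma0 N)
    (σ : Equiv.Perm (ZMod q))
    (hmul : ∀ x, heckeMatrix q x.val * mapGL ℝ (γ : SL(2, ℤ))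
      = mapGL ℝ ((t x : Gamma0 N) : SL(2, ℤ)) * heckeMatrix q (σ x).val) :
    periodMap N (CuspForm.heckeULin 2 hqN f) (Additive.ofMul γ)
      = ∑ x, periodMap N f (Additive.ofMul (t x)) := by
  refine periodMap_eq_sum (fun x : ZMod q => heckeMatrix q x.val)
    (fun x => det_heckeMatrix_pos q x.val) f _ ?_ γ σ t hmul
  rw [CuspForm.coe_heckeULin_apply, heckeU_eq_sum_zmod]

end Fermat.Agent.S16.LB.HeckePeriod
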