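/-
T16 / LB / Shimura-class route (helper95).  Generic-coefficient version of the small cocycle
calculus of `S21_helper64` (which is written for `ℂ`): functions `X → R` on a `G`-set `X`, for an
arbitrary commutative ring `R` (we use `R = ℤ`, `ZMod n`, `ℂ`).
-/
import Mathlib
import Fermat.Agent.S21_helper64.CocycleQuot

set_option autoImplicit false

namespace Fermat.Agent.S16.LB.SH

open Fermat.Agent.S21_helper64 (gam gamS gamS_mul gam_mem x0 smul_x0_of_mem out_x0_mem)

noncomputable section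

variable {G : Type*} [Group G]

section RopR

variable {X : Type*} [MulAction G X] (R : Type*) [CommRing R]

/-- right translation operator on `X → R`. -/
def RopR (h : G) : (X → R) →ₗ[R] (X → R) := LinearMap.funLeft R R (fun x => h • x)

variable {R}

@[simp] lemma RopR_apply (h : G) (v : X → R) (x : X) : RopR R h v x = v (h • x) := rfl

lemma RopR_mul_apply (h h' : G) (v : X → R) : RopR R (h * h') v = RopR R h' (RopR R h v) := by
  funext x
  simp [mul_smul]

@[simp] lemma RopR_one_apply (v : X → R) : RopR R (1 : G) v = v := by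
  funext x
  simp

lemma RopR_inv_apply (h : G) (v : X → R) : RopR R h (RopR R h⁻¹ v) = v := by
  rw [← RopR_mul_apply]; simp

lemma RopR_inv_apply' (h : G) (v : X → R) : RopR R h⁻¹ (RopR R h v) = v := by
  rw [← RopR_mul_apply]; simp

/-- `R`-valued cocycles (same convention as `S21_helper64.IsCoc`). -/
def IsCocR (Φ : G → X → R) : Prop := ∀ h h' : G, Φ (h * h') = RopR R h' (Φ h) + Φ h'

namespace IsCocR

variable {Φ Ψ : G → X → R}

lemma map_one (hΦ : IsCocR Φ) : Φ 1 = 0 := by
  have h := hΦ 1 1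
  simp only [mul_one, RopR_one_apply] at h
  have : Φ 1 + 0 = Φ 1 + Φ 1 := by rw [add_zero]; exact h
  exact (add_left_cancel this).symm

lemma map_inv (hΦ : IsCocR Φ) (h : G) : Φ h⁻¹ = - RopR R h⁻¹ (Φ h) := by
  have h1 := hΦ h h⁻¹
  rw [mul_inv_cancel, hΦ.map_one] at h1
  exact eq_neg_of_add_eq_zero_right h1.symm

lemma sub (hΦ : IsCocR Φ) (hΨ : IsCocR Ψ) : IsCocR (fun g => Φ g - Ψ g) := by
  intro h h'
  simp only [hΦ h h', hΨ h h', map_sub]
  abel

lemma eq_zero_of_closure (hΦ : IsCocR Φ) {s : Set G} (hs : Subgroup.closure s = ⊤)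
    (h0 : ∀ g ∈ s, Φ g = 0) (g : G) : Φ g = 0 := by
  have hg : g ∈ Subgroup.closure s := by rw [hs]; trivial
  induction hg using Subgroup.closure_induction with
  | mem x hx => exact h0 x hx
  | one => exact hΦ.map_one
  | mul x y _ _ hx hy => rw [hΦ x y, hx, hy, map_zero, add_zero]
  | inv x _ hx => rw [hΦ.map_inv, hx, map_zero, neg_zero]

lemma eq_of_closure (hΦ : IsCocR Φ) (hΨ : IsCocR Ψ) {s : Set G} (hs : Subgroup.closure s = ⊤)
    (h0 : ∀ g ∈ s, Φ g = Ψ g) (g : G) : Φ g = Ψ g := by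
  have := (hΦ.sub hΨ).eq_zero_of_closure hs (fun g hg => by simp [h0 g hg]) g
  exact sub_eq_zero.mp this

lemma map_pow_succ (hΦ : IsCocR Φ) (t : G) (n : ℕ) :
    Φ (t ^ (n + 1)) = RopR R t (Φ (t ^ n)) + Φ t := by
  rw [pow_succ, hΦ]

lemma RopR_pow (t : G) (n : ℕ) :
    (RopR R (t ^ n) : Module.End R (X → R)) = (RopR R t : Module.End R (X → R)) ^ n := by
  induction n with
  | zero =>
    ext v x
    simp
  | succ n ih =>
    ext v x
    have h1 : RopR R (t ^ (n + 1)) v = RopR R t (RopR R (t ^ n) v) := by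
      rw [pow_succ, RopR_mul_apply]
    rw [h1, ih, pow_succ', Module.End.mul_apply]

lemma map_pow (hΦ : IsCocR Φ) (t : G) (n : ℕ) :
    Φ (t ^ n) = ∑ j ∈ Finset.range n, ((RopR R t : Module.End R (X → R)) ^ j) (Φ t) := by
  induction n with
  | zero => simpa using hΦ.map_one
  | succ n ih =>
    rw [hΦ.map_pow_succ, ih, map_sum, Finset.sum_range_succ']
    congr 1
    apply Finset.sum_congr rfl
    intro j _
    rw [pow_succ', Module.End.mul_apply]

end IsCocR

/-- telescoping identity `(T - 1) Σ_{j<M} j T^j t = M T^M t - Σ_{j<M} T^{j+1} t`. -/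
lemma sub_one_apply_weighted_sumR {V : Type*} [AddCommGroup V] [Module R V]
    (T : Module.End R V) (t : V) (M : ℕ) :
    T (∑ j ∈ Finset.range M, (j : R) • (T ^ j) t) - ∑ j ∈ Finset.range M, (j : R) • (T ^ j) t
      = (M : R) • (T ^ M) t - ∑ j ∈ Finset.range M, (T ^ (j + 1)) t := by
  induction M with
  | zero => simp
  | succ M ih =>
    rw [Finset.sum_range_succ, Finset.sum_range_succ, map_add, map_smul]
    have hT : T ((T ^ M) t) = (T ^ (M + 1)) t := by
      rw [pow_succ', Module.End.mul_apply]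
    rw [hT]
    have := ih
    have e : T (∑ j ∈ Finset.range M, (j : R) • (T ^ j) t) + (M : R) • (T ^ (M + 1)) t
        - (∑ j ∈ Finset.range M, (j : R) • (T ^ j) t + (M : R) • (T ^ M) t)
        = (T (∑ j ∈ Finset.range M, (j : R) • (T ^ j) t)
            - ∑ j ∈ Finset.range M, (j : R) • (T ^ j) t)
          + (M : R) • (T ^ (M + 1)) t - (M : R) • (T ^ M) t := by abel
    rw [e, ih]
    push_cast
    rw [add_smul, one_smul]
    abel

/-- solving `Φ t = (T - 1) w` when `Φ (t^M) = 0`, `t^M` acts trivially and `M` is a unit. -/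
lemma IsCocR.solve {Φ : G → X → R} (hΦ : IsCocR Φ) (t : G) (M : ℕ) (u : R) (hu : u * (M : R) = 1)
    (hfix : ∀ x : X, t ^ M • x = x) (h0 : Φ (t ^ M) = 0) :
    ∃ w : X → R, RopR R t w - w = Φ t := by
  have hRM : ((RopR R t : Module.End R (X → R)) ^ M) (Φ t) = Φ t := by
    rw [← IsCocR.RopR_pow]
    funext x
    simp [hfix]
  have key := sub_one_apply_weighted_sumR (RopR R t : Module.End R (X → R)) (Φ t) M
  have hsum : ∑ j ∈ Finset.range M, ((RopR R t : Module.End R (X → R)) ^ (j + 1)) (Φ t)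
      = RopR R t (Φ (t ^ M)) := by
    rw [hΦ.map_pow, map_sum]
    apply Finset.sum_congr rfl
    intro j _
    rw [pow_succ', Module.End.mul_apply]
  rw [hsum, h0, map_zero, sub_zero, hRM] at key
  refine ⟨u • ∑ j ∈ Finset.range M, (j : R) • ((RopR R t : Module.End R (X → R)) ^ j) (Φ t), ?_⟩
  rw [map_smul, ← smul_sub]
  have key' : RopR R t (∑ j ∈ Finset.range M, (j : R) • ((RopR R t : Module.End R (X → R)) ^ j) (Φ t))
      - ∑ j ∈ Finset.range M, (j : R) • ((RopR R t : Module.End R (X → R)) ^ j) (Φ t)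
      = (M : R) • Φ t := key
  rw [key', smul_smul, hu, one_smul]

end RopR

section cocOfR

variable (Γ : Subgroup G) {R : Type*} [CommRing R]

/-- the `R`-valued cocycle induced from a homomorphism `Γ → R`. -/
def cocOfR (φ : Additive Γ →+ R) : G → (G ⧸ Γ) → R :=
  fun h x => φ (Additive.ofMul (gamS Γ h x))

lemma cocOfR_isCocR (φ : Additive Γ →+ R) : IsCocR (cocOfR Γ φ) := by
  intro h h'
  funext x
  simp only [cocOfR, Pi.add_apply, RopR_apply]
  rw [gamS_mul, ofMul_mul, map_add]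

lemma cocOfR_apply_x0 (φ : Additive Γ →+ R) (γ : Γ) :
    cocOfR Γ φ (γ : G) (x0 Γ) = φ (Additive.ofMul γ) := by
  unfold cocOfR
  have hγ : (γ : G) • x0 Γ = x0 Γ := smul_x0_of_mem Γ γ.2
  set o : Γ := ⟨(x0 Γ).out, out_x0_mem Γ⟩ with ho
  have : gamS Γ (γ : G) (x0 Γ) = o⁻¹ * γ * o := by
    apply Subtype.ext
    simp only [gamS, gam, hγ, ho, Subgroup.coe_mul, Subgroup.coe_inv]
  rw [this, ofMul_mul, ofMul_mul, map_add, map_add, ofMul_inv, map_neg]
  ring

lemma conj_mem_of_fixedR (h : G) (x : G ⧸ Γ) (hx : h • x = x) :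
    (x.out)⁻¹ * h * x.out ∈ Γ := by
  have := gam_mem Γ h x
  unfold gam at this
  rwa [hx] at this

lemma cocOfR_apply_of_fixed (φ : Additive Γ →+ R) (h : G) (x : G ⧸ Γ) (hx : h • x = x) :
    cocOfR Γ φ h x
      = φ (Additive.ofMul ⟨(x.out)⁻¹ * h * x.out, conj_mem_of_fixedR Γ h x hx⟩) := by
  unfold cocOfR
  congr 2
  apply Subtype.ext
  simp only [gamS, gam, hx]

/-- change of coefficients. -/
lemma cocOfR_comp {R' : Type*} [CommRing R'] (f : R →+ R') (φ : Additive Γ →+ R) (h : G)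
    (x : G ⧸ Γ) : cocOfR Γ (f.comp φ) h x = f (cocOfR Γ φ h x) := rfl

end cocOfR

end

end Fermat.Agent.S16.LB.SH
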