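/-
T16 / LB-LIFT (helper95).  Orbit-wise integral lifts: a `ZMod n`-valued function on a finite
type which is anti-invariant under an involution `σ` (resp. has zero sums over the orbits of a
map `τ` of order three) and vanishes at the fixed points lifts to a `ℤ`-valued function with
the same property.  Mathlib only.
-/
import Mathlib

set_option autoImplicit false

namespace Fermat.Agent.S16.LB.SH

theorem exists_lift_invol {X : Type*} [Finite X] (σ : X → X) (hσ : ∀ x, σ (σ x) = x)
    (n : ℕ) [NeZero n] (abar : X → ZMod n) (h1 : ∀ x, abar x + abar (σ x) = 0)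
    (h0 : ∀ x, σ x = x → abar x = 0) :
    ∃ a : X → ℤ, (∀ x, a x + a (σ x) = 0) ∧ ∀ x, ((a x : ℤ) : ZMod n) = abar x := by
  classical
  obtain ⟨m, ⟨e⟩⟩ := Finite.exists_equiv_fin X
  set f : X → ℕ := fun x => (e x : ℕ) with hf
  have hfinj : ∀ x y, f x = f y → x = y := fun x y h => e.injective (Fin.ext h)
  set lift : ZMod n → ℤ := fun r => (r.val : ℤ) with hlift_def
  have hlift : ∀ r : ZMod n, ((lift r : ℤ) : ZMod n) = r := fun r => by
    simp [hlift_def]
  set a : X → ℤ := fun x => if σ x = x then 0 else if f x < f (σ x) then lift (abar x)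
    else - lift (abar (σ x)) with ha
  have ha_fix : ∀ x, σ x = x → a x = 0 := fun x hx => by simp only [ha, if_pos hx]
  have ha_lt : ∀ x, σ x ≠ x → f x < f (σ x) → a x = lift (abar x) := fun x hx h => by
    simp only [ha, if_neg hx, if_pos h]
  have ha_gt : ∀ x, σ x ≠ x → ¬ f x < f (σ x) → a x = - lift (abar (σ x)) := fun x hx h => by
    simp only [ha, if_neg hx, if_neg h]
  refine ⟨a, ?_, ?_⟩
  · intro x
    by_cases hx : σ x = x
    · rw [hx, ha_fix x hx]; rfl
    · have hx' : σ (σ x) ≠ σ x := by rw [hσ]; exact fun h => hx h.symm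
      have hne : f x ≠ f (σ x) := fun h => hx (hfinj _ _ h).symm
      rcases lt_or_gt_of_ne hne with h | h
      · have h' : ¬ f (σ x) < f (σ (σ x)) := by rw [hσ]; exact not_lt.mpr h.le
        rw [ha_lt x hx h, ha_gt (σ x) hx' h', hσ]; ring
      · have h' : f (σ x) < f (σ (σ x)) := by rw [hσ]; exact h
        rw [ha_gt x hx (not_lt.mpr h.le), ha_lt (σ x) hx' h']; ring
  · intro x
    by_cases hx : σ x = x
    · rw [ha_fix x hx, h0 x hx]; simp
    · by_cases h : f x < f (σ x)
      · rw [ha_lt x hx h]; exact hlift _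
      · rw [ha_gt x hx h, Int.cast_neg, hlift]
        have := h1 x
        exact (eq_neg_of_add_eq_zero_left this).symm

theorem exists_lift_three {X : Type*} [Finite X] (τ : X → X) (hτ : ∀ x, τ (τ (τ x)) = x)
    (n : ℕ) [NeZero n] (bbar : X → ZMod n)
    (h1 : ∀ x, bbar x + bbar (τ x) + bbar (τ (τ x)) = 0)
    (h0 : ∀ x, τ x = x → bbar x = 0) :
    ∃ b : X → ℤ, (∀ x, b x + b (τ x) + b (τ (τ x)) = 0) ∧
      ∀ x, ((b x : ℤ) : ZMod n) = bbar x := by
  classical
  obtain ⟨m, ⟨e⟩⟩ := Finite.exists_equiv_fin X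
  set f : X → ℕ := fun x => (e x : ℕ) with hf
  have hfinj : ∀ x y, f x = f y → x = y := fun x y h => e.injective (Fin.ext h)
  set lift : ZMod n → ℤ := fun r => (r.val : ℤ) with hlift_def
  have hlift : ∀ r : ZMod n, ((lift r : ℤ) : ZMod n) = r := fun r => by
    simp [hlift_def]
  set b : X → ℤ := fun x => if τ x = x then 0
    else if f x < f (τ x) ∧ f x < f (τ (τ x)) then lift (bbar x)
    else if f (τ (τ x)) < f x ∧ f (τ (τ x)) < f (τ x) then lift (bbar x)
    else - (lift (bbar (τ x)) + lift (bbar (τ (τ x)))) with hb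
  have hb_fix : ∀ x, τ x = x → b x = 0 := fun x hx => by simp only [hb, if_pos hx]
  have hb_min : ∀ x, τ x ≠ x → (f x < f (τ x) ∧ f x < f (τ (τ x))) → b x = lift (bbar x) :=
    fun x hx h => by simp only [hb, if_neg hx, if_pos h]
  have hb_mid : ∀ x, τ x ≠ x → ¬ (f x < f (τ x) ∧ f x < f (τ (τ x))) →
      (f (τ (τ x)) < f x ∧ f (τ (τ x)) < f (τ x)) → b x = lift (bbar x) :=
    fun x hx h h' => by simp only [hb, if_neg hx, if_neg h, if_pos h']
  have hb_last : ∀ x, τ x ≠ x → ¬ (f x < f (τ x) ∧ f x < f (τ (τ x))) →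
      ¬ (f (τ (τ x)) < f x ∧ f (τ (τ x)) < f (τ x)) →
      b x = - (lift (bbar (τ x)) + lift (bbar (τ (τ x)))) :=
    fun x hx h h' => by simp only [hb, if_neg hx, if_neg h, if_neg h']
  -- evaluation in terms of three named points
  have ev_min : ∀ u v w, τ u = v → τ v = w → τ u ≠ u → (f u < f v ∧ f u < f w) →
      b u = lift (bbar u) := by
    intro u v w huv hvw hu h
    subst huv; subst hvw
    exact hb_min u hu h
  have ev_mid : ∀ u v w, τ u = v → τ v = w → τ u ≠ u → ¬ (f u < f v ∧ f u < f w) →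
      (f w < f u ∧ f w < f v) → b u = lift (bbar u) := by
    intro u v w huv hvw hu h h'
    subst huv; subst hvw
    exact hb_mid u hu h h'
  have ev_last : ∀ u v w, τ u = v → τ v = w → τ u ≠ u → ¬ (f u < f v ∧ f u < f w) →
      ¬ (f w < f u ∧ f w < f v) → b u = - (lift (bbar v) + lift (bbar w)) := by
    intro u v w huv hvw hu h h'
    subst huv; subst hvw
    exact hb_last u hu h h'
  have main : ∀ x y z, τ x = y → τ y = z → τ z = x → f x ≠ f y → f y ≠ f z → f z ≠ f x →
      τ x ≠ x → τ y ≠ y → τ z ≠ z → b x + b y + b z = 0 := by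
    intro x y z hxy hyz hzx n1 n2 n3 hx hy hz
    by_cases hxmin : f x < f y ∧ f x < f z
    · have e1 := ev_min x y z hxy hyz hx hxmin
      have e2 := ev_mid y z x hyz hzx hy (by omega) (by omega)
      have e3 := ev_last z x y hzx hxy hz (by omega) (by omega)
      rw [e1, e2, e3]; ring
    · by_cases hymin : f y < f z ∧ f y < f x
      · have e2 := ev_min y z x hyz hzx hy hymin
        have e3 := ev_mid z x y hzx hxy hz (by omega) (by omega)
        have e1 := ev_last x y z hxy hyz hx (by omega) (by omega)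
        rw [e1, e2, e3]; ring
      · have hzmin : f z < f x ∧ f z < f y := by omega
        have e3 := ev_min z x y hzx hxy hz hzmin
        have e1 := ev_mid x y z hxy hyz hx (by omega) (by omega)
        have e2 := ev_last y z x hyz hzx hy (by omega) (by omega)
        rw [e1, e2, e3]; ring
  have key1 : ∀ x, τ x ≠ x → τ (τ x) ≠ τ x := by
    intro x hx h
    apply hx
    have h2 := congrArg τ h
    rw [hτ] at h2
    exact (h2.trans h).symm
  have key2 : ∀ x, τ x ≠ x → τ (τ x) ≠ x := by
    intro x hx h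
    apply hx
    have h2 := congrArg τ h
    rw [hτ] at h2
    exact h2.symm
  refine ⟨b, ?_, ?_⟩
  · intro x
    by_cases hx : τ x = x
    · have hx2 : τ (τ x) = x := by rw [hx, hx]
      rw [hx2, hx, hb_fix x hx]; rfl
    · have hyy : τ (τ x) ≠ τ x := key1 x hx
      have hzz : τ (τ (τ x)) ≠ τ (τ x) := key1 (τ x) hyy
      have n1 : f x ≠ f (τ x) := fun h => hx (hfinj _ _ h).symm
      have n2 : f (τ x) ≠ f (τ (τ x)) := fun h => hyy (hfinj _ _ h).symm
      have n3 : f (τ (τ x)) ≠ f x := fun h => key2 x hx (hfinj _ _ h)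
      exact main x (τ x) (τ (τ x)) rfl rfl (hτ x) n1 n2 n3 hx hyy hzz
  · intro x
    by_cases hx : τ x = x
    · rw [hb_fix x hx, h0 x hx]; simp
    · by_cases h : f x < f (τ x) ∧ f x < f (τ (τ x))
      · rw [hb_min x hx h]; exact hlift _
      · by_cases h' : f (τ (τ x)) < f x ∧ f (τ (τ x)) < f (τ x)
        · rw [hb_mid x hx h h']; exact hlift _
        · rw [hb_last x hx h h', Int.cast_neg, Int.cast_add, hlift, hlift]
          have := h1 x
          have h2 : bbar x = -(bbar (τ x) + bbar (τ (τ x))) := by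
            rw [eq_neg_iff_add_eq_zero, ← add_assoc]; exact this
          exact h2.symm

end Fermat.Agent.S16.LB.SH
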