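/-
T16 / LB support (helper64): in the cocycle comparison of `S21_helper64`, once the dimension
count is an equality (S20 + S21), the comparison map `Theta` is ONTO `ker kap`:
every triple `(a, b, w)` with `a + S a = 0`, `b + U b + U² b = 0`, `kap (a, b, w) = 0` comes from a
parabolic homomorphism `φ` and a `0`-cochain `v` (normalised by `v x0 = 0`).
-/
import Fermat.Agent.S21_helper64.ParabolicBound
import Fermat.Agent.S20
import Fermat.Agent.S21

set_option autoImplicit false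

open CongruenceSubgroup Module
open scoped MatrixGroups

namespace Fermat.Agent.S16.LB.RangeTheta

open Fermat.Agent.S21_helper64

noncomputable section

section abstract

variable {G : Type*} [Group G] {Γ : Subgroup G} {S U z : G}
variable [Finite (G ⧸ Γ)] (h : Setup Γ S U z) (P : Submodule ℂ (Additive Γ →+ ℂ))
  (hPz : ∀ φ ∈ P, φ (Additive.ofMul ⟨z, h.hzΓ⟩) = 0)
  (hP : ∀ φ ∈ P, IsParab S U φ)

include hP in
/-- If the dimension inequality `finrank_parab_le` is an equality, then `Theta` is onto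
`ker kap`. -/
theorem range_Theta_eq_of_le (M : ℕ) (hM : 0 < M)
    (hfix : ∀ x : G ⧸ Γ, (S⁻¹ * U) ^ M • x = x)
    (hge : Nat.card (G ⧸ Γ) + 2 ≤ finrank ℂ P + finrank ℂ (invSub (Γ := Γ) S)
      + finrank ℂ (invSub (Γ := Γ) U) + finrank ℂ (invSub (Γ := Γ) (S⁻¹ * U))) :
    LinearMap.range (Theta h P hPz M) = LinearMap.ker (kap (Γ := Γ) S U) := by
  have hfinP : Module.Finite ℂ P := (finrank_parab_le h P hPz hP).1
  apply Submodule.eq_of_le_of_finrank_le (range_Theta_le h P hPz hP M hM hfix)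
  rw [LinearMap.finrank_range_of_inj (Theta_injective h P hPz M)]
  have h2 := LinearMap.finrank_range_add_finrank_ker (kap (Γ := Γ) S U)
  have h3 : finrank ℂ (↥(Asub (Γ := Γ) S) × ↥(Bsub (Γ := Γ) U) × Vsp Γ)
      = finrank ℂ (Asub (Γ := Γ) S) + (finrank ℂ (Bsub (Γ := Γ) U) + Nat.card (G ⧸ Γ)) := by
    rw [Module.finrank_prod, Module.finrank_prod, finrank_Vsp]
  have h4 : finrank ℂ (Dom P S U)
      = finrank ℂ P + (finrank ℂ (Vx0 Γ) + finrank ℂ (invSub (Γ := Γ) (S⁻¹ * U))) := by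
    rw [Module.finrank_prod, Module.finrank_prod]
  have h5 := finrank_Vx0 (Γ := Γ)
  have h6 := finrank_Asub h
  have h7 := finrank_Bsub h
  have h8 := card_le_finrank_range_kap h
  omega

end abstract

section concrete

open ModularCurve ModularCurve.Period Fermat.Agent.S20_helper27 ModularGroup

variable (N : ℕ) [NeZero N]

/-- S20 + S21: the parabolic homomorphisms have dimension exactly `2 g`. -/
theorem finrank_parabolicHoms_eq :
    (finrank ℂ (parabolicHoms ℂ (Gamma0 N) ℂ) : ℚ) = 2 * genusFormula N := by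
  have h20 := Fermat.Agent.S20.result N
  obtain ⟨hinj, hrange⟩ := Fermat.Agent.S21.result N
  have hfinP := finite_parabolicHoms N
  have e1 : finrank ℂ (LinearMap.range (periodHomPair N))
      = finrank ℂ (CuspForm (Gamma0 N) 2 × CuspForm (Gamma0 N) 2) :=
    LinearMap.finrank_range_of_inj hinj
  rw [hrange] at e1
  have : Module.Finite ℂ (CuspForm (Gamma0 N) 2 × CuspForm (Gamma0 N) 2) := by
    have e : (CuspForm (Gamma0 N) 2 × CuspForm (Gamma0 N) 2) ≃ₗ[ℂ]
        LinearMap.range (periodHomPair N) := LinearEquiv.ofInjective _ hinj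
    rw [hrange] at e
    exact Module.Finite.equiv e.symm
  have : Module.Finite ℂ (CuspForm (Gamma0 N) 2) :=
    Module.Finite.of_injective (LinearMap.inl ℂ _ (CuspForm (Gamma0 N) 2))
      LinearMap.inl_injective
  rw [Module.finrank_prod] at e1
  rw [e1, ← h20]
  push_cast
  ring

/-- the count of `parabolicHoms_main` is an equality -/
theorem parabolicHoms_count_eq :
    6 * finrank ℂ (parabolicHoms ℂ (Gamma0 N) ℂ) + 3 * nuTwo N + 4 * nuThree N + 6 * cuspCount N
      = dedekindPsi N + 12 := by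
  have h := finrank_parabolicHoms_eq N
  unfold genusFormula at h
  have hq : (6 * (finrank ℂ (parabolicHoms ℂ (Gamma0 N) ℂ) : ℚ) + 3 * (nuTwo N : ℚ)
      + 4 * (nuThree N : ℚ) + 6 * (cuspCount N : ℚ)) = (dedekindPsi N : ℚ) + 12 := by
    rw [h]; ring
  exact_mod_cast hq

/-- For `Γ₀(N)`, the comparison map `Theta` is onto `ker kap`. -/
theorem range_Theta_eq (M : ℕ) (hM : 0 < M)
    (hfix : ∀ x : SL(2, ℤ) ⧸ Gamma0 N, (S⁻¹ * (S * T)) ^ M • x = x) :
    LinearMap.range (Theta (setup_Gamma0 N) (parabolicHoms ℂ (Gamma0 N) ℂ) (neg_one_of_mem N) M)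
      = LinearMap.ker (kap (Γ := Gamma0 N) S (S * T)) := by
  apply range_Theta_eq_of_le (setup_Gamma0 N) (parabolicHoms ℂ (Gamma0 N) ℂ)
    (neg_one_of_mem N) (parab_of_mem N) M hM hfix
  have hS := two_mul_finrank_invKer (X := SL(2, ℤ) ⧸ Gamma0 N) S (S_smul_smul N)
  have hU := three_mul_finrank_invKer (X := SL(2, ℤ) ⧸ Gamma0 N) (S * T) (ST_smul_smul_smul N)
  have hT := finrank_invKer_eq_card_orbits (X := SL(2, ℤ) ⧸ Gamma0 N) (T : SL(2, ℤ))
  have hT2 := Fermat.Agent.S20_helper11.card_orbits_T N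
  replace hT : finrank ℂ (LinearMap.ker (Rop (T : SL(2, ℤ)) - LinearMap.id :
      ((SL(2, ℤ) ⧸ Gamma0 N) → ℂ) →ₗ[ℂ] _)) = cuspCount N := hT.trans hT2
  have hcard : Nat.card (SL(2, ℤ) ⧸ Gamma0 N) = dedekindPsi N := card_XN N
  have hfS : Nat.card {x : SL(2, ℤ) ⧸ Gamma0 N // S • x = x} = nuTwo N := card_fixed_S N
  have hfU : Nat.card {x : SL(2, ℤ) ⧸ Gamma0 N // (S * T) • x = x} = nuThree N := card_fixed_ST N
  rw [hcard, hfS] at hS
  rw [hcard, hfU] at hU
  rw [hcard]
  have hT' : finrank ℂ (invSub (Γ := Gamma0 N) (S⁻¹ * (S * T))) = cuspCount N := by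
    rw [Sinv_mul_ST]; exact hT
  have hS' : 2 * finrank ℂ (invSub (Γ := Gamma0 N) S) = dedekindPsi N + nuTwo N := hS
  have hU' : 3 * finrank ℂ (invSub (Γ := Gamma0 N) (S * T)) = dedekindPsi N + 2 * nuThree N := hU
  have hcount := parabolicHoms_count_eq N
  omega

/-- CONSUMER FORM.  Given `a, b : X → ℂ` (`X = SL(2,ℤ) ⧸ Γ₀(N)`) with `a + S·a = 0`,
`b + U·b + U²·b = 0` (`U = S * T`, `(h·v) x = v (h • x)`) and `b - T·a ∈ range (T - 1)`, there are a
PARABOLIC homomorphism `φ : Γ₀(N) → ℂ` and a `0`-cochain `v` with `v x0 = 0` such that the cocycle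
`Φ := cocOf φ + cobd v` has `Φ S = a`, `Φ (S * T) = b`. -/
theorem exists_parabolic_of_kap_eq_zero
    (a b : Vsp (Gamma0 N))
    (ha : ∀ x, a x + a (S • x) = 0)
    (hb : ∀ x, b x + b ((S * T) • x) + b ((S * T) • (S * T) • x) = 0)
    (hw : ∃ w : Vsp (Gamma0 N), ∀ x, b x - a (T • x) = w (T • x) - w x) :
    ∃ φ ∈ parabolicHoms ℂ (Gamma0 N) ℂ, ∃ v : Vsp (Gamma0 N), v (x0 (Gamma0 N)) = 0 ∧
      (∀ x, cocOf (Gamma0 N) φ S x + (v (S • x) - v x) = a x) ∧
      (∀ x, cocOf (Gamma0 N) φ (S * T) x + (v ((S * T) • x) - v x) = b x) := by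
  obtain ⟨w, hw⟩ := hw
  obtain ⟨M, hM, hfix⟩ := exists_pow_smul_eq (Γ := Gamma0 N) (S⁻¹ * (S * T))
  have haA : a ∈ Asub (Γ := Gamma0 N) S := by
    simp only [Asub, LinearMap.mem_ker, LinearMap.add_apply, LinearMap.id_apply]
    funext x
    simpa [Rop_apply] using ha x
  have hbB : b ∈ Bsub (Γ := Gamma0 N) (S * T) := by
    simp only [Bsub, LinearMap.mem_ker, LinearMap.add_apply, LinearMap.id_apply,
      LinearMap.comp_apply]
    funext x
    simpa [Rop_apply] using hb x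
  have hker : ((⟨a, haA⟩, ⟨b, hbB⟩, w) :
      ↥(Asub (Γ := Gamma0 N) S) × ↥(Bsub (Γ := Gamma0 N) (S * T)) × Vsp (Gamma0 N))
      ∈ LinearMap.ker (kap (Γ := Gamma0 N) S (S * T)) := by
    rw [LinearMap.mem_ker, kap_apply]
    funext x
    have := hw x
    simp only [Sinv_mul_ST, Pi.sub_apply, Rop_apply, Pi.zero_apply]
    linear_combination this
  rw [← range_Theta_eq N M hM hfix] at hker
  obtain ⟨d, hd⟩ := hker
  rw [Theta_apply, Prod.mk.injEq, Prod.mk.injEq] at hd
  obtain ⟨hdA, hdB, -⟩ := hd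
  have hdA' : cocD (parabolicHoms ℂ (Gamma0 N) ℂ) S (S * T) d S = a := by
    rw [← fG_apply]; exact congrArg Subtype.val hdA
  have hdB' : cocD (parabolicHoms ℂ (Gamma0 N) ℂ) S (S * T) d (S * T) = b := by
    rw [← fG_apply]; exact congrArg Subtype.val hdB
  refine ⟨pφ _ S (S * T) d, d.1.2, pv _ S (S * T) d, ?_, ?_, ?_⟩
  · exact (mem_Vx0 _).mp d.2.1.2
  · intro x
    have := congrFun hdA' x
    simpa [cocD, cobd, Rop_apply] using this
  · intro x
    have := congrFun hdB' x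
    simpa [cocD, cobd, Rop_apply] using this

omit [NeZero N] in
/-- the value at the base point of the cocycle `cocOf φ + cobd v` on `γ ∈ Γ₀(N)` is `φ γ`. -/
theorem cocycle_apply_x0 (φ : Additive (Gamma0 N) →+ ℂ) (v : Vsp (Gamma0 N))
    (γ : Gamma0 N) :
    cocOf (Gamma0 N) φ (γ : SL(2, ℤ)) (x0 (Gamma0 N))
      + (v ((γ : SL(2, ℤ)) • x0 (Gamma0 N)) - v (x0 (Gamma0 N))) = φ (Additive.ofMul γ) := by
  rw [cocOf_apply_x0, smul_x0_of_mem (Gamma0 N) γ.2, sub_self, add_zero]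

end concrete

end

end Fermat.Agent.S16.LB.RangeTheta
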