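/-
T16 / LB-LIFT support (helper64): the prime-level consumer form of `RangeTheta`.
For `N = p` prime the hypothesis `b - T·a ∈ range (T - 1)` of
`exists_parabolic_of_kap_eq_zero` reduces to the single scalar condition `b x0 = a x0`.
-/
import Fermat.Agent.S16.LB.RangeTheta

set_option autoImplicit false

open CongruenceSubgroup Module
open scoped MatrixGroups

namespace Fermat.Agent.S16.LB.RangeTheta

open Fermat.Agent.S21_helper64

noncomputable section

section orth

variable {G : Type*} [Group G] {X : Type*} [MulAction G X] [Fintype X]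

/-- If `c` is orthogonal to all `t`-invariant functions, then `c = t·w - w` for some `w`. -/
theorem exists_sub_of_orth (t : G) (c : X → ℂ)
    (hc : ∀ f : X → ℂ, (∀ x, f (t • x) = f x) → ∑ x, c x * f x = 0) :
    ∃ w : X → ℂ, ∀ x, c x = w (t • x) - w x := by
  classical
  -- a positive exponent killing the action of `t`
  obtain ⟨M, hM, hfix⟩ : ∃ M : ℕ, 0 < M ∧ ∀ x : X, t ^ M • x = x := by
    refine ⟨orderOf (MulAction.toPermHom G X t), orderOf_pos _, fun x => ?_⟩
    have := pow_orderOf_eq_one (MulAction.toPermHom G X t)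
    rw [← map_pow] at this
    have h2 := congrArg (fun σ : Equiv.Perm X => σ x) this
    simpa using h2
  set R : Module.End ℂ (X → ℂ) := Rop t with hR
  have hRj : ∀ (j : ℕ) (v : X → ℂ) (x : X), (R ^ j) v x = v (t ^ j • x) := by
    intro j v x
    rw [hR, ← Rop_pow]
    rfl
  set u : X → ℂ := ∑ j ∈ Finset.range M, (R ^ j) c with hu
  have hux : ∀ x, u x = ∑ j ∈ Finset.range M, c (t ^ j • x) := by
    intro x
    rw [hu, Finset.sum_apply]
    exact Finset.sum_congr rfl (fun j _ => hRj j c x)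
  -- `u` is `t`-invariant
  have huinv : ∀ x, u (t • x) = u x := by
    intro x
    rw [hux, hux]
    have e1 : ∀ j : ℕ, c (t ^ j • t • x) = c (t ^ (j + 1) • x) := by
      intro j; rw [pow_succ, mul_smul]
    simp_rw [e1]
    have h1 := Finset.sum_range_succ (fun j => c (t ^ j • x)) M
    have h2 := Finset.sum_range_succ' (fun j => c (t ^ j • x)) M
    rw [h1] at h2
    simp only [pow_zero, one_smul, hfix] at h2
    exact (add_right_cancel h2).symm
  -- pairing of `u` against invariant functions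
  have hpair : ∀ g : X → ℂ, (∀ x, g (t • x) = g x) → ∑ x, u x * g x = 0 := by
    intro g hg
    have hgj : ∀ (j : ℕ) (x : X), g (t ^ j • x) = g x := by
      intro j
      induction j with
      | zero => intro x; simp
      | succ j ih => intro x; rw [pow_succ, mul_smul, ih, hg]
    have : ∑ x, u x * g x = ∑ j ∈ Finset.range M, ∑ x, c (t ^ j • x) * g (t ^ j • x) := by
      rw [Finset.sum_comm]
      apply Finset.sum_congr rfl
      intro x _
      rw [hux, Finset.sum_mul]
      apply Finset.sum_congr rfl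
      intro j _
      rw [hgj]
    rw [this]
    apply Finset.sum_eq_zero
    intro j _
    have := Equiv.sum_comp (MulAction.toPerm (t ^ j) : Equiv.Perm X) (fun y => c y * g y)
    simp only [MulAction.toPerm_apply] at this
    rw [this]
    exact hc g hg
  -- hence `u = 0`
  have hu0 : u = 0 := by
    have h := hpair (fun x => (starRingEnd ℂ) (u x)) (fun x => by simp only [huinv])
    have h' : ∑ x, ((Complex.normSq (u x) : ℝ) : ℂ) = 0 := by
      rw [← h]
      apply Finset.sum_congr rfl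
      intro x _
      rw [Complex.mul_conj]
    have h'' : ∑ x, Complex.normSq (u x) = 0 := by
      have : ((∑ x, Complex.normSq (u x) : ℝ) : ℂ) = 0 := by
        rw [← h']; push_cast; rfl
      exact_mod_cast this
    funext x
    have := (Finset.sum_eq_zero_iff_of_nonneg
      (fun x _ => Complex.normSq_nonneg (u x))).mp h'' x (Finset.mem_univ x)
    simpa using Complex.normSq_eq_zero.mp this
  -- solve
  have key := sub_one_apply_weighted_sum (R : (X → ℂ) →ₗ[ℂ] (X → ℂ)) c M
  have hRM : (R ^ M) c = c := by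
    funext x
    rw [hRj, hfix]
  rw [← hu, hu0, map_zero, sub_zero, hRM] at key
  set W : X → ℂ := ∑ j ∈ Finset.range M, (j : ℂ) • (R ^ j) c with hW
  have hMne : (M : ℂ) ≠ 0 := Nat.cast_ne_zero.mpr hM.ne'
  refine ⟨fun x => (1 / (M : ℂ)) * W x, fun x => ?_⟩
  have hx := congrFun key x
  simp only [Pi.sub_apply, Pi.smul_apply, smul_eq_mul] at hx
  have hRW : R W x = W (t • x) := rfl
  rw [hRW] at hx
  field_simp
  linear_combination -hx

end orth

section prime

open ModularCurve ModularCurve.Period Fermat.Agent.S20_helper27 ModularGroup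

variable (p : ℕ) [Fact p.Prime]

lemma cuspCount_prime : cuspCount p = 2 := by
  have hp : p.Prime := Fact.out
  unfold cuspCount
  rw [Nat.Prime.divisors hp, Finset.sum_pair hp.one_lt.ne]
  simp [Nat.div_self hp.pos]

lemma T_smul_x0 : (T : SL(2, ℤ)) • x0 (Gamma0 p) = x0 (Gamma0 p) := by
  apply smul_x0_of_mem
  rw [Gamma0_mem]
  simp [ModularGroup.coe_T]

lemma S_smul_x0_ne : (S : SL(2, ℤ)) • x0 (Gamma0 p) ≠ x0 (Gamma0 p) := by
  intro h
  have h1 : ((S * 1 : SL(2, ℤ)) : SL(2, ℤ) ⧸ Gamma0 p) = ((1 : SL(2, ℤ)) : SL(2, ℤ) ⧸ Gamma0 p) := h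
  rw [QuotientGroup.eq] at h1
  have h2 : (S : SL(2, ℤ)) ∈ Gamma0 p := by
    have := (Gamma0 p).inv_mem h1
    simp at this
  rw [Gamma0_mem] at h2
  have hp : p.Prime := Fact.out
  have : ((1 : ℤ) : ZMod p) = 0 := by
    have h3 : ((S : SL(2, ℤ)) 1 0 : ℤ) = 1 := by simp [ModularGroup.coe_S]
    rw [h3] at h2
    exact h2
  have hnt : Nontrivial (ZMod p) := ZMod.nontrivial_iff.mpr hp.one_lt.ne'
  rw [Int.cast_one] at this
  exact one_ne_zero this

lemma finrank_invSub_T :
    finrank ℂ (invSub (Γ := Gamma0 p) (T : SL(2, ℤ))) = 2 := by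
  have hT := finrank_invKer_eq_card_orbits (X := SL(2, ℤ) ⧸ Gamma0 p) (T : SL(2, ℤ))
  have hT2 := Fermat.Agent.S20_helper11.card_orbits_T p
  exact (hT.trans hT2).trans (cuspCount_prime p)

/-- `T`-invariant functions on `SL(2,ℤ) ⧸ Γ₀(p)` are constant off the base point. -/
theorem invariant_eq (f : Vsp (Gamma0 p)) (hf : ∀ x, f ((T : SL(2, ℤ)) • x) = f x)
    (x : SL(2, ℤ) ⧸ Gamma0 p) (hx : x ≠ x0 (Gamma0 p)) :
    f x = f ((S : SL(2, ℤ)) • x0 (Gamma0 p)) := by
  classical
  set X0 := x0 (Gamma0 p) with hX0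
  set X1 := (S : SL(2, ℤ)) • x0 (Gamma0 p) with hX1
  have hne : X1 ≠ X0 := S_smul_x0_ne p
  -- the evaluation map
  let E : ↥(invSub (Γ := Gamma0 p) (T : SL(2, ℤ))) →ₗ[ℂ] (ℂ × ℂ) :=
    (LinearMap.prod (LinearMap.proj X0) (LinearMap.proj X1)).comp
      (invSub (Γ := Gamma0 p) (T : SL(2, ℤ))).subtype
  have hmem : ∀ g : Vsp (Gamma0 p), (∀ y, g ((T : SL(2, ℤ)) • y) = g y) →
      g ∈ invSub (Γ := Gamma0 p) (T : SL(2, ℤ)) := by
    intro g hg
    simp only [invSub, LinearMap.mem_ker, LinearMap.sub_apply, LinearMap.id_apply]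
    funext y
    simp [Rop_apply, hg y]
  have hone : (fun _ => (1 : ℂ)) ∈ invSub (Γ := Gamma0 p) (T : SL(2, ℤ)) :=
    hmem _ (fun _ => rfl)
  have hdel : (Pi.single X0 (1 : ℂ) : Vsp (Gamma0 p)) ∈ invSub (Γ := Gamma0 p) (T : SL(2, ℤ)) := by
    apply hmem
    intro y
    by_cases hy : y = X0
    · rw [hy, hX0, T_smul_x0]
    · have hy' : (T : SL(2, ℤ)) • y ≠ X0 := by
        intro h
        apply hy
        have : (T : SL(2, ℤ)) • y = (T : SL(2, ℤ)) • X0 := by rw [h, hX0, T_smul_x0]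
        exact (MulAction.injective (T : SL(2, ℤ))) this
      rw [Pi.single_eq_of_ne hy', Pi.single_eq_of_ne hy]
  have hEsurj : Function.Surjective E := by
    rintro ⟨α, β⟩
    refine ⟨β • ⟨_, hone⟩ + (α - β) • ⟨_, hdel⟩, ?_⟩
    simp only [E, LinearMap.comp_apply, Submodule.subtype_apply, LinearMap.prod_apply]
    ext <;> simp [Pi.single_eq_of_ne hne]
  have hfin : finrank ℂ ↥(invSub (Γ := Gamma0 p) (T : SL(2, ℤ))) = finrank ℂ (ℂ × ℂ) := by
    rw [finrank_invSub_T, Module.finrank_prod, Module.finrank_self]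
  have hEinj : Function.Injective E :=
    (LinearMap.injective_iff_surjective_of_finrank_eq_finrank hfin).mpr hEsurj
  -- compare `f` with the combination
  let f' : ↥(invSub (Γ := Gamma0 p) (T : SL(2, ℤ))) := ⟨f, hmem f hf⟩
  let g' : ↥(invSub (Γ := Gamma0 p) (T : SL(2, ℤ))) :=
    f X1 • ⟨_, hone⟩ + (f X0 - f X1) • ⟨_, hdel⟩
  have hEq : E f' = E g' := by
    simp only [E, f', g', LinearMap.comp_apply, Submodule.subtype_apply, LinearMap.prod_apply]
    ext <;> simp [Pi.single_eq_of_ne hne]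
  have hfg := congrArg Subtype.val (hEinj hEq)
  have := congrFun hfg x
  simp only [g', Submodule.coe_add, Submodule.coe_smul, Pi.add_apply, Pi.smul_apply,
    smul_eq_mul, Pi.single_eq_of_ne hx, mul_one, mul_zero, add_zero] at this
  exact this

/-- **PRIME CONSUMER FORM.**  For `p` prime: given `a, b : X → ℂ` with `a + S·a = 0`,
`b + U·b + U²·b = 0` (`U = S * T`) and `b x0 = a x0`, there are a PARABOLIC `φ` and a `0`-cochain `v`
with `v x0 = 0` such that `Φ := cocOf φ + cobd v` has `Φ S = a` and `Φ (S * T) = b`. -/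
theorem exists_parabolic_prime
    (a b : Vsp (Gamma0 p))
    (ha : ∀ x, a x + a (S • x) = 0)
    (hb : ∀ x, b x + b ((S * T) • x) + b ((S * T) • (S * T) • x) = 0)
    (h0 : b (x0 (Gamma0 p)) = a (x0 (Gamma0 p))) :
    ∃ φ ∈ parabolicHoms ℂ (Gamma0 p) ℂ, ∃ v : Vsp (Gamma0 p), v (x0 (Gamma0 p)) = 0 ∧
      (∀ x, cocOf (Gamma0 p) φ S x + (v (S • x) - v x) = a x) ∧
      (∀ x, cocOf (Gamma0 p) φ (S * T) x + (v ((S * T) • x) - v x) = b x) := by
  classical
  have := Fintype.ofFinite (SL(2, ℤ) ⧸ Gamma0 p)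
  apply exists_parabolic_of_kap_eq_zero p a b ha hb
  -- sums of `a` and `b` vanish
  have hsa : ∑ x, a x = 0 := by
    have h1 : ∑ x, (a x + a ((S : SL(2, ℤ)) • x)) = 0 :=
      Finset.sum_eq_zero (fun x _ => ha x)
    rw [Finset.sum_add_distrib] at h1
    have h2 := Equiv.sum_comp (MulAction.toPerm (S : SL(2, ℤ)) :
      Equiv.Perm (SL(2, ℤ) ⧸ Gamma0 p)) a
    simp only [MulAction.toPerm_apply] at h2
    rw [h2] at h1
    have : (2 : ℂ) * ∑ x, a x = 0 := by rw [two_mul]; exact h1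
    simpa using this
  have hsb : ∑ x, b x = 0 := by
    have h1 : ∑ x, (b x + b ((S * T : SL(2, ℤ)) • x) + b ((S * T : SL(2, ℤ)) • (S * T) • x)) = 0 :=
      Finset.sum_eq_zero (fun x _ => hb x)
    rw [Finset.sum_add_distrib, Finset.sum_add_distrib] at h1
    have h2 := Equiv.sum_comp (MulAction.toPerm (S * T : SL(2, ℤ)) :
      Equiv.Perm (SL(2, ℤ) ⧸ Gamma0 p)) b
    have h3 := Equiv.sum_comp (MulAction.toPerm (S * T : SL(2, ℤ)) :
      Equiv.Perm (SL(2, ℤ) ⧸ Gamma0 p)) (fun x => b ((S * T : SL(2, ℤ)) • x))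
    simp only [MulAction.toPerm_apply] at h2 h3
    rw [h3, h2] at h1
    have : (3 : ℂ) * ∑ x, b x = 0 := by linear_combination h1
    simpa using this
  have hsaT : ∑ x, a ((T : SL(2, ℤ)) • x) = 0 := by
    have h2 := Equiv.sum_comp (MulAction.toPerm (T : SL(2, ℤ)) :
      Equiv.Perm (SL(2, ℤ) ⧸ Gamma0 p)) a
    simp only [MulAction.toPerm_apply] at h2
    rw [h2, hsa]
  apply exists_sub_of_orth (T : SL(2, ℤ)) (fun x => b x - a ((T : SL(2, ℤ)) • x))
  intro f hf
  have hfx : ∀ x, f x = f ((S : SL(2, ℤ)) • x0 (Gamma0 p))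
      + (f (x0 (Gamma0 p)) - f ((S : SL(2, ℤ)) • x0 (Gamma0 p)))
        * (Pi.single (x0 (Gamma0 p)) (1 : ℂ) : Vsp (Gamma0 p)) x := by
    intro x
    by_cases hx : x = x0 (Gamma0 p)
    · rw [hx, Pi.single_eq_same]; ring
    · rw [Pi.single_eq_of_ne hx, invariant_eq p f hf x hx]; ring
  have hc0 : b (x0 (Gamma0 p)) - a ((T : SL(2, ℤ)) • x0 (Gamma0 p)) = 0 := by
    rw [T_smul_x0, h0, sub_self]
  calc ∑ x, (b x - a ((T : SL(2, ℤ)) • x)) * f x
      = ∑ x, ((b x - a ((T : SL(2, ℤ)) • x)) * f ((S : SL(2, ℤ)) • x0 (Gamma0 p))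
          + (f (x0 (Gamma0 p)) - f ((S : SL(2, ℤ)) • x0 (Gamma0 p)))
            * ((b x - a ((T : SL(2, ℤ)) • x))
              * (Pi.single (x0 (Gamma0 p)) (1 : ℂ) : Vsp (Gamma0 p)) x)) := by
        apply Finset.sum_congr rfl
        intro x _
        conv_lhs => rw [hfx x]
        ring
    _ = 0 := by
        rw [Finset.sum_add_distrib, ← Finset.sum_mul, ← Finset.mul_sum, Finset.sum_sub_distrib,
          hsb, hsaT, sub_zero, zero_mul, zero_add]
        have : ∑ x, (b x - a ((T : SL(2, ℤ)) • x))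
            * (Pi.single (x0 (Gamma0 p)) (1 : ℂ) : Vsp (Gamma0 p)) x
            = b (x0 (Gamma0 p)) - a ((T : SL(2, ℤ)) • x0 (Gamma0 p)) := by
          rw [Finset.sum_eq_single (x0 (Gamma0 p))]
          · rw [Pi.single_eq_same, mul_one]
          · intro x _ hx
            rw [Pi.single_eq_of_ne hx, mul_zero]
          · intro h; exact absurd (Finset.mem_univ _) h
        rw [this, hc0, mul_zero]

end prime

end

end Fermat.Agent.S16.LB.RangeTheta
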