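/-
T16 / LB-LIFT (helper95): the lifting lemma of the Shimura-class route.

A homomorphism `phi : Γ₀(p) → ZMod n` killing the parabolic elements and the elements of finite
order lifts to a PARABOLIC homomorphism `Γ₀(p) → ℤ`.

Proof (no presentation of `SL(2,ℤ)`): the cocycle pair `(Ψ S, Ψ (S*T))` of the induced
`ZMod n`-valued cocycle `Ψ` on `Fun(SL(2,ℤ)/Γ₀(p), ZMod n)` lifts orbit-wise to an INTEGRAL pair
`(a, b)` with the `S`- and `U`-relations and `a x0 = b x0`; by the dimension equality `S20 + S21`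
(`RangeTheta(Prime)`, helper64) such a pair is the restriction of `cocOf φ + cobd v` for a complex
parabolic homomorphism `φ`.  The cocycle is integral and `≡ Ψ mod n` on the generators `S`, `S*T`,
hence everywhere (one closure induction), and `φ γ` is its value at the base point.
-/
import Fermat.Agent.S16.LB.CocycleR
import Fermat.Agent.S16.LB.OrbitLift
import Fermat.Agent.S16.LB.RangeThetaPrime

set_option autoImplicit false

open CongruenceSubgroup ModularGroup
open scoped MatrixGroups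

namespace Fermat.Agent.S16.LB.SH

open Fermat.Agent.S21_helper64 Fermat.Agent.S16.LB.RangeTheta
open ModularCurve.Period

noncomputable section

variable (p : ℕ) [Fact p.Prime]

/-- conjugates of elements of finite order have finite order (inside the subgroup). -/
lemma isOfFinOrder_conj_mem {G : Type*} [Group G] (Γ : Subgroup G) (h g : G) (k : ℕ) (hk : 0 < k)
    (hh : h ^ k = 1) (hm : g⁻¹ * h * g ∈ Γ) : IsOfFinOrder (⟨g⁻¹ * h * g, hm⟩ : Γ) := by
  rw [isOfFinOrder_iff_pow_eq_one]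
  refine ⟨k, hk, ?_⟩
  apply Subtype.ext
  rw [Subgroup.coe_pow]
  show (g⁻¹ * h * g) ^ k = 1
  have : g⁻¹ * h * g = g⁻¹ * h * g⁻¹⁻¹ := by rw [inv_inv]
  rw [this, conj_pow, hh, mul_one, inv_inv, inv_mul_cancel]

lemma S_pow_four : (S : SL(2, ℤ)) ^ 4 = 1 := by
  have h : (S : SL(2, ℤ)) ^ 4 = (S * S) * (S * S) := by
    rw [show (4 : ℕ) = 2 + 2 from rfl, pow_add, pow_two]
  rw [h, S_mul_S_SL]
  simp

lemma ST_pow_six : (S * T : SL(2, ℤ)) ^ 6 = 1 := by
  have h3 : (S * T : SL(2, ℤ)) ^ 3 = -1 := by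
    rw [pow_succ, pow_two, ST_cube]
  rw [show (6 : ℕ) = 3 * 2 from rfl, pow_mul, h3, pow_two]
  simp

lemma neg_one_sq : ((-1 : SL(2, ℤ))) ^ 2 = 1 := by
  rw [pow_two]; simp

theorem exists_parabolic_lift (n : ℕ) [NeZero n]
    (phi : Additive (Gamma0 p) →+ ZMod n)
    (hfin : ∀ g : Gamma0 p, IsOfFinOrder g → phi (Additive.ofMul g) = 0)
    (hpar : IsParabolicHom (Gamma0 p) phi) :
    ∃ Phi : Additive (Gamma0 p) →+ ℤ, IsParabolicHom (Gamma0 p) Phi ∧
      ∀ g, ((Phi g : ℤ) : ZMod n) = phi g := by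
  classical
  have : NeZero p := ⟨(Fact.out : p.Prime).ne_zero⟩
  -- the `ZMod n`-valued cocycle
  set Ψ : SL(2, ℤ) → (SL(2, ℤ) ⧸ Gamma0 p) → ZMod n := cocOfR (Gamma0 p) phi with hΨdef
  have hΨ : IsCocR Ψ := cocOfR_isCocR (Gamma0 p) phi
  -- values at fixed points of finite-order elements vanish
  have hfix : ∀ (h : SL(2, ℤ)) (k : ℕ), 0 < k → h ^ k = 1 →
      ∀ x : SL(2, ℤ) ⧸ Gamma0 p, h • x = x → Ψ h x = 0 := by
    intro h k hk hh x hx
    rw [hΨdef, cocOfR_apply_of_fixed (Gamma0 p) phi h x hx]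
    exact hfin _ (isOfFinOrder_conj_mem (Gamma0 p) h x.out k hk hh _)
  have hz : Ψ (-1) = 0 := by
    funext x
    exact hfix (-1) 2 (by norm_num) neg_one_sq x ((setup_Gamma0 p).z_smul x)
  -- the relations of `abar = Ψ S`, `bbar = Ψ (S*T)`
  have habar1 : ∀ x, Ψ S x + Ψ S (S • x) = 0 := by
    intro x
    have h := congrFun (hΨ S S) x
    rw [S_mul_S_SL, hz] at h
    simp only [Pi.zero_apply, Pi.add_apply, RopR_apply] at h
    rw [add_comm]; exact h.symm
  have habar0 : ∀ x, S • x = x → Ψ S x = 0 := fun x hx =>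
    hfix S 4 (by norm_num) S_pow_four x hx
  have hbbar1 : ∀ x, Ψ (S * T) x + Ψ (S * T) ((S * T) • x)
      + Ψ (S * T) ((S * T) • (S * T) • x) = 0 := by
    intro x
    have h1 := congrFun (hΨ ((S * T) * (S * T)) (S * T)) x
    have h2 := congrFun (hΨ (S * T) (S * T)) ((S * T) • x)
    rw [ST_cube, hz] at h1
    simp only [Pi.zero_apply, Pi.add_apply, RopR_apply] at h1 h2
    rw [h2] at h1
    rw [h1]; ring
  have hbbar0 : ∀ x, (S * T) • x = x → Ψ (S * T) x = 0 := fun x hx =>
    hfix (S * T) 6 (by norm_num) ST_pow_six x hx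
  -- `abar x0 = bbar x0` because `phi T = 0`
  have hTmem : (T : SL(2, ℤ)) ∈ Gamma0 p := by
    rw [Gamma0_mem]; simp [ModularGroup.coe_T]
  have hx0eq : Ψ S (x0 (Gamma0 p)) = Ψ (S * T) (x0 (Gamma0 p)) := by
    -- Ψ (S * T) = Rop T (Ψ S) + Ψ T and Ψ T x0 = phi T = 0
    have h1 := congrFun (hΨ S T) (x0 (Gamma0 p))
    simp only [Pi.add_apply, RopR_apply] at h1
    rw [T_smul_x0 p] at h1
    have h2 : Ψ T (x0 (Gamma0 p)) = 0 := by
      have := cocOfR_apply_x0 (Gamma0 p) phi ⟨T, hTmem⟩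
      rw [hΨdef]
      rw [this]
      apply hpar
      show ((T : SL(2, ℤ)) : Matrix (Fin 2) (Fin 2) ℤ).trace ^ 2 = 4
      rw [ModularGroup.coe_T, Matrix.trace_fin_two_of]
      norm_num
    rw [h2, add_zero] at h1
    exact h1.symm
  -- integral lifts
  obtain ⟨a₀, ha₀1, ha₀c⟩ := exists_lift_invol (fun x : SL(2, ℤ) ⧸ Gamma0 p => S • x)
    (fun x => S_smul_smul p x) n (Ψ S) habar1 habar0
  obtain ⟨b, hb1, hbc⟩ := exists_lift_three (fun x : SL(2, ℤ) ⧸ Gamma0 p => (S * T) • x)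
    (fun x => ST_smul_smul_smul p x) n (Ψ (S * T)) hbbar1 hbbar0
  -- correct `a₀` at the base point
  set X0 := x0 (Gamma0 p) with hX0
  set X1 := (S : SL(2, ℤ)) • x0 (Gamma0 p) with hX1
  have hne : X1 ≠ X0 := S_smul_x0_ne p
  have hSX1 : (S : SL(2, ℤ)) • X1 = X0 := S_smul_smul p X0
  set k : ℤ := b X0 - a₀ X0 with hk
  have hkn : ((k : ℤ) : ZMod n) = 0 := by
    rw [hk, Int.cast_sub, hbc, ha₀c, hx0eq, sub_self]
  set a : (SL(2, ℤ) ⧸ Gamma0 p) → ℤ :=
    fun x => a₀ x + (if x = X0 then k else 0) - (if x = X1 then k else 0) with ha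
  have ha1 : ∀ x, a x + a (S • x) = 0 := by
    intro x
    have e1 : ((S : SL(2, ℤ)) • x = X0) ↔ x = X1 := by
      constructor
      · intro h
        have := congrArg (fun y => (S : SL(2, ℤ)) • y) h
        simp only [S_smul_smul p x] at this
        rw [this]
      · intro h; rw [h, hSX1]
    have e2 : ((S : SL(2, ℤ)) • x = X1) ↔ x = X0 := by
      constructor
      · intro h
        exact smul_left_cancel _ h
      · intro h; rw [h]
    simp only [ha]
    have := ha₀1 x
    by_cases h0 : x = X0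
    · have h1 : x ≠ X1 := fun h => hne (h.symm.trans h0)
      rw [if_pos h0, if_neg h1, if_neg (fun h => h1 (e1.mp h)), if_pos (e2.mpr h0)]
      linarith
    · by_cases h1 : x = X1
      · rw [if_neg h0, if_pos h1, if_pos (e1.mpr h1), if_neg (fun h => h0 (e2.mp h))]
        linarith
      · rw [if_neg h0, if_neg h1, if_neg (fun h => h1 (e1.mp h)), if_neg (fun h => h0 (e2.mp h))]
        linarith
  have hac : ∀ x, ((a x : ℤ) : ZMod n) = Ψ S x := by
    intro x
    simp only [ha]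
    rw [Int.cast_sub, Int.cast_add, ha₀c]
    split_ifs <;> simp [hkn]
  have haX0 : a X0 = b X0 := by
    show a₀ X0 + (if X0 = X0 then k else 0) - (if X0 = X1 then k else 0) = b X0
    rw [if_pos rfl, if_neg (fun h => hne h.symm), hk]
    ring
  -- complex versions
  set aC : Vsp (Gamma0 p) := fun x => ((a x : ℤ) : ℂ) with haC
  set bC : Vsp (Gamma0 p) := fun x => ((b x : ℤ) : ℂ) with hbC
  have haC1 : ∀ x, aC x + aC (S • x) = 0 := fun x => by
    simp only [haC]; exact_mod_cast ha1 x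
  have hbC1 : ∀ x, bC x + bC ((S * T) • x) + bC ((S * T) • (S * T) • x) = 0 := fun x => by
    simp only [hbC]; exact_mod_cast hb1 x
  have h0C : bC (x0 (Gamma0 p)) = aC (x0 (Gamma0 p)) := by
    simp only [haC, hbC]; exact_mod_cast haX0.symm
  obtain ⟨φ, hφ, v, hv0, hvS, hvU⟩ := exists_parabolic_prime p aC bC haC1 hbC1 h0C
  -- the complex cocycle
  set Φ : SL(2, ℤ) → Vsp (Gamma0 p) := fun g => cocOf (Gamma0 p) φ g + cobd v g with hΦdef
  have hΦ : IsCoc Φ := (cocOf_isCoc (Gamma0 p) φ).add (cobd_isCoc v)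
  -- integrality and congruence by closure induction
  have key : ∀ g : SL(2, ℤ), ∀ x, ∃ m : ℤ, Φ g x = (m : ℂ) ∧ ((m : ℤ) : ZMod n) = Ψ g x := by
    intro g
    have hg : g ∈ Subgroup.closure ({S, S * T} : Set SL(2, ℤ)) := by
      rw [closure_S_ST]; trivial
    induction hg using Subgroup.closure_induction with
    | mem y hy =>
      intro x
      rcases hy with rfl | rfl
      · refine ⟨a x, ?_, hac x⟩
        have := hvS x
        simp only [hΦdef, Pi.add_apply, cobd, Pi.sub_apply, Rop_apply]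
        rw [this]
      · refine ⟨b x, ?_, hbc x⟩
        have := hvU x
        simp only [hΦdef, Pi.add_apply, cobd, Pi.sub_apply, Rop_apply]
        rw [this]
    | one =>
      intro x
      refine ⟨0, ?_, ?_⟩
      · rw [hΦ.map_one]; simp
      · rw [hΨ.map_one]; simp
    | mul y y' _ _ hy hy' =>
      intro x
      obtain ⟨m1, h1, h1'⟩ := hy (y' • x)
      obtain ⟨m2, h2, h2'⟩ := hy' x
      refine ⟨m1 + m2, ?_, ?_⟩
      · rw [hΦ y y']
        simp only [Pi.add_apply, Rop_apply]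
        rw [h1, h2]; push_cast; ring
      · rw [hΨ y y']
        simp only [Pi.add_apply, RopR_apply]
        rw [← h1', ← h2']; push_cast; ring
    | inv y _ hy =>
      intro x
      obtain ⟨m1, h1, h1'⟩ := hy (y⁻¹ • x)
      refine ⟨-m1, ?_, ?_⟩
      · rw [hΦ.map_inv]
        simp only [Pi.neg_apply, Rop_apply]
        rw [h1]; push_cast; ring
      · rw [hΨ.map_inv]
        simp only [Pi.neg_apply, RopR_apply]
        rw [← h1']; push_cast; ring
  -- values of `φ`
  have hval : ∀ γ : Gamma0 p, ∃ m : ℤ, φ (Additive.ofMul γ) = (m : ℂ) ∧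
      ((m : ℤ) : ZMod n) = phi (Additive.ofMul γ) := by
    intro γ
    obtain ⟨m, h1, h2⟩ := key (γ : SL(2, ℤ)) (x0 (Gamma0 p))
    refine ⟨m, ?_, ?_⟩
    · rw [← h1, ← cocycle_apply_x0 p φ v γ]
      simp only [hΦdef, Pi.add_apply, cobd, Pi.sub_apply, Rop_apply]
    · rw [h2, hΨdef, cocOfR_apply_x0]
  choose mval hm1 hm2 using hval
  refine ⟨AddMonoidHom.mk' (fun γ => mval (Additive.toMul γ)) ?_, ?_, ?_⟩
  · intro γ γ'
    have h1 := hm1 (Additive.toMul γ)
    have h2 := hm1 (Additive.toMul γ')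
    have h3 := hm1 (Additive.toMul (γ + γ'))
    have h4 : φ (γ + γ') = φ γ + φ γ' := map_add φ γ γ'
    have : ((mval (Additive.toMul (γ + γ')) : ℤ) : ℂ)
        = ((mval (Additive.toMul γ) + mval (Additive.toMul γ') : ℤ) : ℂ) := by
      push_cast
      rw [← h1, ← h2, ← h3]
      exact h4
    exact_mod_cast this
  · intro γ hγ
    show mval γ = 0
    have h1 := hm1 γ
    rw [mem_parabolicHoms_iff] at hφ
    rw [hφ γ hγ] at h1
    exact_mod_cast h1.symm
  · intro γ
    exact hm2 (Additive.toMul γ)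

end

end Fermat.Agent.S16.LB.SH
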