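/-
T16 / LB-INV (helper23): compatibility of the Hecke coset decomposition with the involution
`γ ↦ J γ J`, `J = diag(1,-1)`, in a definition-independent form (board 1081).

If `α_x γ = t_x α_{σ x}` and `α_x (JγJ) = t'_x α_{σ' x}` for all `x` (`α_x` the prelude Hecke
representatives), then `∑_x φ(J t_x J) = ∑_x φ(t'_x)` for every homomorphism `φ : Γ₀(N) → A`.

EXPORTS (namespace `Fermat.Agent.S16.LB.Invol`):
* `Jgl`, `Jgl_mul_Jgl`, `mapGL_jConjSL`
* `sum_jConj_abstract`   : the abstract statement for a family `α : X → GL(2,ℝ)`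
* `sum_jConj_heckeRep`   : `X = OnePoint (ZMod l)`, `α = heckeRep l` (`l` prime)
* `sum_jConj_heckeMatrix`: `X = ZMod l`, `α x = heckeMatrix l x.val` (`l ≠ 0`)
-/
import Mathlib
import Fermat.Prelude.Sol.S_ModularForm_heckeT_slash_eq_self_of_mem_Gamma0
import Fermat.Prelude.Def_ModularCurve_PeriodHomPair

set_option autoImplicit false
set_option linter.unusedSectionVars false

open CongruenceSubgroup Matrix.SpecialLinearGroup ModularForm
open scoped MatrixGroups OnePoint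

namespace Fermat.Agent.S16.LB.Invol

open ModularCurve.Period
open P2MW.S_ModularForm_heckeT_slash_eq_self_of_mem_Gamma0.ModularForm.HeckeSlashInvariance

/-- `J = diag(1, -1)` in `GL(2, ℝ)`. -/
noncomputable def Jgl : GL (Fin 2) ℝ :=
  Matrix.GeneralLinearGroup.mkOfDetNeZero !![1, 0; 0, -1] (by simp [Matrix.det_fin_two_of])

@[simp] lemma val_Jgl : ((Jgl : GL (Fin 2) ℝ) : Matrix (Fin 2) (Fin 2) ℝ) = !![1, 0; 0, -1] := rfl

lemma Jgl_mul_Jgl : Jgl * Jgl = 1 := by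
  ext i j
  fin_cases i <;> fin_cases j <;> simp [Matrix.mul_apply, Fin.sum_univ_two]

lemma mapGL_jConjSL (g : SL(2, ℤ)) : mapGL ℝ (jConjSL g) = Jgl * mapGL ℝ g * Jgl := by
  ext i j
  fin_cases i <;> fin_cases j <;>
    simp [Matrix.mul_apply, Fin.sum_univ_two, jConjMat, Matrix.vecMul, dotProduct]

/-- conjugation by `J` is multiplicative. -/
lemma Jgl_conj_mul (a b : GL (Fin 2) ℝ) : Jgl * (a * b) * Jgl = (Jgl * a * Jgl) * (Jgl * b * Jgl) := by
  calc Jgl * (a * b) * Jgl = Jgl * a * (1 : GL (Fin 2) ℝ) * b * Jgl := by group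
    _ = Jgl * a * (Jgl * Jgl) * b * Jgl := by rw [Jgl_mul_Jgl]
    _ = (Jgl * a * Jgl) * (Jgl * b * Jgl) := by group

/-- **Abstract form** of LB-INV. -/
theorem sum_jConj_abstract {N : ℕ} {X : Type*} [Fintype X] {A : Type*} [AddCommGroup A]
    (α : X → GL (Fin 2) ℝ) (bar : Equiv.Perm X) (δ : X → ↥(Gamma0 N))
    (hJ : ∀ x, Jgl * α x * Jgl = mapGL ℝ ((δ x : ↥(Gamma0 N)) : SL(2, ℤ)) * α (bar x))
    (huniq : ∀ (y1 y2 : X) (g : SL(2, ℤ)), α y1 = mapGL ℝ g * α y2 → y1 = y2 ∧ g = 1)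
    (φ : Additive ↥(Gamma0 N) →+ A) (γ : ↥(Gamma0 N)) (σ σ' : Equiv.Perm X)
    (t t' : X → ↥(Gamma0 N))
    (h : ∀ x, α x * mapGL ℝ ((γ : ↥(Gamma0 N)) : SL(2, ℤ)) =
      mapGL ℝ ((t x : ↥(Gamma0 N)) : SL(2, ℤ)) * α (σ x))
    (h' : ∀ x, α x * mapGL ℝ ((jConjGamma0 N γ : ↥(Gamma0 N)) : SL(2, ℤ)) =
      mapGL ℝ ((t' x : ↥(Gamma0 N)) : SL(2, ℤ)) * α (σ' x)) :
    ∑ x, φ (Additive.ofMul (jConjGamma0 N (t x))) = ∑ x, φ (Additive.ofMul (t' x)) := by
  -- the key identity in `Γ₀(N)`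
  have key : ∀ x, δ x * t' (bar x) = jConjGamma0 N (t x) * δ (σ x) := by
    intro x
    have e1 : Jgl * (α x * mapGL ℝ ((γ : ↥(Gamma0 N)) : SL(2, ℤ))) * Jgl =
        Jgl * (mapGL ℝ ((t x : ↥(Gamma0 N)) : SL(2, ℤ)) * α (σ x)) * Jgl := by rw [h x]
    rw [Jgl_conj_mul, Jgl_conj_mul, hJ x, hJ (σ x), ← mapGL_jConjSL, ← mapGL_jConjSL] at e1
    have e2 := h' (bar x)
    rw [jConjGamma0_coe] at e2
    rw [mul_assoc, e2] at e1
    -- `mapGL (δ x) * (mapGL (t' (bar x)) * α (σ' (bar x))) = mapGL (jConj t x) * (mapGL (δ (σ x)) * α (bar (σ x)))`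
    have e3 : α (σ' (bar x)) =
        mapGL ℝ ((((δ x : ↥(Gamma0 N)) : SL(2, ℤ)) * ((t' (bar x) : ↥(Gamma0 N)) : SL(2, ℤ)))⁻¹ *
          (jConjSL ((t x : ↥(Gamma0 N)) : SL(2, ℤ)) * ((δ (σ x) : ↥(Gamma0 N)) : SL(2, ℤ)))) *
          α (bar (σ x)) := by
      have e4 : (mapGL ℝ ((δ x : ↥(Gamma0 N)) : SL(2, ℤ)) *
          mapGL ℝ ((t' (bar x) : ↥(Gamma0 N)) : SL(2, ℤ))) * α (σ' (bar x)) =
          (mapGL ℝ (jConjSL ((t x : ↥(Gamma0 N)) : SL(2, ℤ))) *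
            mapGL ℝ ((δ (σ x) : ↥(Gamma0 N)) : SL(2, ℤ))) * α (bar (σ x)) := by
        rw [mul_assoc, mul_assoc]; exact e1
      rw [map_mul, map_inv, map_mul, map_mul, mul_assoc, ← e4, inv_mul_cancel_left]
    obtain ⟨-, hg⟩ := huniq _ _ _ e3
    rw [inv_mul_eq_one] at hg
    apply Subtype.ext
    rw [Subgroup.coe_mul, Subgroup.coe_mul, jConjGamma0_coe]
    exact hg
  have key2 : ∀ x, φ (Additive.ofMul (δ x)) + φ (Additive.ofMul (t' (bar x))) =
      φ (Additive.ofMul (jConjGamma0 N (t x))) + φ (Additive.ofMul (δ (σ x))) := by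
    intro x
    have := congrArg (fun g => φ (Additive.ofMul g)) (key x)
    simpa only [ofMul_mul, map_add] using this
  have key3 := Finset.sum_congr (rfl : (Finset.univ : Finset X) = Finset.univ)
    (fun x _ => key2 x)
  rw [Finset.sum_add_distrib, Finset.sum_add_distrib,
    Equiv.sum_comp σ (fun x => φ (Additive.ofMul (δ x))),
    Equiv.sum_comp bar (fun x => φ (Additive.ofMul (t' x)))] at key3
  rw [add_comm (∑ x, φ (Additive.ofMul (jConjGamma0 N (t x)))) _] at key3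
  exact (add_left_cancel key3).symm

/-! ### The explicit representatives -/

/-- `T` as an element of `Γ₀(N)`. -/
def Tel (N : ℕ) : ↥(Gamma0 N) :=
  ⟨ModularGroup.T, by rw [Gamma0_mem]; simp [ModularGroup.coe_T]⟩

/-- `e_j = (j.val + (-j).val) / l ∈ {0, 1}`. -/
def eNum (l : ℕ) (j : ZMod l) : ℕ := (j.val + (-j).val) / l

lemma eNum_mul {l : ℕ} [NeZero l] (j : ZMod l) : eNum l j * l = j.val + (-j).val := by
  apply Nat.div_mul_cancel
  rw [← ZMod.natCast_eq_zero_iff]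
  push_cast
  rw [ZMod.natCast_zmod_val, ZMod.natCast_zmod_val]
  ring

/-- `δ_j = T ^ (-e_j) ∈ Γ₀(N)`. -/
def delta (N l : ℕ) (j : ZMod l) : ↥(Gamma0 N) := Tel N ^ (-(eNum l j : ℤ))

lemma coe_delta (N l : ℕ) (j : ZMod l) :
    ((delta N l j : ↥(Gamma0 N)) : SL(2, ℤ)) = ModularGroup.T ^ (-(eNum l j : ℤ)) := by
  rw [delta, Subgroup.coe_zpow]
  rfl

lemma mapGL_T_zpow_apply (n : ℤ) (a b : Fin 2) :
    (mapGL ℝ (ModularGroup.T ^ n) : GL (Fin 2) ℝ) a b =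
      (((!![1, n; 0, 1] : Matrix (Fin 2) (Fin 2) ℤ) a b : ℤ) : ℝ) := by
  rw [mapGL_apply]
  congr 1
  exact congrFun (congrFun (ModularGroup.coe_T_zpow n) a) b

lemma eq_one_of_eq_mapGL_mul {a : GL (Fin 2) ℝ} {g : SL(2, ℤ)} (h : a = mapGL ℝ g * a) :
    g = 1 := by
  have h1 : (1 : GL (Fin 2) ℝ) = mapGL ℝ g :=
    mul_right_cancel (b := a) (by rw [one_mul]; exact h)
  exact Matrix.SpecialLinearGroup.mapGL_injective (R := ℤ) (S := ℝ) (by rw [← h1, map_one])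

section hecke

variable {l : ℕ} [NeZero l]

lemma Jgl_heckeMatrix (N : ℕ) (j : ZMod l) :
    Jgl * heckeMatrix l j.val * Jgl =
      mapGL ℝ ((delta N l j : ↥(Gamma0 N)) : SL(2, ℤ)) * heckeMatrix l (-j).val := by
  have hl : l ≠ 0 := NeZero.ne l
  have he : ((eNum l j : ℕ) : ℝ) * (l : ℝ) = (j.val : ℝ) + ((-j).val : ℝ) := by
    exact_mod_cast eNum_mul j
  rw [coe_delta]
  ext a b
  simp only [Matrix.GeneralLinearGroup.coe_mul, Matrix.mul_apply, Fin.sum_univ_two,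
    mapGL_T_zpow_apply, val_heckeMatrix hl, val_Jgl]
  fin_cases a <;> fin_cases b <;> simp [-ZMod.natCast_val]
  linear_combination he

lemma Jgl_heckeDiagMatrix : Jgl * heckeDiagMatrix l * Jgl = heckeDiagMatrix l := by
  have hl : l ≠ 0 := NeZero.ne l
  ext a b
  fin_cases a <;> fin_cases b <;>
    simp [hl, Matrix.mul_apply, Fin.sum_univ_two]

lemma heckeMatrix_uniq (j1 j2 : ZMod l) (g : SL(2, ℤ))
    (h : heckeMatrix l j1.val = mapGL ℝ g * heckeMatrix l j2.val) : j1 = j2 ∧ g = 1 := by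
  have hl : l ≠ 0 := NeZero.ne l
  have h00 := congrArg (fun M : GL (Fin 2) ℝ => (M : Matrix (Fin 2) (Fin 2) ℝ) 0 0) h
  have h01 := congrArg (fun M : GL (Fin 2) ℝ => (M : Matrix (Fin 2) (Fin 2) ℝ) 0 1) h
  simp [-ZMod.natCast_val, hl, Matrix.mul_apply, Fin.sum_univ_two] at h00 h01
  have h00' : (g 0 0 : ℤ) = 1 := by exact_mod_cast h00.symm
  rw [← h00] at h01
  have h01' : ((j1.val : ℕ) : ℤ) = (j2.val : ℤ) + g 0 1 * (l : ℤ) := by
    have : ((j1.val : ℕ) : ℝ) = (j2.val : ℝ) + ((g 0 1 : ℤ) : ℝ) * (l : ℝ) := by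
      linear_combination h01
    exact_mod_cast this
  have hj : j1 = j2 := by
    have := congrArg (Int.cast : ℤ → ZMod l) h01'
    push_cast at this
    rw [ZMod.natCast_zmod_val, ZMod.natCast_zmod_val, ZMod.natCast_self, mul_zero, add_zero] at this
    exact this
  subst hj
  exact ⟨rfl, eq_one_of_eq_mapGL_mul h⟩

/-- **LB-INV, `U`-case** (`l ≠ 0`, representatives `heckeMatrix l x.val`, `x : ZMod l`). -/
theorem sum_jConj_heckeMatrix {N : ℕ} {A : Type*} [AddCommGroup A]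
    (φ : Additive ↥(Gamma0 N) →+ A) (γ : ↥(Gamma0 N)) (σ σ' : Equiv.Perm (ZMod l))
    (t t' : ZMod l → ↥(Gamma0 N))
    (h : ∀ x, heckeMatrix l x.val * mapGL ℝ ((γ : ↥(Gamma0 N)) : SL(2, ℤ)) =
      mapGL ℝ ((t x : ↥(Gamma0 N)) : SL(2, ℤ)) * heckeMatrix l (σ x).val)
    (h' : ∀ x, heckeMatrix l x.val * mapGL ℝ ((jConjGamma0 N γ : ↥(Gamma0 N)) : SL(2, ℤ)) =
      mapGL ℝ ((t' x : ↥(Gamma0 N)) : SL(2, ℤ)) * heckeMatrix l (σ' x).val) :
    ∑ x, φ (Additive.ofMul (jConjGamma0 N (t x))) = ∑ x, φ (Additive.ofMul (t' x)) :=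
  sum_jConj_abstract (fun x : ZMod l => heckeMatrix l x.val) (Equiv.neg (ZMod l))
    (fun x => delta N l x) (fun x => Jgl_heckeMatrix N x)
    (fun y1 y2 g hg => heckeMatrix_uniq y1 y2 g hg) φ γ σ σ' t t' h h'

end hecke

section heckeRep

variable {l : ℕ} [Fact l.Prime]

/-- `x ↦ -x` on `ℙ¹(𝔽_l)`. -/
def negOnePoint (l : ℕ) : Equiv.Perm (OnePoint (ZMod l)) :=
  Function.Involutive.toPerm
    (fun x => x.elim ∞ (fun j => ((-j : ZMod l) : OnePoint (ZMod l))))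
    (by
      intro x
      induction x using OnePoint.rec with
      | infty => rfl
      | coe j => simp)

@[simp] lemma negOnePoint_infty : negOnePoint l ∞ = ∞ := rfl

@[simp] lemma negOnePoint_coe (j : ZMod l) :
    negOnePoint l (j : OnePoint (ZMod l)) = ((-j : ZMod l) : OnePoint (ZMod l)) := rfl

/-- `δ_x` on `ℙ¹(𝔽_l)`. -/
def deltaOnePoint (N l : ℕ) (x : OnePoint (ZMod l)) : ↥(Gamma0 N) :=
  x.elim 1 (fun j => delta N l j)

lemma Jgl_heckeRep (N : ℕ) (x : OnePoint (ZMod l)) :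
    Jgl * heckeRep l x * Jgl =
      mapGL ℝ ((deltaOnePoint N l x : ↥(Gamma0 N)) : SL(2, ℤ)) * heckeRep l (negOnePoint l x) := by
  induction x using OnePoint.rec with
  | infty =>
    rw [negOnePoint_infty, heckeRep_infty, Jgl_heckeDiagMatrix]
    show _ = mapGL ℝ (((1 : ↥(Gamma0 N)) : ↥(Gamma0 N)) : SL(2, ℤ)) * _
    rw [Subgroup.coe_one, map_one, one_mul]
  | coe j =>
    rw [negOnePoint_coe, heckeRep_coe, heckeRep_coe]
    exact Jgl_heckeMatrix N j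

lemma heckeRep_uniq (y1 y2 : OnePoint (ZMod l)) (g : SL(2, ℤ))
    (h : heckeRep l y1 = mapGL ℝ g * heckeRep l y2) : y1 = y2 ∧ g = 1 := by
  have hl : l ≠ 0 := (Fact.out : l.Prime).ne_zero
  have hl1 : ¬ (l : ℤ) ∣ 1 := by
    intro hd
    have := Int.natCast_dvd_natCast.mp (by simpa using hd : ((l : ℕ) : ℤ) ∣ ((1 : ℕ) : ℤ))
    exact (Fact.out : l.Prime).one_lt.ne' (Nat.dvd_one.mp this)
  induction y1 using OnePoint.rec with
  | infty =>
    induction y2 using OnePoint.rec with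
    | infty => exact ⟨rfl, eq_one_of_eq_mapGL_mul h⟩
    | coe j2 =>
      exfalso
      rw [heckeRep_infty, heckeRep_coe] at h
      have h10 := congrArg (fun M : GL (Fin 2) ℝ => (M : Matrix (Fin 2) (Fin 2) ℝ) 1 0) h
      have h11 := congrArg (fun M : GL (Fin 2) ℝ => (M : Matrix (Fin 2) (Fin 2) ℝ) 1 1) h
      simp [hl, Matrix.mul_apply, Fin.sum_univ_two] at h10 h11
      rw [← h10] at h11
      apply hl1
      refine ⟨g 1 1, ?_⟩
      have : ((1 : ℤ) : ℝ) = (((l : ℤ) * g 1 1 : ℤ) : ℝ) := by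
        push_cast
        linear_combination h11
      exact_mod_cast this
  | coe j1 =>
    induction y2 using OnePoint.rec with
    | infty =>
      exfalso
      rw [heckeRep_infty, heckeRep_coe] at h
      have h00 := congrArg (fun M : GL (Fin 2) ℝ => (M : Matrix (Fin 2) (Fin 2) ℝ) 0 0) h
      simp [hl, Matrix.mul_apply, Fin.sum_univ_two] at h00
      apply hl1
      refine ⟨g 0 0, ?_⟩
      have : ((1 : ℤ) : ℝ) = (((l : ℤ) * g 0 0 : ℤ) : ℝ) := by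
        push_cast
        linear_combination h00
      exact_mod_cast this
    | coe j2 =>
      rw [heckeRep_coe, heckeRep_coe] at h
      have : NeZero l := ⟨hl⟩
      obtain ⟨hj, hg⟩ := heckeMatrix_uniq j1 j2 g h
      exact ⟨by rw [hj], hg⟩

/-- **LB-INV, `T`-case** (`l` prime, representatives `heckeRep l x`, `x : ℙ¹(𝔽_l)`). -/
theorem sum_jConj_heckeRep {N : ℕ} {A : Type*} [AddCommGroup A]
    (φ : Additive ↥(Gamma0 N) →+ A) (γ : ↥(Gamma0 N)) (σ σ' : Equiv.Perm (OnePoint (ZMod l)))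
    (t t' : OnePoint (ZMod l) → ↥(Gamma0 N))
    (h : ∀ x, heckeRep l x * mapGL ℝ ((γ : ↥(Gamma0 N)) : SL(2, ℤ)) =
      mapGL ℝ ((t x : ↥(Gamma0 N)) : SL(2, ℤ)) * heckeRep l (σ x))
    (h' : ∀ x, heckeRep l x * mapGL ℝ ((jConjGamma0 N γ : ↥(Gamma0 N)) : SL(2, ℤ)) =
      mapGL ℝ ((t' x : ↥(Gamma0 N)) : SL(2, ℤ)) * heckeRep l (σ' x)) :
    ∑ x, φ (Additive.ofMul (jConjGamma0 N (t x))) = ∑ x, φ (Additive.ofMul (t' x)) :=
  sum_jConj_abstract (heckeRep l) (negOnePoint l) (deltaOnePoint N l)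
    (fun x => Jgl_heckeRep N x) (fun y1 y2 g hg => heckeRep_uniq y1 y2 g hg) φ γ σ σ' t t' h h'

end heckeRep

end Fermat.Agent.S16.LB.Invol
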