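/-
T16 / LB-H2 part 2 (helper86): packaging of the period equivariance for `periodHomPair`,
abstract in the cohomological Hecke operator `τ` (to be instantiated with LB-H1's `cohGen ℂ l`).

EXPORTS (namespace `Fermat.Agent.S16.LB.HeckePeriod`):
* `periodHomPair_of_periodMap`
* `periodHomPair_heckeT_of`, `periodHomPair_heckeU_of`
* `periodHomPair_heckeFormsGen_of` : exactly the shape `hper` of `KerDvd.ker_dvd_of`
-/
import Mathlib
import Fermat.Agent.S16.LB.HeckePeriod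
import Fermat.Prelude.Def_CuspForm_HeckeEvalForms

set_option autoImplicit false

open UpperHalfPlane hiding I
open ModularForm Complex Filter Topology CongruenceSubgroup
open scoped MatrixGroups ModularForm Manifold OnePoint

namespace Fermat.Agent.S16.LB.HeckePeriod

open Fermat.Agent.S21_helper65 ModularCurve ModularCurve.Period
open P2MW.S_ModularForm_heckeT_slash_eq_self_of_mem_Gamma0.ModularForm.HeckeSlashInvariance
open Matrix.SpecialLinearGroup

/-- Abstract packaging: an additive operator `τ` on `Hom(Γ₀(N), ℂ)` which commutes with the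
character involution and intertwines the period map with a linear operator `T` on cusp forms
intertwines the period pair map. -/
theorem periodHomPair_of_periodMap {N : ℕ} [NeZero N]
    (T : CuspForm (Gamma0 N) 2 → CuspForm (Gamma0 N) 2)
    (τ : (Additive (Gamma0 N) →+ ℂ) →+ (Additive (Gamma0 N) →+ ℂ))
    (hT : ∀ f, periodMap N (T f) = τ (periodMap N f))
    (hinv : ∀ φ, τ (charInvolution N ℂ ℂ φ) = charInvolution N ℂ ℂ (τ φ))
    (f g : CuspForm (Gamma0 N) 2) :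
    periodHomPair N (T f, T g) = τ (periodHomPair N (f, g)) := by
  rw [periodHomPair_apply, periodHomPair_apply, hT f, hT g, map_add, map_sub, map_add, hinv, hinv]

/-- `T_ℓ` case, abstract in the cohomological operator. -/
theorem periodHomPair_heckeT_of {N : ℕ} [NeZero N] {ℓ : ℕ} [NeZero ℓ] (hℓ : ℓ.Prime)
    (hℓN : ¬ ℓ ∣ N)
    (τ : (Additive (Gamma0 N) →+ ℂ) →+ (Additive (Gamma0 N) →+ ℂ))
    (happ : ∀ γ : Gamma0 N, ∃ (σ : Equiv.Perm (OnePoint (ZMod ℓ)))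
      (t : OnePoint (ZMod ℓ) → Gamma0 N),
      (∀ x, heckeRep ℓ x * mapGL ℝ (γ : SL(2, ℤ))
        = mapGL ℝ ((t x : Gamma0 N) : SL(2, ℤ)) * heckeRep ℓ (σ x)) ∧
      ∀ φ : Additive (Gamma0 N) →+ ℂ, τ φ (Additive.ofMul γ) = ∑ x, φ (Additive.ofMul (t x)))
    (hinv : ∀ φ, τ (charInvolution N ℂ ℂ φ) = charInvolution N ℂ ℂ (τ φ))
    (f g : CuspForm (Gamma0 N) 2) :
    periodHomPair N (CuspForm.heckeTLin 2 hℓ hℓN f, CuspForm.heckeTLin 2 hℓ hℓN g)
      = τ (periodHomPair N (f, g)) := by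
  refine periodHomPair_of_periodMap (fun f => CuspForm.heckeTLin 2 hℓ hℓN f) τ ?_ hinv f g
  intro f
  refine AddMonoidHom.ext fun γ' => ?_
  obtain ⟨γ, rfl⟩ : ∃ γ : Gamma0 N, Additive.ofMul γ = γ' := ⟨Additive.toMul γ', rfl⟩
  obtain ⟨σ, t, hmul, hτ⟩ := happ γ
  rw [hτ, periodMap_heckeT hℓ hℓN f γ t σ hmul]

/-- `U_q` case, abstract in the cohomological operator. -/
theorem periodHomPair_heckeU_of {N : ℕ} [NeZero N] {q : ℕ} [NeZero q] (hqN : q ∣ N)
    (τ : (Additive (Gamma0 N) →+ ℂ) →+ (Additive (Gamma0 N) →+ ℂ))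
    (happ : ∀ γ : Gamma0 N, ∃ (σ : Equiv.Perm (ZMod q)) (t : ZMod q → Gamma0 N),
      (∀ x, heckeMatrix q x.val * mapGL ℝ (γ : SL(2, ℤ))
        = mapGL ℝ ((t x : Gamma0 N) : SL(2, ℤ)) * heckeMatrix q (σ x).val) ∧
      ∀ φ : Additive (Gamma0 N) →+ ℂ, τ φ (Additive.ofMul γ) = ∑ x, φ (Additive.ofMul (t x)))
    (hinv : ∀ φ, τ (charInvolution N ℂ ℂ φ) = charInvolution N ℂ ℂ (τ φ))
    (f g : CuspForm (Gamma0 N) 2) :
    periodHomPair N (CuspForm.heckeULin 2 hqN f, CuspForm.heckeULin 2 hqN g)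
      = τ (periodHomPair N (f, g)) := by
  refine periodHomPair_of_periodMap (fun f => CuspForm.heckeULin 2 hqN f) τ ?_ hinv f g
  intro f
  refine AddMonoidHom.ext fun γ' => ?_
  obtain ⟨γ, rfl⟩ : ∃ γ : Gamma0 N, Additive.ofMul γ = γ' := ⟨Additive.toMul γ', rfl⟩
  obtain ⟨σ, t, hmul, hτ⟩ := happ γ
  rw [hτ, periodMap_heckeU hqN f γ t σ hmul]

/-- The packaged form consumed by `KerDvd.ker_dvd_of` (hypothesis `hper`), abstract in the
cohomological operator `τ` attached to the prime `l`. -/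
theorem periodHomPair_heckeFormsGen_of {N : ℕ} [NeZero N] (l : Nat.Primes)
    (τ : (Additive (Gamma0 N) →+ ℂ) →+ (Additive (Gamma0 N) →+ ℂ))
    (hT : ¬ (l : ℕ) ∣ N → haveI : NeZero (l : ℕ) := ⟨l.2.ne_zero⟩
      ∀ γ : Gamma0 N, ∃ (σ : Equiv.Perm (OnePoint (ZMod l)))
      (t : OnePoint (ZMod l) → Gamma0 N),
      (∀ x, heckeRep l x * mapGL ℝ (γ : SL(2, ℤ))
        = mapGL ℝ ((t x : Gamma0 N) : SL(2, ℤ)) * heckeRep l (σ x)) ∧
      ∀ φ : Additive (Gamma0 N) →+ ℂ, τ φ (Additive.ofMul γ) = ∑ x, φ (Additive.ofMul (t x)))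
    (hU : (l : ℕ) ∣ N → haveI : NeZero (l : ℕ) := ⟨l.2.ne_zero⟩
      ∀ γ : Gamma0 N, ∃ (σ : Equiv.Perm (ZMod l)) (t : ZMod l → Gamma0 N),
      (∀ x, heckeMatrix l x.val * mapGL ℝ (γ : SL(2, ℤ))
        = mapGL ℝ ((t x : Gamma0 N) : SL(2, ℤ)) * heckeMatrix l (σ x).val) ∧
      ∀ φ : Additive (Gamma0 N) →+ ℂ, τ φ (Additive.ofMul γ) = ∑ x, φ (Additive.ofMul (t x)))
    (hinv : ∀ φ, τ (charInvolution N ℂ ℂ φ) = charInvolution N ℂ ℂ (τ φ))
    (f g : CuspForm (Gamma0 N) 2) :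
    periodHomPair N
        ((CuspForm.heckeFormsGen N 2 l : Module.End ℂ (CuspForm (Gamma0 N) 2)) f,
          (CuspForm.heckeFormsGen N 2 l : Module.End ℂ (CuspForm (Gamma0 N) 2)) g)
      = τ (periodHomPair N (f, g)) := by
  have : NeZero (l : ℕ) := ⟨l.2.ne_zero⟩
  by_cases h : (l : ℕ) ∣ N
  · rw [CuspForm.heckeFormsGen_of_dvd h, CuspForm.heckeAlgebra.coe_U]
    exact periodHomPair_heckeU_of h τ (hU h) hinv f g
  · rw [CuspForm.heckeFormsGen_of_not_dvd h, CuspForm.heckeAlgebra.coe_T]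
    exact periodHomPair_heckeT_of l.2 h τ (hT h) hinv f g

end Fermat.Agent.S16.LB.HeckePeriod
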