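/-
T16 / LB (lower bound), theta route, piece (4): the ORBIT LEMMA (helper43).

If a finite family of functions `Φ : X → ℍ → ℂ` is permuted by the slash operators of the two
generators `S`, `T` of `SL(2, ℤ)` compatibly with a labelling `lab : SL(2, ℤ) → X` of (right)
cosets, then `Φ (lab 1) ∣[k] γ = Φ (lab γ)` for every `γ`.  With `X = Option (ZMod p)`
(`= ℙ¹(𝔽_p)`, the bottom row `(c : d)` of `γ` going to `d / c`, `none = ∞`) this gives
`Γ₀(p)`-invariance of `Φ none` from the five relations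

  Φ none ∣ T = Φ none,  Φ (some j) ∣ T = Φ (some (j + 1)),
  Φ none ∣ S = Φ (some 0),  Φ (some 0) ∣ S = Φ none,  Φ (some j) ∣ S = Φ (some (-j⁻¹))  (j ≠ 0),

with no formula for a general `γ` (this replaces Schoeneberg's Gauss-sum computation).

Exports (namespace `Fermat.Agent.S16.LB`):
* `slash_eq_of_generators`  (abstract orbit lemma)
* `p1Label`, `p1S`, `p1T`, `p1Label_mul_S`, `p1Label_mul_T`, `p1Label_eq_none_iff`
* `slash_eq_of_p1_relations`, `slash_invariant_of_p1_relations`, `exists_slash_eq_of_p1_relations`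
-/
import Mathlib

set_option autoImplicit false

open scoped MatrixGroups ModularForm
open UpperHalfPlane ModularGroup

namespace Fermat.Agent.S16.LB

/-- Abstract orbit lemma: a labelled family of functions permuted by `∣[k] S` and `∣[k] T`
compatibly with right multiplication on labels is permuted by all of `SL(2, ℤ)`. -/
theorem slash_eq_of_generators {X : Type*} (k : ℤ) (Φ : X → ℍ → ℂ) (lab : SL(2, ℤ) → X)
    (aS aT : X → X)
    (hS : ∀ γ : SL(2, ℤ), lab (γ * S) = aS (lab γ))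
    (hT : ∀ γ : SL(2, ℤ), lab (γ * T) = aT (lab γ))
    (hΦS : ∀ x, Φ x ∣[k] S = Φ (aS x))
    (hΦT : ∀ x, Φ x ∣[k] T = Φ (aT x))
    (δ γ : SL(2, ℤ)) : Φ (lab δ) ∣[k] γ = Φ (lab (δ * γ)) := by
  have key : ∀ γ ∈ Subgroup.closure ({S, T} : Set SL(2, ℤ)),
      ∀ δ : SL(2, ℤ), Φ (lab δ) ∣[k] γ = Φ (lab (δ * γ)) := by
    intro γ hγ
    induction hγ using Subgroup.closure_induction with
    | mem x hx =>
      intro δ
      rcases hx with rfl | hx
      · rw [hΦS, hS]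
      · rw [Set.mem_singleton_iff] at hx
        subst hx
        rw [hΦT, hT]
    | one => intro δ; simp
    | mul x y _ _ hx hy =>
      intro δ
      rw [SlashAction.slash_mul, hx, hy, mul_assoc]
    | inv x _ hx =>
      intro δ
      have h := hx (δ * x⁻¹)
      rw [inv_mul_cancel_right] at h
      rw [← h, ← SlashAction.slash_mul, mul_inv_cancel, SlashAction.slash_one]
  exact key γ (by rw [SpecialLinearGroup.SL2Z_generators]; trivial) δ

section P1

variable (p : ℕ) [Fact p.Prime]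

/-- The label in `ℙ¹(𝔽_p) = Option (ZMod p)` of the right coset `Γ₀(p) γ`: the bottom row
`(c : d)` goes to `d / c`, and to `none = ∞` when `p ∣ c`. -/
noncomputable def p1Label (γ : SL(2, ℤ)) : Option (ZMod p) :=
  if ((γ 1 0 : ℤ) : ZMod p) = 0 then none
  else some (((γ 1 1 : ℤ) : ZMod p) / ((γ 1 0 : ℤ) : ZMod p))

/-- The action of `S` on labels. -/
noncomputable def p1S : Option (ZMod p) → Option (ZMod p)
  | none => some 0
  | some j => if j = 0 then none else some (-j⁻¹)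

/-- The action of `T` on labels. -/
def p1T : Option (ZMod p) → Option (ZMod p)
  | none => none
  | some j => some (j + 1)

@[simp] lemma p1S_none : p1S p none = some 0 := rfl
@[simp] lemma p1S_some_zero : p1S p (some 0) = none := by simp [p1S]
lemma p1S_some_of_ne {j : ZMod p} (hj : j ≠ 0) : p1S p (some j) = some (-j⁻¹) := by
  simp [p1S, hj]
@[simp] lemma p1T_none : p1T p none = none := rfl
@[simp] lemma p1T_some (j : ZMod p) : p1T p (some j) = some (j + 1) := rfl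

lemma p1Label_eq_none_iff (γ : SL(2, ℤ)) :
    p1Label p γ = none ↔ ((γ 1 0 : ℤ) : ZMod p) = 0 := by
  unfold p1Label
  split_ifs with h <;> simp [h]

lemma p1Label_one : p1Label p 1 = none := by
  rw [p1Label_eq_none_iff]; simp

lemma p1Label_of_mem_Gamma0 {γ : SL(2, ℤ)} (hγ : γ ∈ CongruenceSubgroup.Gamma0 p) :
    p1Label p γ = none := by
  rw [p1Label_eq_none_iff]
  exact CongruenceSubgroup.Gamma0_mem.mp hγ

lemma mem_Gamma0_of_p1Label {γ : SL(2, ℤ)} (hγ : p1Label p γ = none) :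
    γ ∈ CongruenceSubgroup.Gamma0 p := by
  rw [p1Label_eq_none_iff] at hγ
  exact CongruenceSubgroup.Gamma0_mem.mpr hγ

/-- Bottom row of `γ` is nonzero mod `p`. -/
lemma bottom_row_ne_zero (γ : SL(2, ℤ)) (hc : ((γ 1 0 : ℤ) : ZMod p) = 0) :
    ((γ 1 1 : ℤ) : ZMod p) ≠ 0 := by
  intro hd
  have hdet : (γ 0 0 * γ 1 1 - γ 0 1 * γ 1 0 : ℤ) = 1 := by
    have := γ.det_coe
    rw [Matrix.det_fin_two] at this
    exact this
  have h1 : ((γ 0 0 * γ 1 1 - γ 0 1 * γ 1 0 : ℤ) : ZMod p) = 1 := by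
    rw [hdet]; simp
  push_cast at h1
  rw [hc, hd] at h1
  simp at h1

lemma p1Label_mul_T (γ : SL(2, ℤ)) : p1Label p (γ * T) = p1T p (p1Label p γ) := by
  have h10 : (γ * T) 1 0 = γ 1 0 := by
    rw [Matrix.SpecialLinearGroup.coe_mul, ModularGroup.coe_T, Matrix.mul_apply, Fin.sum_univ_two]
    simp
  have h11 : (γ * T) 1 1 = γ 1 0 + γ 1 1 := by
    rw [Matrix.SpecialLinearGroup.coe_mul, ModularGroup.coe_T, Matrix.mul_apply, Fin.sum_univ_two]
    simp
  unfold p1Label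
  rw [h10, h11]
  by_cases hc : ((γ 1 0 : ℤ) : ZMod p) = 0
  · simp [hc]
  · simp only [hc, if_false, p1T_some, Option.some.injEq]
    push_cast
    field_simp
    ring

lemma p1Label_mul_S (γ : SL(2, ℤ)) : p1Label p (γ * S) = p1S p (p1Label p γ) := by
  have h10 : (γ * S) 1 0 = γ 1 1 := by
    rw [Matrix.SpecialLinearGroup.coe_mul, ModularGroup.coe_S, Matrix.mul_apply, Fin.sum_univ_two]
    simp
  have h11 : (γ * S) 1 1 = -γ 1 0 := by
    rw [Matrix.SpecialLinearGroup.coe_mul, ModularGroup.coe_S, Matrix.mul_apply, Fin.sum_univ_two]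
    simp
  unfold p1Label
  rw [h10, h11]
  by_cases hc : ((γ 1 0 : ℤ) : ZMod p) = 0
  · have hd := bottom_row_ne_zero p γ hc
    simp [hc, hd]
  · by_cases hd : ((γ 1 1 : ℤ) : ZMod p) = 0
    · simp [hc, hd]
    · have hq : ((γ 1 1 : ℤ) : ZMod p) / ((γ 1 0 : ℤ) : ZMod p) ≠ 0 := div_ne_zero hd hc
      simp only [hc, hd, if_false]
      rw [p1S_some_of_ne p hq]
      congr 1
      push_cast
      field_simp

variable {p}

/-- Orbit lemma for `ℙ¹(𝔽_p)`: if `Φ : Option (ZMod p) → ℍ → ℂ` is permuted by `S` and `T`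
according to `p1S`, `p1T`, then `Φ none ∣[k] γ = Φ (p1Label p γ)` for all `γ`. -/
theorem slash_eq_of_p1_relations (k : ℤ) (Φ : Option (ZMod p) → ℍ → ℂ)
    (hΦS : ∀ x, Φ x ∣[k] S = Φ (p1S p x)) (hΦT : ∀ x, Φ x ∣[k] T = Φ (p1T p x))
    (γ : SL(2, ℤ)) : Φ none ∣[k] γ = Φ (p1Label p γ) := by
  have h := slash_eq_of_generators k Φ (p1Label p) (p1S p) (p1T p) (p1Label_mul_S p)
    (p1Label_mul_T p) hΦS hΦT 1 γ
  rwa [p1Label_one, one_mul] at h

/-- `Γ₀(p)`-invariance of `Φ none`. -/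
theorem slash_invariant_of_p1_relations (k : ℤ) (Φ : Option (ZMod p) → ℍ → ℂ)
    (hΦS : ∀ x, Φ x ∣[k] S = Φ (p1S p x)) (hΦT : ∀ x, Φ x ∣[k] T = Φ (p1T p x))
    {γ : SL(2, ℤ)} (hγ : γ ∈ CongruenceSubgroup.Gamma0 p) : Φ none ∣[k] γ = Φ none := by
  rw [slash_eq_of_p1_relations k Φ hΦS hΦT γ, p1Label_of_mem_Gamma0 p hγ]

/-- Every `SL(2, ℤ)`-translate of `Φ none` is one of the `Φ x`. -/
theorem exists_slash_eq_of_p1_relations (k : ℤ) (Φ : Option (ZMod p) → ℍ → ℂ)
    (hΦS : ∀ x, Φ x ∣[k] S = Φ (p1S p x)) (hΦT : ∀ x, Φ x ∣[k] T = Φ (p1T p x))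
    (γ : SL(2, ℤ)) : ∃ x, Φ none ∣[k] γ = Φ x :=
  ⟨_, slash_eq_of_p1_relations k Φ hΦS hΦT γ⟩

end P1

end Fermat.Agent.S16.LB
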