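import Fermat.Agent.S16.LB.PingPong
import Fermat.Prelude.Def_ModularCurve_PeriodMap
import Fermat.Agent.S21_helper65.Parabolic

/-!
# Lifting lemma (LB-LIFT) via `PSL(2,ℤ) = C₂ * C₃` + Shapiro cocycles

Owner: helper4.  A hom `φ : Γ₀(p) → ℤ/n` killing the finite-order and the parabolic elements lifts to
a parabolic hom `Γ₀(p) → ℤ`.
-/

set_option autoImplicit false

open scoped MatrixGroups
open ModularGroup CongruenceSubgroup

namespace Fermat.Agent.S16.LB.PPLift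

open Fermat.Agent.S16.LB.PingPong

/-! ### Part 1: affine permutations of `X × A` -/

section Aff

variable {X : Type*} [MulAction SL(2,ℤ) X] {A : Type*} [AddCommGroup A]

/-- the permutation `(x, α) ↦ (g • x, α + m x)` -/
def aff (g : SL(2,ℤ)) (m : X → A) : Equiv.Perm (X × A) where
  toFun q := (g • q.1, q.2 + m q.1)
  invFun q := (g⁻¹ • q.1, q.2 - m (g⁻¹ • q.1))
  left_inv q := by
    ext
    · simp
    · simp
  right_inv q := by
    ext
    · simp
    · simp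

@[simp] theorem aff_apply (g : SL(2,ℤ)) (m : X → A) (x : X) (α : A) :
    aff g m (x, α) = (g • x, α + m x) := rfl

theorem aff_mul (g' g : SL(2,ℤ)) (m' m : X → A) :
    aff g' m' * aff g m = aff (g' * g) (fun x => m x + m' (g • x)) := by
  ext ⟨x, α⟩
  · simp [Equiv.Perm.mul_apply, mul_smul]
  · simp [Equiv.Perm.mul_apply, add_assoc]

theorem aff_inj {g : SL(2,ℤ)} {m m' : X → A} (h : aff g m = aff g m') : m = m' := by
  funext x
  have := congrArg (fun σ : Equiv.Perm (X × A) => (σ (x, 0)).2) h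
  simpa using this

theorem aff_one_zero : aff (1 : SL(2,ℤ)) (0 : X → A) = 1 := by
  ext ⟨x, α⟩ <;> simp

theorem aff_inv (g : SL(2,ℤ)) (m : X → A) :
    (aff g m)⁻¹ = aff g⁻¹ (fun y => - m (g⁻¹ • y)) := by
  rw [inv_eq_iff_mul_eq_one, aff_mul]
  have : (fun x : X => -m (g⁻¹ • x) + m (g⁻¹ • x)) = 0 := by
    funext x; simp
  rw [this, mul_inv_cancel, aff_one_zero]

theorem aff_congr {g g' : SL(2,ℤ)} {m m' : X → A} (hg : g = g') (hm : m = m') :
    aff g m = aff g' m' := by rw [hg, hm]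

end Aff


/-! ### Part 2: the Shapiro cocycle of a hom `φ : Γ → A` -/

section Shapiro

variable {Γ : Subgroup SL(2,ℤ)} {A : Type*} [AddCommGroup A]

/-- the base coset -/
def x0 (Γ : Subgroup SL(2,ℤ)) : SL(2,ℤ) ⧸ Γ := ((1 : SL(2,ℤ)) : SL(2,ℤ) ⧸ Γ)

theorem smul_mk (g h : SL(2,ℤ)) : g • (h : SL(2,ℤ) ⧸ Γ) = ((g * h : SL(2,ℤ)) : SL(2,ℤ) ⧸ Γ) := rfl

theorem mk_eq_mk_iff (g h : SL(2,ℤ)) :
    (g : SL(2,ℤ) ⧸ Γ) = (h : SL(2,ℤ) ⧸ Γ) ↔ g⁻¹ * h ∈ Γ := QuotientGroup.eq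

theorem mk_eq_x0_iff (g : SL(2,ℤ)) : (g : SL(2,ℤ) ⧸ Γ) = x0 Γ ↔ g ∈ Γ := by
  rw [x0, mk_eq_mk_iff]
  constructor
  · intro h
    have := Γ.inv_mem h
    simpa using this
  · intro h
    have := Γ.inv_mem h
    simpa using this

theorem smul_x0_of_mem {γ : SL(2,ℤ)} (hγ : γ ∈ Γ) : γ • x0 Γ = x0 Γ := by
  rw [x0, smul_mk, mul_one]
  exact (mk_eq_x0_iff γ).2 hγ

/-- the `Γ`-part of `h`: `h = rep (hΓ) * kap h`. -/
noncomputable def kap (Γ : Subgroup SL(2,ℤ)) (h : SL(2,ℤ)) : Γ :=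
  ⟨((h : SL(2,ℤ) ⧸ Γ).out)⁻¹ * h, by
    rw [← mk_eq_mk_iff]
    exact QuotientGroup.out_eq' _⟩

theorem kap_mul_of_mem (h : SL(2,ℤ)) (γ : Γ) : kap Γ (h * γ) = kap Γ h * γ := by
  apply Subtype.ext
  have h1 : ((h * (γ : SL(2,ℤ)) : SL(2,ℤ)) : SL(2,ℤ) ⧸ Γ) = (h : SL(2,ℤ) ⧸ Γ) := by
    rw [mk_eq_mk_iff]
    have : (h * (γ : SL(2,ℤ)))⁻¹ * h = ((γ : SL(2,ℤ)))⁻¹ := by group
    rw [this]
    exact Γ.inv_mem γ.2
  show ((h * (γ : SL(2,ℤ)) : SL(2,ℤ) ⧸ Γ).out)⁻¹ * (h * γ) = ((h : SL(2,ℤ) ⧸ Γ).out)⁻¹ * h * γ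
  rw [h1, mul_assoc]

theorem out_mul_kap (h : SL(2,ℤ)) : (h : SL(2,ℤ) ⧸ Γ).out * (kap Γ h : SL(2,ℤ)) = h := by
  show (h : SL(2,ℤ) ⧸ Γ).out * (((h : SL(2,ℤ) ⧸ Γ).out)⁻¹ * h) = h
  rw [mul_inv_cancel_left]

/-- the Shapiro cocycle -/
noncomputable def shap (φ : Additive Γ →+ A) (g : SL(2,ℤ)) (x : SL(2,ℤ) ⧸ Γ) : A :=
  φ (Additive.ofMul (kap Γ (g * x.out)))

theorem mk_mul_out (g : SL(2,ℤ)) (x : SL(2,ℤ) ⧸ Γ) :
    ((g * x.out : SL(2,ℤ)) : SL(2,ℤ) ⧸ Γ) = g • x := by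
  rw [← smul_mk, QuotientGroup.out_eq']

theorem shap_mul (φ : Additive Γ →+ A) (g' g : SL(2,ℤ)) (x : SL(2,ℤ) ⧸ Γ) :
    shap φ (g' * g) x = shap φ g x + shap φ g' (g • x) := by
  unfold shap
  have h1 : g' * g * x.out = g' * (g • x).out * (kap Γ (g * x.out) : SL(2,ℤ)) := by
    have := out_mul_kap (Γ := Γ) (g * x.out)
    rw [mk_mul_out] at this
    rw [mul_assoc g' ((g • x).out), this, mul_assoc]
  rw [h1, kap_mul_of_mem, ofMul_mul, map_add, add_comm]

theorem shap_mem_x0 (φ : Additive Γ →+ A) (γ : Γ) :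
    shap φ (γ : SL(2,ℤ)) (x0 Γ) = φ (Additive.ofMul γ) := by
  unfold shap
  -- `x0.out` is in `Γ`
  have hmem : (x0 Γ).out ∈ Γ := by
    rw [← mk_eq_x0_iff]
    exact QuotientGroup.out_eq' _
  set γ0 : Γ := ⟨(x0 Γ).out, hmem⟩ with hγ0
  have h1 : (γ : SL(2,ℤ)) * (x0 Γ).out = 1 * ((γ * γ0 : Γ) : SL(2,ℤ)) := by
    rw [one_mul]; rfl
  rw [h1, kap_mul_of_mem]
  have h2 : kap Γ 1 = γ0⁻¹ := by
    apply Subtype.ext
    show (((1 : SL(2,ℤ)) : SL(2,ℤ) ⧸ Γ).out)⁻¹ * 1 = ((γ0⁻¹ : Γ) : SL(2,ℤ))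
    rw [mul_one]; rfl
  rw [h2, ofMul_mul, ofMul_mul, map_add, map_add, ofMul_inv, map_neg]
  abel

/-- at a fixed point the Shapiro cocycle is `φ` of a conjugate -/
theorem shap_fixed (φ : Additive Γ →+ A) (g : SL(2,ℤ)) (x : SL(2,ℤ) ⧸ Γ) (hx : g • x = x) :
    ∃ γ : Γ, (γ : SL(2,ℤ)) = (x.out)⁻¹ * g * x.out ∧ shap φ g x = φ (Additive.ofMul γ) := by
  refine ⟨kap Γ (g * x.out), ?_, rfl⟩
  show ((g * x.out : SL(2,ℤ)) : SL(2,ℤ) ⧸ Γ).out⁻¹ * (g * x.out) = _
  rw [mk_mul_out, hx, mul_assoc]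

/-- the hom `g ↦ aff g (shap φ g)` -/
noncomputable def shapHom (φ : Additive Γ →+ A) : SL(2,ℤ) →* Equiv.Perm ((SL(2,ℤ) ⧸ Γ) × A) :=
  MonoidHom.mk' (fun g => aff g (shap φ g)) (by
    intro g' g
    rw [aff_mul]
    apply aff_congr rfl
    funext x
    exact shap_mul φ g' g x)

@[simp] theorem shapHom_apply (φ : Additive Γ →+ A) (g : SL(2,ℤ)) :
    shapHom φ g = aff g (shap φ g) := rfl

end Shapiro


/-! ### Part 3: orbit-wise integral lifts -/

section OrbitLift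

variable {X : Type*} {n : ℕ} [NeZero n]

/-- a set-theoretic section of `ℤ → ZMod n` -/
noncomputable def sec (a : ZMod n) : ℤ := (a.val : ℤ)

@[simp] theorem sec_cast (a : ZMod n) : ((sec a : ℤ) : ZMod n) = a := by
  simp [sec]

/-- lift along an involution -/
theorem exists_lift_invol (σ : X → X) (hσ : ∀ x, σ (σ x) = x) (abar : X → ZMod n)
    (h1 : ∀ x, abar x + abar (σ x) = 0) (h2 : ∀ x, σ x = x → abar x = 0) :
    ∃ a : X → ℤ, (∀ x, ((a x : ℤ) : ZMod n) = abar x) ∧ ∀ x, a x + a (σ x) = 0 := by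
  classical
  let _ : LinearOrder X := linearOrderOfSTO WellOrderingRel
  refine ⟨fun x => if x < σ x then sec (abar x) else if σ x < x then - sec (abar (σ x)) else 0,
    ?_, ?_⟩
  · intro x
    dsimp only
    split_ifs with h h'
    · simp
    · have := h1 x
      push_cast
      rw [sec_cast]
      exact (eq_neg_of_add_eq_zero_left this).symm
    · have hx : σ x = x := le_antisymm (not_lt.1 h) (not_lt.1 h')
      simp [h2 x hx]
  · intro x
    dsimp only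
    rw [hσ x]
    rcases lt_trichotomy x (σ x) with h | h | h
    · rw [if_pos h, if_neg (not_lt.2 h.le), if_pos h]
      ring
    · rw [← h, if_neg (lt_irrefl x)]
      simp
    · rw [if_neg (not_lt.2 h.le), if_pos h, if_pos h]
      ring

/-- lift along a map of order three -/
theorem exists_lift_cubic (ρ : X → X) (hρ : ∀ x, ρ (ρ (ρ x)) = x) (bbar : X → ZMod n)
    (h1 : ∀ x, bbar x + bbar (ρ x) + bbar (ρ (ρ x)) = 0) (h2 : ∀ x, ρ x = x → bbar x = 0) :
    ∃ b : X → ℤ, (∀ x, ((b x : ℤ) : ZMod n) = bbar x) ∧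
      ∀ x, b x + b (ρ x) + b (ρ (ρ x)) = 0 := by
  classical
  let _ : LinearOrder X := linearOrderOfSTO WellOrderingRel
  -- `x` is the minimum of its orbit
  let isMin : X → Prop := fun x => x < ρ x ∧ x < ρ (ρ x)
  let b : X → ℤ := fun x =>
    if ρ x = x then 0
    else if isMin x then sec (bbar x)
    else if isMin (ρ (ρ x)) then sec (bbar x)
    else - sec (bbar (ρ x)) - sec (bbar (ρ (ρ x)))
  have hfix : ∀ x, ρ x = x → ρ (ρ x) = x := fun x hx => by rw [hx, hx]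
  have hne1 : ∀ x, ρ x ≠ x → ρ (ρ x) ≠ x := by
    intro x hx h
    apply hx
    have := hρ x
    rw [h] at this
    exact this
  have hne2 : ∀ x, ρ x ≠ x → ρ (ρ x) ≠ ρ x := by
    intro x hx h
    apply hne1 x hx
    have h3 : ρ (ρ (ρ x)) = ρ (ρ x) := congrArg ρ h
    rw [hρ x] at h3
    exact h3.symm
  have hρne : ∀ x, ρ x ≠ x → ρ (ρ x) ≠ ρ x := hne2
  refine ⟨b, ?_, ?_⟩
  · intro x
    show ((b x : ℤ) : ZMod n) = bbar x
    dsimp only [b]
    split_ifs with h h' h''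
    · simp [h2 x h]
    · simp
    · simp
    · have := h1 x
      push_cast
      rw [sec_cast, sec_cast]
      linear_combination (-1 : ZMod n) * this
  · intro x
    by_cases hx : ρ x = x
    · have hx2 : ρ (ρ x) = x := hfix x hx
      have : b x = 0 := by dsimp only [b]; rw [if_pos hx]
      rw [hx2, hx, this]; ring
    · -- the three points are distinct
      have d1 : ρ (ρ x) ≠ x := hne1 x hx
      have d2 : ρ (ρ x) ≠ ρ x := hne2 x hx
      have hx' : ρ (ρ x) ≠ ρ x := d2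
      have hxx : ρ (ρ (ρ x)) ≠ ρ (ρ x) := by rw [hρ x]; exact fun h => d1 h.symm
      have e3 : ρ (ρ (ρ x)) = x := hρ x
      have e4 : ρ (ρ (ρ (ρ x))) = ρ x := by rw [hρ x]
      -- values of b at the three points
      have bx : b x = if isMin x then sec (bbar x) else if isMin (ρ (ρ x)) then sec (bbar x)
          else - sec (bbar (ρ x)) - sec (bbar (ρ (ρ x))) := by
        dsimp only [b]; rw [if_neg hx]
      have bρx : b (ρ x) = if isMin (ρ x) then sec (bbar (ρ x)) else if isMin x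
          then sec (bbar (ρ x)) else - sec (bbar (ρ (ρ x))) - sec (bbar x) := by
        dsimp only [b]; simp only [if_neg hx', e3]
      have bρρx : b (ρ (ρ x)) = if isMin (ρ (ρ x)) then sec (bbar (ρ (ρ x))) else if isMin (ρ x)
          then sec (bbar (ρ (ρ x))) else - sec (bbar x) - sec (bbar (ρ x)) := by
        dsimp only [b]; simp only [e3, if_neg (Ne.symm d1)]
      rw [bx, bρx, bρρx]
      have m0 : isMin x ↔ (x < ρ x ∧ x < ρ (ρ x)) := Iff.rfl
      have m1 : isMin (ρ x) ↔ (ρ x < ρ (ρ x) ∧ ρ x < x) := by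
        show (ρ x < ρ (ρ x) ∧ ρ x < ρ (ρ (ρ x))) ↔ _
        rw [e3]
      have m2 : isMin (ρ (ρ x)) ↔ (ρ (ρ x) < x ∧ ρ (ρ x) < ρ x) := by
        show (ρ (ρ x) < ρ (ρ (ρ x)) ∧ ρ (ρ x) < ρ (ρ (ρ (ρ x)))) ↔ _
        rw [e3]
      -- exactly one of the three is the minimum
      rcases lt_trichotomy x (ρ x) with hab | hab | hab
      · rcases lt_trichotomy x (ρ (ρ x)) with hac | hac | hac
        · -- x is min
          have c0 : isMin x := m0.2 ⟨hab, hac⟩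
          have c1 : ¬ isMin (ρ x) := fun h => lt_asymm hab (m1.1 h).2
          have c2 : ¬ isMin (ρ (ρ x)) := fun h => lt_asymm hac (m2.1 h).1
          rw [if_pos c0, if_neg c1, if_pos c0, if_neg c2, if_neg c1]; ring
        · exact absurd hac.symm d1
        · -- ρρx is min
          have c0 : ¬ isMin x := fun h => lt_asymm hac (m0.1 h).2
          have c1 : ¬ isMin (ρ x) := fun h => lt_asymm hab (m1.1 h).2
          have c2 : isMin (ρ (ρ x)) := m2.2 ⟨hac, hac.trans hab⟩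
          rw [if_neg c0, if_pos c2, if_neg c1, if_neg c0, if_pos c2]; ring
      · exact absurd hab.symm hx
      · rcases lt_trichotomy (ρ x) (ρ (ρ x)) with hbc | hbc | hbc
        · -- ρx is min
          have c0 : ¬ isMin x := fun h => lt_asymm hab (m0.1 h).1
          have c1 : isMin (ρ x) := m1.2 ⟨hbc, hab⟩
          have c2 : ¬ isMin (ρ (ρ x)) := fun h => lt_asymm hbc (m2.1 h).2
          rw [if_neg c0, if_neg c2, if_pos c1, if_neg c2, if_pos c1]; ring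
        · exact absurd hbc.symm d2
        · -- ρρx is min
          have c0 : ¬ isMin x := fun h => lt_asymm hab (m0.1 h).1
          have c1 : ¬ isMin (ρ x) := fun h => lt_asymm hbc (m1.1 h).1
          have c2 : isMin (ρ (ρ x)) := m2.2 ⟨hbc.trans hab, hbc⟩
          rw [if_neg c0, if_pos c2, if_neg c1, if_neg c0, if_pos c2]; ring

end OrbitLift


/-! ### Part 4: cocycles with prescribed values on `S` and `S * T` -/

section Cocycle

variable {Γ : Subgroup SL(2,ℤ)} {A : Type*} [AddCommGroup A]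

theorem neg_one_smul_coset (hneg : (-1 : SL(2,ℤ)) ∈ Γ) (x : SL(2,ℤ) ⧸ Γ) :
    (-1 : SL(2,ℤ)) • x = x := by
  induction x using QuotientGroup.induction_on with
  | H g =>
    rw [smul_mk, mk_eq_mk_iff]
    have : (-1 * g)⁻¹ * g = -1 := by
      rw [neg_mul, one_mul, inv_neg, neg_mul, inv_mul_cancel]
    rw [this]; exact hneg

theorem aff_neg_one_zero (hneg : (-1 : SL(2,ℤ)) ∈ Γ) :
    aff (-1 : SL(2,ℤ)) (0 : SL(2,ℤ) ⧸ Γ → A) = 1 := by
  ext ⟨x, α⟩
  · simp [neg_one_smul_coset hneg]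
  · simp

theorem S_mul_S : (S * S : SL(2,ℤ)) = -1 := by decide

theorem ST_mul_ST_mul_ST : ((S * T) * (S * T) * (S * T) : SL(2,ℤ)) = -1 := by decide

/-- existence of a cocycle with prescribed values on the generators -/
theorem exists_cocycle (hneg : (-1 : SL(2,ℤ)) ∈ Γ) (a b : SL(2,ℤ) ⧸ Γ → A)
    (ha : ∀ x, a x + a (S • x) = 0)
    (hb : ∀ x, b x + b ((S * T) • x) + b ((S * T) • (S * T) • x) = 0) :
    ∃ c : SL(2,ℤ) → SL(2,ℤ) ⧸ Γ → A,
      (∀ g' g x, c (g' * g) x = c g x + c g' (g • x)) ∧ c S = a ∧ c (S * T) = b := by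
  have hs : (aff S a : Equiv.Perm ((SL(2,ℤ) ⧸ Γ) × A)) ^ 2 = 1 := by
    rw [sq, aff_mul]
    have : (fun x => a x + a (S • x)) = (0 : SL(2,ℤ) ⧸ Γ → A) := funext ha
    rw [this, S_mul_S, aff_neg_one_zero hneg]
  have hu : (aff (S * T) b : Equiv.Perm ((SL(2,ℤ) ⧸ Γ) × A)) ^ 3 = 1 := by
    rw [pow_succ, sq, aff_mul, aff_mul]
    have : (fun x => b x + (fun x => b x + b ((S * T) • x)) ((S * T) • x))
        = (0 : SL(2,ℤ) ⧸ Γ → A) := by
      funext x
      have := hb x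
      simp only [Pi.zero_apply]
      rw [← this]; abel
    rw [this, ST_mul_ST_mul_ST, aff_neg_one_zero hneg]
  obtain ⟨ρ, hρS, hρU, -⟩ := exists_hom_of_sq_cube _ _ hs hu
  -- every `ρ g` is affine over `g`
  have haff : ∀ g : SL(2,ℤ), ∃ m : SL(2,ℤ) ⧸ Γ → A, ρ g = aff g m := by
    intro g
    have hg : g ∈ Subgroup.closure ({S, T} : Set SL(2,ℤ)) := by
      rw [SpecialLinearGroup.SL2Z_generators]; trivial
    induction hg using Subgroup.closure_induction with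
    | mem x hx =>
      rcases hx with rfl | rfl
      · exact ⟨a, hρS⟩
      · refine ⟨fun x => b x + (fun y => - a (S⁻¹ • y)) ((S * T) • x), ?_⟩
        have hT : (T : SL(2,ℤ)) = S⁻¹ * (S * T) := by group
        conv_lhs => rw [hT]
        rw [map_mul, map_inv, hρS, hρU, aff_inv, aff_mul]
        exact aff_congr hT.symm rfl
    | one => exact ⟨0, by rw [map_one, aff_one_zero]⟩
    | mul x y _ _ hx hy =>
      obtain ⟨m, hm⟩ := hx
      obtain ⟨m', hm'⟩ := hy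
      exact ⟨_, by rw [map_mul, hm, hm', aff_mul]⟩
    | inv x _ hx =>
      obtain ⟨m, hm⟩ := hx
      exact ⟨_, by rw [map_inv, hm, aff_inv]⟩
  choose c hc using haff
  refine ⟨c, ?_, ?_, ?_⟩
  · intro g' g x
    have h1 : aff (g' * g) (c (g' * g)) = aff (g' * g) (fun x => c g x + c g' (g • x)) := by
      rw [← hc, map_mul, hc g', hc g, aff_mul]
    exact congrFun (aff_inj h1) x
  · exact aff_inj ((hc S).symm.trans hρS)
  · exact aff_inj ((hc (S * T)).symm.trans hρU)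

/-- a cocycle is determined by its values on `S` and `S * T` -/
theorem cocycle_ext (c c' : SL(2,ℤ) → SL(2,ℤ) ⧸ Γ → A)
    (hc : ∀ g' g x, c (g' * g) x = c g x + c g' (g • x))
    (hc' : ∀ g' g x, c' (g' * g) x = c' g x + c' g' (g • x))
    (hS : c S = c' S) (hU : c (S * T) = c' (S * T)) : c = c' := by
  let ρ : SL(2,ℤ) →* Equiv.Perm ((SL(2,ℤ) ⧸ Γ) × A) :=
    MonoidHom.mk' (fun g => aff g (c g)) (by
      intro g' g
      rw [aff_mul]
      exact aff_congr rfl (funext fun x => hc g' g x))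
  let ρ' : SL(2,ℤ) →* Equiv.Perm ((SL(2,ℤ) ⧸ Γ) × A) :=
    MonoidHom.mk' (fun g => aff g (c' g)) (by
      intro g' g
      rw [aff_mul]
      exact aff_congr rfl (funext fun x => hc' g' g x))
  have h : ρ = ρ' := by
    apply hom_ext_S_ST
    · show aff S (c S) = aff S (c' S)
      rw [hS]
    · show aff (S * T) (c (S * T)) = aff (S * T) (c' (S * T))
      rw [hU]
  funext g
  have := congrArg (fun f : SL(2,ℤ) →* Equiv.Perm ((SL(2,ℤ) ⧸ Γ) × A) => f g) h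
  exact aff_inj this

end Cocycle


/-! ### Part 5: the cosets of `Γ₀(p)` -/

section Cosets

variable (p : ℕ) [hp : Fact p.Prime]

theorem neg_one_mem_Gamma0 (N : ℕ) : (-1 : SL(2,ℤ)) ∈ Gamma0 N := by
  rw [Gamma0_mem]
  simp

theorem T_zpow_mem_Gamma0 (N : ℕ) (m : ℤ) : (T ^ m : SL(2,ℤ)) ∈ Gamma0 N := by
  rw [Gamma0_mem]
  have : ((T ^ m : SL(2,ℤ)) : Matrix (Fin 2) (Fin 2) ℤ) = !![1, m; 0, 1] := coe_T_zpow m
  simp [this]

/-- entries of `(T ^ j * S)⁻¹ * g` -/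
theorem conj_entry (j : ℤ) (g : SL(2,ℤ)) :
    ((T ^ j * S)⁻¹ * g : SL(2,ℤ)) 1 0 = j * g 1 0 - g 0 0 := by
  have h1 : ((T ^ j * S : SL(2,ℤ)) : Matrix (Fin 2) (Fin 2) ℤ) = !![j, -1; 1, 0] := by
    rw [Matrix.SpecialLinearGroup.coe_mul, coe_T_zpow, coe_S]
    ext a b; fin_cases a <;> fin_cases b <;> simp [Matrix.mul_apply, Fin.sum_univ_two]
  rw [Matrix.SpecialLinearGroup.coe_mul, Matrix.SpecialLinearGroup.coe_inv, h1,
    Matrix.adjugate_fin_two_of]
  simp [Matrix.mul_apply, Fin.sum_univ_two]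
  ring

/-- every coset of `Γ₀(p)` is the base coset or one of `T ^ j * S` -/
theorem coset_cases (g : SL(2,ℤ)) :
    g ∈ Gamma0 p ∨ ∃ j : ℤ, (T ^ j * S)⁻¹ * g ∈ Gamma0 p := by
  by_cases hg : g ∈ Gamma0 p
  · exact Or.inl hg
  · right
    rw [Gamma0_mem] at hg
    obtain ⟨j, hj⟩ := ZMod.intCast_surjective (((g 0 0 : ℤ) : ZMod p) * ((g 1 0 : ℤ) : ZMod p)⁻¹)
    refine ⟨j, ?_⟩
    rw [Gamma0_mem, conj_entry]
    push_cast
    rw [hj, mul_assoc, inv_mul_cancel₀ hg, mul_one, sub_self]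

theorem TS_coset_eq_iff (i j : ℤ) :
    ((T ^ i * S : SL(2,ℤ)) : SL(2,ℤ) ⧸ Gamma0 p) = ((T ^ j * S : SL(2,ℤ)) : SL(2,ℤ) ⧸ Gamma0 p)
      ↔ (p : ℤ) ∣ i - j := by
  rw [mk_eq_mk_iff, Gamma0_mem, conj_entry]
  have h1 : ((T ^ j * S : SL(2,ℤ)) : Matrix (Fin 2) (Fin 2) ℤ) = !![j, -1; 1, 0] := by
    rw [Matrix.SpecialLinearGroup.coe_mul, coe_T_zpow, coe_S]
    ext a b; fin_cases a <;> fin_cases b <;> simp [Matrix.mul_apply, Fin.sum_univ_two]
  rw [h1]
  simp only [Matrix.of_apply, Matrix.cons_val', Matrix.cons_val_zero, Matrix.cons_val_one,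
    Matrix.empty_val', Matrix.cons_val_fin_one, mul_one]
  rw [ZMod.intCast_zmod_eq_zero_iff_dvd]

theorem TS_coset_ne_x0 (i : ℤ) :
    ((T ^ i * S : SL(2,ℤ)) : SL(2,ℤ) ⧸ Gamma0 p) ≠ x0 (Gamma0 p) := by
  rw [Ne, mk_eq_x0_iff, Gamma0_mem]
  have h1 : ((T ^ i * S : SL(2,ℤ)) : Matrix (Fin 2) (Fin 2) ℤ) = !![i, -1; 1, 0] := by
    rw [Matrix.SpecialLinearGroup.coe_mul, coe_T_zpow, coe_S]
    ext a b; fin_cases a <;> fin_cases b <;> simp [Matrix.mul_apply, Fin.sum_univ_two]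
  rw [h1]
  simp only [Matrix.of_apply, Matrix.cons_val', Matrix.cons_val_zero, Matrix.cons_val_one,
    Matrix.empty_val', Matrix.cons_val_fin_one]
  haveI : Fact (1 < p) := ⟨hp.out.one_lt⟩
  simp

/-- the enumeration of the cosets -/
noncomputable def cosetEnum : Option (Fin p) → SL(2,ℤ) ⧸ Gamma0 p
  | none => x0 (Gamma0 p)
  | some i => ((T ^ ((i : ℕ) : ℤ) * S : SL(2,ℤ)) : SL(2,ℤ) ⧸ Gamma0 p)

theorem cosetEnum_bijective : Function.Bijective (cosetEnum p) := by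
  constructor
  · intro o o' h
    rcases o with _ | i <;> rcases o' with _ | j
    · rfl
    · exact absurd h.symm (TS_coset_ne_x0 p _)
    · exact absurd h (TS_coset_ne_x0 p _)
    · have h' := (TS_coset_eq_iff p _ _).1 h
      congr 1
      apply Fin.ext
      have hi := i.2
      have hj := j.2
      obtain ⟨k, hk⟩ := h'
      have : k = 0 := by
        by_contra hk0
        have hp0 : (0 : ℤ) < p := by exact_mod_cast hp.out.pos
        have : (p : ℤ) ≤ |(i : ℤ) - j| := by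
          rw [hk, abs_mul, abs_of_pos hp0]
          exact le_mul_of_one_le_right hp0.le (Int.one_le_abs hk0)
        have h2 : |(i : ℤ) - j| < p := by
          rw [abs_lt]; constructor <;> omega
        omega
      rw [this, mul_zero] at hk
      omega
  · intro x
    induction x using QuotientGroup.induction_on with
    | H g =>
      rcases coset_cases p g with hg | ⟨j, hj⟩
      · exact ⟨none, ((mk_eq_x0_iff g).2 hg).symm⟩
      · have hp0 : (0 : ℤ) < p := by exact_mod_cast hp.out.pos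
        have hmod : 0 ≤ j % p ∧ j % p < p := ⟨Int.emod_nonneg _ hp0.ne', Int.emod_lt_of_pos _ hp0⟩
        refine ⟨some ⟨(j % p).toNat, by omega⟩, ?_⟩
        show ((T ^ (((j % p).toNat : ℕ) : ℤ) * S : SL(2,ℤ)) : SL(2,ℤ) ⧸ Gamma0 p) = _
        rw [Int.toNat_of_nonneg hmod.1]
        have h1 : ((T ^ (j % p) * S : SL(2,ℤ)) : SL(2,ℤ) ⧸ Gamma0 p) = ((T ^ j * S : SL(2,ℤ)) : _) := by
          rw [TS_coset_eq_iff]
          exact ⟨-(j / p), by have := Int.emod_add_mul_ediv j p; linarith⟩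
        rw [h1, mk_eq_mk_iff]
        exact hj

end Cosets


/-! ### Part 6: general cocycle calculus -/

section Calculus

variable {Γ : Subgroup SL(2,ℤ)} {A : Type*} [AddCommGroup A]
  (c : SL(2,ℤ) → SL(2,ℤ) ⧸ Γ → A) (hc : ∀ g' g x, c (g' * g) x = c g x + c g' (g • x))

include hc

theorem c_one (x : SL(2,ℤ) ⧸ Γ) : c 1 x = 0 := by
  have := hc 1 1 x
  rw [one_mul, one_smul] at this
  have h2 : c 1 x + 0 = c 1 x + c 1 x := by rw [add_zero]; exact this
  exact (add_left_cancel h2).symm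

theorem c_inv (g : SL(2,ℤ)) (x : SL(2,ℤ) ⧸ Γ) : c g⁻¹ x = - c g (g⁻¹ • x) := by
  have := hc g g⁻¹ x
  rw [mul_inv_cancel, c_one c hc] at this
  exact eq_neg_of_add_eq_zero_left this.symm

theorem c_T (x : SL(2,ℤ) ⧸ Γ) : c T x = c (S * T) x - c S (T • x) := by
  rw [hc S T x]; abel

theorem c_conj (δ g : SL(2,ℤ)) (x : SL(2,ℤ) ⧸ Γ) (hfix : g • (δ⁻¹ • x) = δ⁻¹ • x) :
    c (δ * g * δ⁻¹) x = c g (δ⁻¹ • x) := by
  rw [mul_assoc, hc δ (g * δ⁻¹) x, hc g δ⁻¹ x, mul_smul, hfix, c_inv c hc δ x]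
  abel

theorem c_pow (g : SL(2,ℤ)) (m : ℕ) (x : SL(2,ℤ) ⧸ Γ) :
    c (g ^ m) x = ∑ i ∈ Finset.range m, c g (g ^ i • x) := by
  induction m with
  | zero => simp [c_one c hc]
  | succ m ih =>
    rw [pow_succ', hc g (g ^ m) x, ih, Finset.sum_range_succ]

theorem sum_c_eq_zero [Fintype (SL(2,ℤ) ⧸ Γ)] (hS : ∑ x, c S x = 0) (hU : ∑ x, c (S * T) x = 0)
    (g : SL(2,ℤ)) : ∑ x, c g x = 0 := by
  have hre : ∀ (h : SL(2,ℤ)) (f : SL(2,ℤ) ⧸ Γ → A), ∑ x, f (h • x) = ∑ x, f x := fun h f =>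
    Equiv.sum_comp (MulAction.toPerm h) f
  have hg : g ∈ Subgroup.closure ({S, T} : Set SL(2,ℤ)) := by
    rw [SpecialLinearGroup.SL2Z_generators]; trivial
  induction hg using Subgroup.closure_induction with
  | mem x hx =>
    rcases hx with rfl | rfl
    · exact hS
    · simp_rw [c_T c hc]
      rw [Finset.sum_sub_distrib, hU, hre T (c S), hS, sub_zero]
  | one => simp [c_one c hc]
  | mul x y _ _ hx hy =>
    simp_rw [hc x y]
    rw [Finset.sum_add_distrib, hy, hre y (c x), hx, add_zero]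
  | inv x _ hx =>
    simp_rw [c_inv c hc x]
    rw [Finset.sum_neg_distrib, hre x⁻¹ (c x), hx, neg_zero]

end Calculus


/-! ### Part 7: parabolic elements of `Γ₀(p)` -/

section Parabolic

variable (p : ℕ) [hp : Fact p.Prime]

theorem upper_eq (g : SL(2,ℤ)) (h : g 1 0 = 0) : ∃ m : ℤ, g = T ^ m ∨ g = -T ^ m := by
  have hdet : g 0 0 * g 1 1 - g 0 1 * g 1 0 = 1 := by
    have := g.det_coe
    rw [Matrix.det_fin_two] at this
    exact this
  rw [h, mul_zero, sub_zero] at hdet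
  rcases Int.eq_one_or_neg_one_of_mul_eq_one' hdet with ⟨ha, hd⟩ | ⟨ha, hd⟩
  · refine ⟨g 0 1, Or.inl ?_⟩
    ext i j
    rw [coe_T_zpow]
    fin_cases i <;> fin_cases j <;> simp [ha, hd, h]
  · refine ⟨- g 0 1, Or.inr ?_⟩
    ext i j
    rw [Matrix.SpecialLinearGroup.coe_neg, coe_T_zpow]
    fin_cases i <;> fin_cases j <;> simp [ha, hd, h]

theorem S_inv_T_zpow_S_entry (m : ℤ) : (S⁻¹ * T ^ m * S : SL(2,ℤ)) 1 0 = -m := by
  rw [Matrix.SpecialLinearGroup.coe_mul, Matrix.SpecialLinearGroup.coe_mul,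
    Matrix.SpecialLinearGroup.coe_inv, coe_T_zpow, coe_S, Matrix.adjugate_fin_two_of]
  simp [Matrix.mul_apply, Fin.sum_univ_two]

/-- the generator of the stabiliser of the cusp `0` -/
def Vmat : SL(2,ℤ) := S⁻¹ * T ^ (p : ℤ) * S

theorem Vmat_mem : Vmat p ∈ Gamma0 p := by
  rw [Gamma0_mem, Vmat, S_inv_T_zpow_S_entry]
  simp

theorem Vmat_zpow (m : ℤ) : Vmat p ^ m = S⁻¹ * T ^ ((p : ℤ) * m) * S := by
  have h := conj_zpow (a := (S⁻¹ : SL(2,ℤ))) (b := T ^ (p : ℤ)) (i := m)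
  rw [inv_inv] at h
  rw [Vmat, h, ← zpow_mul]

/-- classification of the elements of `Γ₀(p)` with `trace ^ 2 = 4` -/
theorem parabolic_cases (γ : SL(2,ℤ)) (hγ : γ ∈ Gamma0 p)
    (htr : (γ : Matrix (Fin 2) (Fin 2) ℤ).trace ^ 2 = 4) :
    ∃ η ∈ Gamma0 p, ∃ ε : SL(2,ℤ), (ε = 1 ∨ ε = -1) ∧ ∃ m : ℤ,
      (γ = ε * (η * T ^ m * η⁻¹) ∨ γ = ε * (η * Vmat p ^ m * η⁻¹)) := by
  obtain ⟨δ, hδ⟩ := Fermat.Agent.S21_helper65.exists_conj_upper γ htr
  obtain ⟨m, hm⟩ := upper_eq _ hδ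
  -- γ = ε δ T^m δ⁻¹
  obtain ⟨ε, hε, hγε⟩ : ∃ ε : SL(2,ℤ), (ε = 1 ∨ ε = -1) ∧ γ = ε * (δ * T ^ m * δ⁻¹) := by
    rcases hm with hm | hm
    · refine ⟨1, Or.inl rfl, ?_⟩
      rw [one_mul, ← hm]; group
    · refine ⟨-1, Or.inr rfl, ?_⟩
      have : δ * T ^ m * δ⁻¹ = -γ := by
        have h2 : T ^ m = -(δ⁻¹ * γ * δ) := by rw [hm, neg_neg]
        rw [h2, mul_neg, neg_mul]
        congr 1; group
      rw [this, neg_mul, one_mul, neg_neg]
  have hεmem : ε ∈ Gamma0 p := by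
    rcases hε with rfl | rfl
    · exact one_mem _
    · exact neg_one_mem_Gamma0 p
  have hconj : δ * T ^ m * δ⁻¹ ∈ Gamma0 p := by
    have : δ * T ^ m * δ⁻¹ = ε⁻¹ * γ := by rw [hγε, inv_mul_cancel_left]
    rw [this]
    exact mul_mem (inv_mem hεmem) hγ
  rcases coset_cases p δ⁻¹ with hδ' | ⟨j, hj⟩
  · refine ⟨δ, ?_, ε, hε, m, Or.inl hγε⟩
    have := inv_mem hδ'
    rwa [inv_inv] at this
  · have hη : δ * T ^ j * S ∈ Gamma0 p := by
      have := inv_mem hj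
      have h2 : ((T ^ j * S)⁻¹ * δ⁻¹)⁻¹ = δ * T ^ j * S := by group
      rwa [h2] at this
    -- p ∣ m
    have hmem : S⁻¹ * T ^ m * S ∈ Gamma0 p := by
      have : S⁻¹ * T ^ m * S = (δ * T ^ j * S)⁻¹ * (δ * T ^ m * δ⁻¹) * (δ * T ^ j * S) := by
        have hcomm : T ^ j * T ^ m = T ^ m * T ^ j := by rw [← zpow_add, ← zpow_add, add_comm]
        calc S⁻¹ * T ^ m * S = S⁻¹ * (T ^ j)⁻¹ * (T ^ j * T ^ m) * S := by
              rw [hcomm]; group
          _ = (δ * T ^ j * S)⁻¹ * (δ * T ^ m * δ⁻¹) * (δ * T ^ j * S) := by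
              rw [hcomm]; group
      rw [this]
      exact mul_mem (mul_mem (inv_mem hη) hconj) hη
    rw [Gamma0_mem, S_inv_T_zpow_S_entry] at hmem
    have hdvd : (p : ℤ) ∣ m := by
      have : ((-m : ℤ) : ZMod p) = 0 := hmem
      rw [ZMod.intCast_zmod_eq_zero_iff_dvd] at this
      exact (dvd_neg).1 this
    obtain ⟨m', rfl⟩ := hdvd
    refine ⟨δ * T ^ j * S, hη, ε, hε, m', Or.inr ?_⟩
    rw [hγε, Vmat_zpow]
    congr 1
    have hcomm : T ^ j * T ^ ((p : ℤ) * m') = T ^ ((p : ℤ) * m') * T ^ j := by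
      rw [← zpow_add, ← zpow_add, add_comm]
    calc δ * T ^ ((p : ℤ) * m') * δ⁻¹ = δ * (T ^ ((p : ℤ) * m') * T ^ j) * (T ^ j)⁻¹ * δ⁻¹ := by
          group
      _ = δ * T ^ j * S * (S⁻¹ * T ^ ((p : ℤ) * m') * S) * (δ * T ^ j * S)⁻¹ := by
          rw [← hcomm]; group

end Parabolic


/-! ### Part 8: the lifting lemma -/

section Final

open ModularCurve.Period

variable (p : ℕ) [hp : Fact p.Prime]

theorem neZeroP : NeZero p := ⟨hp.out.ne_zero⟩

/-- the cosets of `Γ₀(p)` form a finite type (not a global instance) -/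
noncomputable def fintypeCosets : Fintype (SL(2,ℤ) ⧸ Gamma0 p) :=
  haveI := neZeroP p
  haveI : Finite (SL(2,ℤ) ⧸ Gamma0 p) := Subgroup.finite_quotient_of_finiteIndex
  Fintype.ofFinite _

attribute [local instance] fintypeCosets

theorem S_smul_S_smul (x : SL(2,ℤ) ⧸ Gamma0 p) : S • S • x = x := by
  rw [← mul_smul, S_mul_S, neg_one_smul_coset (neg_one_mem_Gamma0 p)]

theorem U_smul_cube (x : SL(2,ℤ) ⧸ Gamma0 p) : (S * T) • (S * T) • (S * T) • x = x := by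
  rw [← mul_smul, ← mul_smul, ST_mul_ST_mul_ST,
    neg_one_smul_coset (neg_one_mem_Gamma0 p)]

theorem T_smul_x0 : T • x0 (Gamma0 p) = x0 (Gamma0 p) := by
  have := T_zpow_mem_Gamma0 p 1
  rw [zpow_one] at this
  exact smul_x0_of_mem this

theorem S_smul_x0_ne : S • x0 (Gamma0 p) ≠ x0 (Gamma0 p) := by
  have := TS_coset_ne_x0 p 0
  rw [zpow_zero, one_mul] at this
  have h2 : S • x0 (Gamma0 p) = ((S : SL(2,ℤ)) : SL(2,ℤ) ⧸ Gamma0 p) := by
    rw [x0, smul_mk, mul_one]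
  rw [h2]; exact this

/-- sum over the cosets -/
theorem sum_cosets {A : Type*} [AddCommGroup A] (f : SL(2,ℤ) ⧸ Gamma0 p → A) :
    ∑ x, f x = f (x0 (Gamma0 p)) + ∑ i ∈ Finset.range p, f (T ^ i • S • x0 (Gamma0 p)) := by
  rw [← (cosetEnum_bijective p).sum_comp f, Fintype.sum_option, Finset.sum_range]
  congr 1
  apply Finset.sum_congr rfl
  intro i _
  show f (((T ^ ((i : ℕ) : ℤ) * S : SL(2,ℤ)) : SL(2,ℤ) ⧸ Gamma0 p)) = _
  congr 1
  rw [x0, smul_mk, smul_mk, mul_one, zpow_natCast]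

/-- the parabolic criterion in cocycle form -/
theorem c_Vmat (c : SL(2,ℤ) → SL(2,ℤ) ⧸ Gamma0 p → ℤ)
    (hc : ∀ g' g x, c (g' * g) x = c g x + c g' (g • x))
    (hS : ∑ x, c S x = 0) (hU : ∑ x, c (S * T) x = 0) :
    c (Vmat p) (x0 (Gamma0 p)) = - c T (x0 (Gamma0 p)) := by
  have hfix : T ^ p • ((S⁻¹)⁻¹ • x0 (Gamma0 p)) = (S⁻¹)⁻¹ • x0 (Gamma0 p) := by
    rw [inv_inv, x0, smul_mk, smul_mk, mul_one]
    have := (TS_coset_eq_iff p (p : ℤ) 0).2 (by simp)
    rwa [zpow_zero, one_mul, zpow_natCast] at this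
  have h1 : Vmat p = S⁻¹ * T ^ p * (S⁻¹)⁻¹ := by
    rw [Vmat, inv_inv, zpow_natCast]
  rw [h1, c_conj c hc S⁻¹ (T ^ p) (x0 (Gamma0 p)) hfix, inv_inv, c_pow c hc]
  have h2 := sum_c_eq_zero c hc hS hU T
  rw [sum_cosets p (c T)] at h2
  linarith

theorem exists_parabolic_lift (n : ℕ) [NeZero n] (phi : Additive (Gamma0 p) →+ ZMod n)
    (hfin : ∀ g : Gamma0 p, IsOfFinOrder g → phi (Additive.ofMul g) = 0)
    (hpar : IsParabolicHom (Gamma0 p) phi) :
    ∃ Phi : Additive (Gamma0 p) →+ ℤ, IsParabolicHom (Gamma0 p) Phi ∧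
      ∀ g, ((Phi g : ℤ) : ZMod n) = phi g := by
  classical
  have hneg := neg_one_mem_Gamma0 p
  -- the Shapiro cocycle of `phi`
  have hsh : ∀ g' g x, shap phi (g' * g) x = shap phi g x + shap phi g' (g • x) := shap_mul phi
  -- values at elements acting trivially / of finite order
  have hfixzero : ∀ (g : SL(2,ℤ)) (x : SL(2,ℤ) ⧸ Gamma0 p), IsOfFinOrder g → g • x = x → shap phi g x = 0 := by
    intro g x hg hx
    obtain ⟨γ, hγ, hval⟩ := shap_fixed phi g x hx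
    rw [hval]
    apply hfin
    obtain ⟨k, hk, hgk⟩ := isOfFinOrder_iff_pow_eq_one.1 hg
    refine isOfFinOrder_iff_pow_eq_one.2 ⟨k, hk, Subtype.ext ?_⟩
    show ((γ ^ k : Gamma0 p) : SL(2,ℤ)) = 1
    rw [Subgroup.coe_pow, hγ]
    have : (x.out)⁻¹ * g * x.out = (x.out)⁻¹ * g * ((x.out)⁻¹)⁻¹ := by rw [inv_inv]
    rw [this, conj_pow, hgk, mul_one, mul_inv_cancel]
  have hfoS : IsOfFinOrder (S : SL(2,ℤ)) :=
    isOfFinOrder_iff_pow_eq_one.2 ⟨4, by norm_num, by decide⟩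
  have hfoU : IsOfFinOrder (S * T : SL(2,ℤ)) :=
    isOfFinOrder_iff_pow_eq_one.2 ⟨6, by norm_num, by decide⟩
  have hfoN : IsOfFinOrder (-1 : SL(2,ℤ)) :=
    isOfFinOrder_iff_pow_eq_one.2 ⟨2, by norm_num, by decide⟩
  have hshneg : ∀ x : SL(2,ℤ) ⧸ Gamma0 p, shap phi (-1) x = 0 := fun x =>
    hfixzero (-1) x hfoN (neg_one_smul_coset hneg x)
  -- relations for abar, bbar
  have ha1 : ∀ x : SL(2,ℤ) ⧸ Gamma0 p, shap phi S x + shap phi S (S • x) = 0 := by
    intro x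
    rw [← hsh S S x, S_mul_S, hshneg]
  have hb1 : ∀ x : SL(2,ℤ) ⧸ Gamma0 p, shap phi (S * T) x + shap phi (S * T) ((S * T) • x)
      + shap phi (S * T) ((S * T) • (S * T) • x) = 0 := by
    intro x
    have h1 := hsh (S * T) (S * T) x
    have h2 := hsh (S * T) ((S * T) * (S * T)) x
    rw [h1, ← mul_assoc, ST_mul_ST_mul_ST, hshneg, mul_smul (S * T) (S * T) x] at h2
    exact h2.symm
  -- integral lifts
  obtain ⟨a0, ha0c, ha0⟩ := exists_lift_invol (n := n) (fun x : SL(2,ℤ) ⧸ Gamma0 p => S • x) (S_smul_S_smul p)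
    (shap phi S) ha1 (fun x hx => hfixzero S x hfoS hx)
  obtain ⟨b, hbc, hb⟩ := exists_lift_cubic (n := n) (fun x : SL(2,ℤ) ⧸ Gamma0 p => (S * T) • x) (U_smul_cube p)
    (shap phi (S * T)) hb1 (fun x hx => hfixzero (S * T) x hfoU hx)
  -- correction at x0
  set k : ℤ := b (x0 (Gamma0 p)) - a0 (x0 (Gamma0 p)) with hk
  have hT0 : shap phi T (x0 (Gamma0 p)) = 0 := by
    have hTmem : (T : SL(2,ℤ)) ∈ Gamma0 p := by
      have := T_zpow_mem_Gamma0 p 1; rwa [zpow_one] at this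
    have := shap_mem_x0 phi ⟨T, hTmem⟩
    rw [this]
    apply hpar
    show ((T : SL(2,ℤ)) : Matrix (Fin 2) (Fin 2) ℤ).trace ^ 2 = 4
    rw [coe_T, Matrix.trace_fin_two_of]; norm_num
  have hkz : ((k : ℤ) : ZMod n) = 0 := by
    have h1 := c_T (shap phi) hsh (x0 (Gamma0 p))
    rw [T_smul_x0, hT0] at h1
    rw [hk]; push_cast
    rw [hbc, ha0c]
    exact h1.symm
  let a : SL(2,ℤ) ⧸ Gamma0 p → ℤ := fun x => a0 x + k * (if x = x0 (Gamma0 p) then 1 else 0)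
    - k * (if x = S • x0 (Gamma0 p) then 1 else 0)
  have hac : ∀ x, ((a x : ℤ) : ZMod n) = shap phi S x := by
    intro x
    show (((a0 x + k * (if x = x0 (Gamma0 p) then 1 else 0)
      - k * (if x = S • x0 (Gamma0 p) then 1 else 0) : ℤ)) : ZMod n) = _
    push_cast
    rw [hkz, ha0c]; ring
  have ha : ∀ x, a x + a (S • x) = 0 := by
    intro x
    have e1 : (S • x = x0 (Gamma0 p)) ↔ (x = S • x0 (Gamma0 p)) := by
      constructor
      · intro h; rw [← h, S_smul_S_smul]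
      · intro h; rw [h, S_smul_S_smul]
    have e2 : (S • x = S • x0 (Gamma0 p)) ↔ (x = x0 (Gamma0 p)) := by
      constructor
      · intro h
        have := congrArg (fun y => S • y) h
        simpa [S_smul_S_smul] using this
      · intro h; rw [h]
    show (a0 x + k * (if x = x0 (Gamma0 p) then 1 else 0)
      - k * (if x = S • x0 (Gamma0 p) then 1 else 0))
      + (a0 (S • x) + k * (if S • x = x0 (Gamma0 p) then 1 else 0)
      - k * (if S • x = S • x0 (Gamma0 p) then 1 else 0)) = 0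
    simp only [e1, e2]
    have := ha0 x
    linarith
  have hax0 : a (x0 (Gamma0 p)) = b (x0 (Gamma0 p)) := by
    show a0 (x0 (Gamma0 p)) + k * (if x0 (Gamma0 p) = x0 (Gamma0 p) then 1 else 0)
      - k * (if x0 (Gamma0 p) = S • x0 (Gamma0 p) then 1 else 0) = _
    rw [if_pos rfl, if_neg (Ne.symm (S_smul_x0_ne p))]
    rw [hk]; ring
  -- the integral cocycle
  obtain ⟨c, hc, hcS, hcU⟩ := exists_cocycle (A := ℤ) hneg a b ha hb
  -- reduction mod n agrees with the Shapiro cocycle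
  have hmod : ∀ g x, ((c g x : ℤ) : ZMod n) = shap phi g x := by
    have := cocycle_ext (Γ := Gamma0 p) (fun g x => ((c g x : ℤ) : ZMod n)) (shap phi)
      (by intro g' g x; simp only [hc g' g x]; push_cast; rfl) hsh
      (by funext x; simp only [hcS]; exact hac x)
      (by funext x; simp only [hcU]; exact hbc x)
    intro g x
    exact congrFun (congrFun this g) x
  -- the lifted hom
  let Phi : Additive (Gamma0 p) →+ ℤ :=
    { toFun := fun γ => c ((Additive.toMul γ : Gamma0 p) : SL(2,ℤ)) (x0 (Gamma0 p))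
      map_zero' := c_one c hc _
      map_add' := by
        intro γ γ'
        show c (((Additive.toMul γ * Additive.toMul γ' : Gamma0 p)) : SL(2,ℤ)) _ = _
        rw [Subgroup.coe_mul, hc, smul_x0_of_mem (Additive.toMul γ').2, add_comm] }
  have hPhi : ∀ γ : Gamma0 p, Phi (Additive.ofMul γ) = c (γ : SL(2,ℤ)) (x0 (Gamma0 p)) :=
    fun γ => rfl
  refine ⟨Phi, ?_, ?_⟩
  · -- parabolic
    have hre : ∀ (h : SL(2,ℤ)) (f : SL(2,ℤ) ⧸ Gamma0 p → ℤ), ∑ x, f (h • x) = ∑ x, f x :=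
      fun h f => Equiv.sum_comp (MulAction.toPerm h) f
    have hsumS : ∑ x, c S x = 0 := by
      rw [hcS]
      have h2 : ∑ x, (a x + a (S • x)) = 0 := Finset.sum_eq_zero (fun x _ => ha x)
      rw [Finset.sum_add_distrib, hre S a] at h2
      linarith
    have hsumU : ∑ x, c (S * T) x = 0 := by
      rw [hcU]
      have h2 : ∑ x, (b x + b ((S * T) • x) + b ((S * T) • (S * T) • x)) = 0 :=
        Finset.sum_eq_zero (fun x _ => hb x)
      rw [Finset.sum_add_distrib, Finset.sum_add_distrib, hre (S * T) b,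
        hre (S * T) (fun x => b ((S * T) • x)), hre (S * T) b] at h2
      linarith
    have hcT : c T (x0 (Gamma0 p)) = 0 := by
      rw [c_T c hc, T_smul_x0, hcS, hcU, hax0, sub_self]
    have hcV : c (Vmat p) (x0 (Gamma0 p)) = 0 := by
      rw [c_Vmat p c hc hsumS hsumU, hcT, neg_zero]
    have hcneg : c (-1) (x0 (Gamma0 p)) = 0 := by
      have h1 := hc (-1) (-1) (x0 (Gamma0 p))
      have h2 : ((-1 : SL(2,ℤ)) * -1) = 1 := by decide
      rw [h2, c_one c hc, neg_one_smul_coset hneg] at h1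
      linarith
    -- `Phi` on products inside `Γ₀(p)`
    have hmul : ∀ (g h : SL(2,ℤ)), h ∈ Gamma0 p →
        c (g * h) (x0 (Gamma0 p)) = c g (x0 (Gamma0 p)) + c h (x0 (Gamma0 p)) := by
      intro g h hh
      rw [hc, smul_x0_of_mem hh, add_comm]
    have hinv : ∀ (g : SL(2,ℤ)), g ∈ Gamma0 p →
        c g⁻¹ (x0 (Gamma0 p)) = - c g (x0 (Gamma0 p)) := by
      intro g hg
      rw [c_inv c hc, smul_x0_of_mem (inv_mem hg)]
    have hzpow : ∀ (g : SL(2,ℤ)), g ∈ Gamma0 p → c g (x0 (Gamma0 p)) = 0 →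
        ∀ m : ℤ, c (g ^ m) (x0 (Gamma0 p)) = 0 := by
      intro g hg h0 m
      have hnat : ∀ k : ℕ, c (g ^ k) (x0 (Gamma0 p)) = 0 := by
        intro k
        induction k with
        | zero => rw [pow_zero]; exact c_one c hc _
        | succ k ih => rw [pow_succ, hmul _ _ hg, ih, h0, add_zero]
      rcases Int.eq_nat_or_neg m with ⟨k, rfl | rfl⟩
      · rw [zpow_natCast]; exact hnat k
      · rw [zpow_neg, zpow_natCast, hinv _ (pow_mem hg k), hnat k, neg_zero]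
    intro γ htr
    obtain ⟨η, hη, ε, hε, m, hcase⟩ := parabolic_cases p (γ : SL(2,ℤ)) γ.2 htr
    have hεmem : ε ∈ Gamma0 p := by
      rcases hε with rfl | rfl
      · exact one_mem _
      · exact hneg
    have hcε : c ε (x0 (Gamma0 p)) = 0 := by
      rcases hε with rfl | rfl
      · exact c_one c hc _
      · exact hcneg
    have hTmem : ∀ m : ℤ, (T ^ m : SL(2,ℤ)) ∈ Gamma0 p := T_zpow_mem_Gamma0 p
    show Phi (Additive.ofMul γ) = 0
    rw [hPhi]
    rcases hcase with h | h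
    · rw [h, hmul _ _ (mul_mem (mul_mem hη (hTmem m)) (inv_mem hη)), hcε, zero_add,
        hmul _ _ (inv_mem hη), hmul _ _ (hTmem m), hinv _ hη]
      have h1 : (T : SL(2,ℤ)) ∈ Gamma0 p := by have := hTmem 1; rwa [zpow_one] at this
      rw [hzpow T h1 hcT m]; ring
    · have hVm : Vmat p ^ m ∈ Gamma0 p := zpow_mem (Vmat_mem p) m
      rw [h, hmul _ _ (mul_mem (mul_mem hη hVm) (inv_mem hη)), hcε, zero_add,
        hmul _ _ (inv_mem hη), hmul _ _ hVm, hinv _ hη]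
      rw [hzpow (Vmat p) (Vmat_mem p) hcV m]; ring
  · intro γ
    have h1 : Phi γ = c ((Additive.toMul γ : Gamma0 p) : SL(2,ℤ)) (x0 (Gamma0 p)) := rfl
    rw [h1, hmod, shap_mem_x0]
    rfl

end Final

end Fermat.Agent.S16.LB.PPLift
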