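/-
T16 / LB-SH (helper49): the Shimura class in the prelude shapes requested by the LB lead
(board 960).  Imports the Mathlib-only core `LB/ShimuraClass.lean`.

EXPORTS (namespace `Fermat.Agent.S16.LB.SH`):
* `psi p : Additive (Gamma0 p) →+ ZMod (eisensteinNumerator p)`
* `psi_apply`, `psi_isParabolicHom`, `psi_finOrder`, `psi_order`, `psi_order_iff`, `psi_surjective`
* `psi_rel` (cocycle relation from an integer matrix relation)
-/
import Fermat.Agent.S16.LB.ShimuraClass
import Fermat.Prelude.Def_ModularCurve_PeriodMap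
import Fermat.Prelude.Def_ModularCurve_ModularUnit
import Fermat.Prelude.Def_HeckeGalois_EichlerShimura

set_option autoImplicit false

open scoped MatrixGroups
open CongruenceSubgroup Matrix ModularCurve ModularCurve.Period

namespace Fermat.Agent.S16.LB.SH

variable (p : ℕ) [Fact p.Prime]

theorem nn_eq_eisensteinNumerator : Shimura.nn p = eisensteinNumerator p := rfl

/-- The Shimura class `Γ₀(p) → ℤ/n`, `n = eisensteinNumerator p`, `g ↦ χ(g₀₀ mod p)`. -/
noncomputable def psi : Additive (Gamma0 p) →+ ZMod (eisensteinNumerator p) := Shimura.psi p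

/-- The additive character `(ℤ/p)ˣ → ℤ/n`. -/
noncomputable def chiA (u : (ZMod p)ˣ) : ZMod (eisensteinNumerator p) := Shimura.chiA p u

theorem chiA_mul (u v : (ZMod p)ˣ) : chiA p (u * v) = chiA p u + chiA p v := Shimura.chiA_mul p u v

theorem chiA_one : chiA p 1 = 0 := Shimura.chiA_one p

theorem psi_apply (g : Gamma0 p) : psi p (Additive.ofMul g) = chiA p (Shimura.aUnit p g) := rfl

theorem psi_surjective : Function.Surjective (psi p) := Shimura.psi_surjective p

theorem psi_isParabolicHom : IsParabolicHom (Gamma0 p) (psi p) := fun g hg =>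
  Shimura.psi_eq_zero_of_trace_sq_eq_four p g hg

theorem psi_mem_parabolicHoms :
    psi p ∈ parabolicHoms ℤ (Gamma0 p) (ZMod (eisensteinNumerator p)) :=
  psi_isParabolicHom p

theorem psi_finOrder (g : Gamma0 p) (hg : IsOfFinOrder g) : psi p (Additive.ofMul g) = 0 :=
  Shimura.psi_eq_zero_of_isOfFinOrder p g hg

theorem psi_order_iff (k : ℤ) : k • psi p = 0 ↔ (eisensteinNumerator p : ℤ) ∣ k :=
  Shimura.zsmul_psi_eq_zero_iff p k

theorem psi_order (k : ℤ) (h : k • psi p = 0) : (eisensteinNumerator p : ℤ) ∣ k :=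
  (psi_order_iff p k).mp h

/-- The cocycle relation for `psi`: if `A * g = g' * B` as integer matrices, `p ∣ B 1 0` and
`A₀₀`, `B₀₀` are units mod `p`, then `psi g' = psi g + chiA A₀₀ - chiA B₀₀`. -/
theorem psi_rel {A B : Matrix (Fin 2) (Fin 2) ℤ} {g g' : Gamma0 p}
    (h : A * Shimura.toMat p g = Shimura.toMat p g' * B) (hB : ((B 1 0 : ℤ) : ZMod p) = 0)
    (uA uB : (ZMod p)ˣ) (huA : (uA : ZMod p) = ((A 0 0 : ℤ) : ZMod p))
    (huB : (uB : ZMod p) = ((B 0 0 : ℤ) : ZMod p)) :
    psi p (Additive.ofMul g') = psi p (Additive.ofMul g) + chiA p uA - chiA p uB :=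
  Shimura.psi_rel p h hB uA uB huA huB

end Fermat.Agent.S16.LB.SH
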