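/-
T16 / LB-SH (helper49), SH2 core: the Shimura class `psi` against the prelude Hecke coset
representatives `heckeRep ℓ x` (`ℓ ≠ p`) and `heckeMatrix p j` (`U_p`).

EXPORTS (namespace `Fermat.Agent.S16.LB.SH`):
* `intRel_of_GL` : a relation `α * mapGL ℝ g = mapGL ℝ g' * β` in `GL (Fin 2) ℝ` between
  integer-valued `α, β` is a relation of integer matrices
* `cRep p ℓ x : ZMod n` (`χ(ℓ)` at `∞`, `0` at finite `x`)
* `psi_heckeRep` : `heckeRep ℓ x * mapGL ℝ g = mapGL ℝ g' * heckeRep ℓ y` ⇒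
    `psi g' = psi g + cRep x - cRep y`
* `sum_psi_heckeRep` : telescoping, `∑ x, psi (t x) = (1 + ℓ) • psi g`
* `psi_heckeMatrix_self` : `heckeMatrix p j * mapGL ℝ g = mapGL ℝ g' * heckeMatrix p j'` ⇒
    `psi g' = psi g`
* `sum_psi_heckeMatrix_self` : `∑ x : ZMod p, psi (t x) = psi g`
-/
import Fermat.Agent.S16.LB.ShimuraPsi
import Fermat.Prelude.Sol.S_ModularForm_heckeT_slash_eq_self_of_mem_Gamma0

set_option autoImplicit false

open scoped MatrixGroups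
open CongruenceSubgroup Matrix ModularCurve ModularCurve.Period Matrix.SpecialLinearGroup
open P2MW.S_ModularForm_heckeT_slash_eq_self_of_mem_Gamma0.ModularForm.HeckeSlashInvariance

namespace Fermat.Agent.S16.LB.SH

theorem coe_mapGL (g : SL(2, ℤ)) :
    ((mapGL ℝ g : GL (Fin 2) ℝ) : Matrix (Fin 2) (Fin 2) ℝ)
      = (g : Matrix (Fin 2) (Fin 2) ℤ).map (Int.castRingHom ℝ) := by
  ext i j
  simp

/-- A relation in `GL (Fin 2) ℝ` between integer-valued matrices is an integer relation. -/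
theorem intRel_of_GL {A B : Matrix (Fin 2) (Fin 2) ℤ} {α β : GL (Fin 2) ℝ}
    (hα : (α : Matrix (Fin 2) (Fin 2) ℝ) = A.map (Int.castRingHom ℝ))
    (hβ : (β : Matrix (Fin 2) (Fin 2) ℝ) = B.map (Int.castRingHom ℝ))
    {g g' : SL(2, ℤ)} (h : α * mapGL ℝ g = mapGL ℝ g' * β) :
    A * (g : Matrix (Fin 2) (Fin 2) ℤ) = (g' : Matrix (Fin 2) (Fin 2) ℤ) * B := by
  have h' := congrArg (fun x : GL (Fin 2) ℝ => (x : Matrix (Fin 2) (Fin 2) ℝ)) h
  simp only [Units.val_mul] at h'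
  rw [hα, hβ, coe_mapGL, coe_mapGL, ← Matrix.map_mul, ← Matrix.map_mul] at h'
  exact Matrix.map_injective (RingHom.injective_int (Int.castRingHom ℝ)) h'

theorem coe_heckeMatrix {ℓ : ℕ} (hℓ : ℓ ≠ 0) (j : ℕ) :
    ((ModularForm.heckeMatrix ℓ j : GL (Fin 2) ℝ) : Matrix (Fin 2) (Fin 2) ℝ)
      = (!![(1 : ℤ), (j : ℤ); 0, (ℓ : ℤ)]).map (Int.castRingHom ℝ) := by
  rw [ModularForm.val_heckeMatrix hℓ]
  ext a b
  fin_cases a <;> fin_cases b <;> simp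

theorem coe_heckeDiagMatrix {ℓ : ℕ} (hℓ : ℓ ≠ 0) :
    ((ModularForm.heckeDiagMatrix ℓ : GL (Fin 2) ℝ) : Matrix (Fin 2) (Fin 2) ℝ)
      = (!![(ℓ : ℤ), 0; 0, (1 : ℤ)]).map (Int.castRingHom ℝ) := by
  rw [ModularForm.val_heckeDiagMatrix hℓ]
  ext a b
  fin_cases a <;> fin_cases b <;> simp

/-- The integer matrix of the prelude representative `heckeRep ℓ x`. -/
def repZ (ℓ : ℕ) (x : OnePoint (ZMod ℓ)) : Matrix (Fin 2) (Fin 2) ℤ :=
  x.elim !![(ℓ : ℤ), 0; 0, (1 : ℤ)] (fun j => !![(1 : ℤ), (j.val : ℤ); 0, (ℓ : ℤ)])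

theorem coe_heckeRep {ℓ : ℕ} (hℓ : ℓ ≠ 0) (x : OnePoint (ZMod ℓ)) :
    ((heckeRep ℓ x : GL (Fin 2) ℝ) : Matrix (Fin 2) (Fin 2) ℝ)
      = (repZ ℓ x).map (Int.castRingHom ℝ) := by
  induction x using OnePoint.rec with
  | infty => exact coe_heckeDiagMatrix hℓ
  | coe j => exact coe_heckeMatrix hℓ j.val

theorem repZ_one_zero (ℓ : ℕ) (x : OnePoint (ZMod ℓ)) : repZ ℓ x 1 0 = 0 := by
  induction x using OnePoint.rec with
  | infty => simp [repZ]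
  | coe j => simp [repZ]

variable (p : ℕ) [Fact p.Prime]

/-- `ℓ` as a unit mod `p` (`ℓ ≠ p` primes). -/
noncomputable def unitOfPrime (ℓ : ℕ) [Fact ℓ.Prime] (hℓp : ℓ ≠ p) : (ZMod p)ˣ :=
  ZMod.unitOfCoprime ℓ
    ((Nat.coprime_primes (Fact.out : ℓ.Prime) (Fact.out : p.Prime)).mpr hℓp)

theorem coe_unitOfPrime (ℓ : ℕ) [Fact ℓ.Prime] (hℓp : ℓ ≠ p) :
    ((unitOfPrime p ℓ hℓp : (ZMod p)ˣ) : ZMod p) = (ℓ : ZMod p) := rfl

/-- The unit `a(α_x)` of the representative `heckeRep ℓ x`. -/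
noncomputable def uRep (ℓ : ℕ) [Fact ℓ.Prime] (hℓp : ℓ ≠ p) (x : OnePoint (ZMod ℓ)) : (ZMod p)ˣ :=
  x.elim (unitOfPrime p ℓ hℓp) (fun _ => 1)

theorem coe_uRep (ℓ : ℕ) [Fact ℓ.Prime] (hℓp : ℓ ≠ p) (x : OnePoint (ZMod ℓ)) :
    ((uRep p ℓ hℓp x : (ZMod p)ˣ) : ZMod p) = ((repZ ℓ x 0 0 : ℤ) : ZMod p) := by
  induction x using OnePoint.rec with
  | infty => simp [uRep, repZ, coe_unitOfPrime]
  | coe j => simp [uRep, repZ]

/-- `χ(a(α_x))`. -/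
noncomputable def cRep (ℓ : ℕ) [Fact ℓ.Prime] (hℓp : ℓ ≠ p) (x : OnePoint (ZMod ℓ)) :
    ZMod (eisensteinNumerator p) :=
  chiA p (uRep p ℓ hℓp x)

/-- The cocycle relation for `psi` along the prelude relation
`heckeRep ℓ x * g = g' * heckeRep ℓ y`. -/
theorem psi_heckeRep (ℓ : ℕ) [Fact ℓ.Prime] (hℓp : ℓ ≠ p) (x y : OnePoint (ZMod ℓ))
    (g g' : Gamma0 p)
    (h : heckeRep ℓ x * mapGL ℝ (g : SL(2, ℤ)) = mapGL ℝ (g' : SL(2, ℤ)) * heckeRep ℓ y) :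
    psi p (Additive.ofMul g') = psi p (Additive.ofMul g) + cRep p ℓ hℓp x - cRep p ℓ hℓp y := by
  have hℓ : ℓ ≠ 0 := (Fact.out : ℓ.Prime).ne_zero
  have hint := intRel_of_GL (coe_heckeRep hℓ x) (coe_heckeRep hℓ y) h
  exact psi_rel p hint (by rw [repZ_one_zero]; simp) _ _ (coe_uRep p ℓ hℓp x) (coe_uRep p ℓ hℓp y)

/-- Telescoping: `∑ₓ psi (t x) = (1 + ℓ) • psi g`. -/
theorem sum_psi_heckeRep (ℓ : ℕ) [Fact ℓ.Prime] (hℓp : ℓ ≠ p) (g : Gamma0 p)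
    (σ : Equiv.Perm (OnePoint (ZMod ℓ))) (t : OnePoint (ZMod ℓ) → Gamma0 p)
    (h : ∀ x, heckeRep ℓ x * mapGL ℝ (g : SL(2, ℤ))
      = mapGL ℝ (t x : SL(2, ℤ)) * heckeRep ℓ (σ x)) :
    ∑ x, psi p (Additive.ofMul (t x)) = ((1 + ℓ : ℕ) : ℤ) • psi p (Additive.ofMul g) := by
  have h1 : ∀ x, psi p (Additive.ofMul (t x))
      = psi p (Additive.ofMul g) + cRep p ℓ hℓp x - cRep p ℓ hℓp (σ x) :=
    fun x => psi_heckeRep p ℓ hℓp x (σ x) g (t x) (h x)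
  simp_rw [h1]
  rw [Finset.sum_sub_distrib, Finset.sum_add_distrib, Equiv.sum_comp σ (cRep p ℓ hℓp),
    add_sub_cancel_right, Finset.sum_const, Finset.card_univ]
  have hcard : Fintype.card (OnePoint (ZMod ℓ)) = 1 + ℓ := by
    have : Fintype.card (OnePoint (ZMod ℓ)) = Fintype.card (Option (ZMod ℓ)) := rfl
    rw [this, Fintype.card_option, ZMod.card, add_comm]
  rw [hcard, natCast_zsmul]

/-- For `U_p`: `heckeMatrix p j * g = g' * heckeMatrix p j'` ⇒ `psi g' = psi g`. -/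
theorem psi_heckeMatrix_self (j j' : ℕ) (g g' : Gamma0 p)
    (h : ModularForm.heckeMatrix p j * mapGL ℝ (g : SL(2, ℤ))
      = mapGL ℝ (g' : SL(2, ℤ)) * ModularForm.heckeMatrix p j') :
    psi p (Additive.ofMul g') = psi p (Additive.ofMul g) := by
  have hp : p ≠ 0 := (Fact.out : p.Prime).ne_zero
  have hint := intRel_of_GL (coe_heckeMatrix hp j) (coe_heckeMatrix hp j') h
  have := psi_rel p hint (by simp) 1 1 (by simp) (by simp)
  rw [this, chiA_one]; simp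

theorem natCast_self_eq_one : ((p : ℕ) : ZMod (eisensteinNumerator p)) = 1 := by
  have hp : 1 ≤ p := (Fact.out : p.Prime).one_lt.le
  have hdvd : eisensteinNumerator p ∣ p - 1 := Shimura.nn_dvd p
  have h0 : (((p - 1 : ℕ)) : ZMod (eisensteinNumerator p)) = 0 :=
    (ZMod.natCast_eq_zero_iff _ _).mpr hdvd
  rw [Nat.cast_sub hp, Nat.cast_one, sub_eq_zero] at h0
  exact h0

/-- Telescoping for `U_p`: `∑ psi (t x) = psi g`. -/
theorem sum_psi_heckeMatrix_self (g : Gamma0 p) (σ : ZMod p → ZMod p) (t : ZMod p → Gamma0 p)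
    (h : ∀ x : ZMod p, ModularForm.heckeMatrix p x.val * mapGL ℝ (g : SL(2, ℤ))
      = mapGL ℝ (t x : SL(2, ℤ)) * ModularForm.heckeMatrix p (σ x).val) :
    ∑ x, psi p (Additive.ofMul (t x)) = psi p (Additive.ofMul g) := by
  have h1 : ∀ x, psi p (Additive.ofMul (t x)) = psi p (Additive.ofMul g) :=
    fun x => psi_heckeMatrix_self p _ _ g (t x) (h x)
  simp_rw [h1]
  rw [Finset.sum_const, Finset.card_univ, ZMod.card, nsmul_eq_mul, natCast_self_eq_one, one_mul]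

end Fermat.Agent.S16.LB.SH
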