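/-
T16 / LB-H2 final (helper86): the period equivariance `hper` for helper49's `cohGen`,
WITHOUT the coset-uniqueness lemma LB-INV.

Idea: `hper` only needs the commutation of `cohGen` with the character involution on the RANGE of
the period map.  Conjugating a coset decomposition `α_x γ = t_x α_{σ x}` by `J = diag(-1, 1)` and
using `J α_x J = δ_x α_{-x}` (`δ_x ∈ {1, T^{-1}} ⊂ Γ₀(N)`) produces a coset decomposition of
`jγj`; the telescoping identity `periodMap_eq_sum` holds for ANY decomposition, so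
`P_{Tf}(jγj) = ∑ₓ P_f(j t_x j)` and the `δ`-terms telescope.

EXPORTS (namespace `Fermat.Agent.S16.LB.HeckePeriod`):
* `periodMap_eq_sum_jConj`, `periodMap_heckeT_jConj`, `periodMap_heckeU_jConj`
* `periodHomPair_heckeFormsGen_cohGen` : exactly `hper` of `KerDvdHecke.ker_dvd_of_hecke`
  for `cohGen := Fermat.Agent.S16_helper49.cohGen`.
-/
import Mathlib
import Fermat.Agent.S16.LB.HeckePeriodPair
import Fermat.Agent.S16_helper49.HeckeGen

set_option autoImplicit false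

open UpperHalfPlane hiding I
open ModularForm Complex Filter Topology CongruenceSubgroup
open scoped MatrixGroups ModularForm Manifold OnePoint

namespace Fermat.Agent.S16.LB.HeckePeriod

open Fermat.Agent.S21_helper65 ModularCurve ModularCurve.Period
open P2MW.S_ModularForm_heckeT_slash_eq_self_of_mem_Gamma0.ModularForm.HeckeSlashInvariance
open Matrix.SpecialLinearGroup
open Fermat.Agent.S16_helper49 (cohGen cohGen_apply_of_not_dvd cohGen_apply_of_dvd)

theorem J_mul_J : (J : GL (Fin 2) ℝ) * J = 1 := by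
  have := J_sq
  rwa [sq] at this

/-- (F1) `mapGL ℝ (jConjSL g) = J * mapGL ℝ g * J`. -/
theorem mapGL_jConjSL (g : SL(2, ℤ)) :
    mapGL ℝ (jConjSL g) = J * mapGL ℝ g * J := by
  apply Units.ext
  ext i j
  fin_cases i <;> fin_cases j <;>
    simp [jConjSL_coe, jConjMat, Matrix.mul_apply, Fin.sum_univ_two, Matrix.vecMul, dotProduct]

/-- **Generic conjugated telescoping identity.** -/
theorem periodMap_eq_sum_jConj {N : ℕ} [NeZero N] {X : Type*} [Fintype X] (α : X → GL (Fin 2) ℝ)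
    (hα : ∀ x, 0 < (α x).det.val)
    (f f' : CuspForm (Gamma0 N) 2) (hf' : (⇑f' : ℍ → ℂ) = ∑ x, (⇑f) ∣[(2 : ℤ)] α x)
    (n : Equiv.Perm X) (hn : ∀ x, n (n x) = x) (δ : X → Gamma0 N)
    (hδ : ∀ x, J * α x * J = mapGL ℝ ((δ x : Gamma0 N) : SL(2, ℤ)) * α (n x))
    (γ : Gamma0 N) (σ : Equiv.Perm X) (t : X → Gamma0 N)
    (h : ∀ x, α x * mapGL ℝ (γ : SL(2, ℤ)) = mapGL ℝ ((t x : Gamma0 N) : SL(2, ℤ)) * α (σ x)) :
    periodMap N f' (Additive.ofMul (jConjGamma0 N γ))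
      = ∑ x, periodMap N f (Additive.ofMul (jConjGamma0 N (t x))) := by
  -- the conjugated decomposition
  have key : ∀ y, α y * mapGL ℝ ((jConjGamma0 N γ : Gamma0 N) : SL(2, ℤ))
      = mapGL ℝ (((δ (n y))⁻¹ * jConjGamma0 N (t (n y)) * δ (σ (n y)) : Gamma0 N) : SL(2, ℤ))
        * α (n (σ (n y))) := by
    intro y
    set x := n y with hx
    have hy : y = n x := by rw [hx, hn]
    have h1 : α y = (mapGL ℝ ((δ x : Gamma0 N) : SL(2, ℤ)))⁻¹ * (J * α x * J) := by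
      rw [hδ x, ← hy, inv_mul_cancel_left]
    have h2 : J * α (σ x) * J = mapGL ℝ ((δ (σ x) : Gamma0 N) : SL(2, ℤ)) * α (n (σ x)) := hδ (σ x)
    rw [h1, jConjGamma0_coe, mapGL_jConjSL]
    simp only [Subgroup.coe_mul, Subgroup.coe_inv, map_mul, map_inv, jConjGamma0_coe,
      mapGL_jConjSL]
    have h3 := h x
    calc (mapGL ℝ ((δ x : Gamma0 N) : SL(2, ℤ)))⁻¹ * (J * α x * J)
          * (J * mapGL ℝ (γ : SL(2, ℤ)) * J)
        = (mapGL ℝ ((δ x : Gamma0 N) : SL(2, ℤ)))⁻¹ * (J * (α x * ((J * J)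
          * mapGL ℝ (γ : SL(2, ℤ)))) * J) := by group
      _ = (mapGL ℝ ((δ x : Gamma0 N) : SL(2, ℤ)))⁻¹ * (J * (α x * mapGL ℝ (γ : SL(2, ℤ))) * J) := by
          rw [J_mul_J, one_mul]
      _ = (mapGL ℝ ((δ x : Gamma0 N) : SL(2, ℤ)))⁻¹ * (J * (mapGL ℝ ((t x : Gamma0 N) : SL(2, ℤ))
          * α (σ x)) * J) := by rw [h3]
      _ = (mapGL ℝ ((δ x : Gamma0 N) : SL(2, ℤ)))⁻¹ * ((J * mapGL ℝ ((t x : Gamma0 N) : SL(2, ℤ))
          * ((J * J) * α (σ x))) * J) := by rw [J_mul_J, one_mul]; group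
      _ = (mapGL ℝ ((δ x : Gamma0 N) : SL(2, ℤ)))⁻¹ * ((J * mapGL ℝ ((t x : Gamma0 N) : SL(2, ℤ))
          * J) * (J * α (σ x) * J)) := by group
      _ = _ := by rw [h2]; group
  have hmain := periodMap_eq_sum α hα f f' hf' (jConjGamma0 N γ) (n.trans (σ.trans n))
    (fun y => (δ (n y))⁻¹ * jConjGamma0 N (t (n y)) * δ (σ (n y))) key
  rw [hmain]
  rw [← Equiv.sum_comp n]
  simp only [hn, ofMul_mul, ofMul_inv, map_add, map_neg, Finset.sum_add_distrib,
    Finset.sum_neg_distrib]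
  rw [Equiv.sum_comp σ (fun x => periodMap N f (Additive.ofMul (δ x)))]
  abel

/-! ### The conjugates `J α_x J` of the prelude representatives -/

theorem T_zpow_mem_Gamma0 (N : ℕ) (e : ℤ) : ModularGroup.T ^ e ∈ Gamma0 N := by
  rw [Gamma0_mem, ModularGroup.coe_T_zpow]
  simp

theorem val_mapGL_T_zpow (e : ℤ) :
    ((mapGL ℝ (ModularGroup.T ^ e) : GL (Fin 2) ℝ) : Matrix (Fin 2) (Fin 2) ℝ)
      = !![1, (e : ℝ); 0, 1] := by
  ext i k
  rw [mapGL_apply, ModularGroup.coe_T_zpow]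
  fin_cases i <;> fin_cases k <;> simp

/-- (F2) for the upper triangular representatives. -/
theorem J_heckeMatrix_J {q : ℕ} (hq : q ≠ 0) (j j' : ℕ) (e : ℤ) (he : (j : ℤ) + j' = q * e) :
    J * heckeMatrix q j * J = mapGL ℝ (ModularGroup.T ^ (-e)) * heckeMatrix q j' := by
  have he' : (j : ℝ) + j' = q * e := by exact_mod_cast he
  apply Units.ext
  rw [Units.val_mul, Units.val_mul, Units.val_mul, val_J, val_heckeMatrix hq, val_heckeMatrix hq,
    val_mapGL_T_zpow]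
  ext i k
  fin_cases i <;> fin_cases k <;>
    simp [Matrix.mul_apply, Fin.sum_univ_two]
  linarith

theorem J_heckeDiagMatrix_J {q : ℕ} (hq : q ≠ 0) :
    J * heckeDiagMatrix q * J = mapGL ℝ (1 : SL(2, ℤ)) * heckeDiagMatrix q := by
  apply Units.ext
  ext i k
  fin_cases i <;> fin_cases k <;>
    simp [val_heckeDiagMatrix hq, Matrix.mul_apply, Fin.sum_univ_two]

theorem exists_delta_heckeMatrix (N : ℕ) {q : ℕ} [NeZero q] (k : ZMod q) :
    ∃ δ : Gamma0 N, J * heckeMatrix q k.val * J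
      = mapGL ℝ ((δ : Gamma0 N) : SL(2, ℤ)) * heckeMatrix q (-k).val := by
  obtain ⟨e, he⟩ : (q : ℤ) ∣ (k.val : ℤ) + ((-k).val : ℤ) := by
    rw [← ZMod.intCast_zmod_eq_zero_iff_dvd]
    push_cast
    rw [ZMod.natCast_zmod_val, ZMod.natCast_zmod_val]
    ring
  exact ⟨⟨ModularGroup.T ^ (-e), T_zpow_mem_Gamma0 N _⟩,
    J_heckeMatrix_J (NeZero.ne q) k.val (-k).val e he⟩

/-- the involution `x ↦ -x` of `ℙ¹(𝔽_ℓ)` -/
def negOP (ℓ : ℕ) : Equiv.Perm (OnePoint (ZMod ℓ)) :=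
  Equiv.optionCongr (Equiv.neg (ZMod ℓ))

theorem negOP_negOP (ℓ : ℕ) (x : OnePoint (ZMod ℓ)) : negOP ℓ (negOP ℓ x) = x := by
  induction x using OnePoint.rec with
  | infty => rfl
  | coe j =>
    show ((( - - j : ZMod ℓ)) : OnePoint (ZMod ℓ)) = j
    rw [neg_neg]

theorem exists_delta_heckeRep (N : ℕ) {ℓ : ℕ} [NeZero ℓ] (x : OnePoint (ZMod ℓ)) :
    ∃ δ : Gamma0 N, J * heckeRep ℓ x * J
      = mapGL ℝ ((δ : Gamma0 N) : SL(2, ℤ)) * heckeRep ℓ (negOP ℓ x) := by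
  induction x using OnePoint.rec with
  | infty => exact ⟨1, J_heckeDiagMatrix_J (NeZero.ne ℓ)⟩
  | coe k => exact exists_delta_heckeMatrix N k

/-! ### The two Hecke cases -/

/-- `T_ℓ`: the period of `T_ℓ f` at `jγj` from ANY coset decomposition for `γ`. -/
theorem periodMap_heckeT_jConj {N : ℕ} [NeZero N] {ℓ : ℕ} [NeZero ℓ] (hℓ : ℓ.Prime)
    (hℓN : ¬ ℓ ∣ N) (f : CuspForm (Gamma0 N) 2) (γ : Gamma0 N)
    (t : OnePoint (ZMod ℓ) → Gamma0 N) (σ : Equiv.Perm (OnePoint (ZMod ℓ)))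
    (hmul : ∀ x, heckeRep ℓ x * mapGL ℝ (γ : SL(2, ℤ))
      = mapGL ℝ ((t x : Gamma0 N) : SL(2, ℤ)) * heckeRep ℓ (σ x)) :
    periodMap N (CuspForm.heckeTLin 2 hℓ hℓN f) (Additive.ofMul (jConjGamma0 N γ))
      = ∑ x, periodMap N f (Additive.ofMul (jConjGamma0 N (t x))) := by
  choose δ hδ using exists_delta_heckeRep N (ℓ := ℓ)
  refine periodMap_eq_sum_jConj (heckeRep ℓ) (det_heckeRep_pos ℓ) f _ ?_ (negOP ℓ)
    (negOP_negOP ℓ) δ hδ γ σ t hmul
  rw [CuspForm.coe_heckeTLin_apply, heckeT_eq_sum_onePoint]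

/-- `U_q`: the period of `U_q f` at `jγj` from ANY coset decomposition for `γ`. -/
theorem periodMap_heckeU_jConj {N : ℕ} [NeZero N] {q : ℕ} [NeZero q] (hqN : q ∣ N)
    (f : CuspForm (Gamma0 N) 2) (γ : Gamma0 N) (t : ZMod q → Gamma0 N)
    (σ : Equiv.Perm (ZMod q))
    (hmul : ∀ x, heckeMatrix q x.val * mapGL ℝ (γ : SL(2, ℤ))
      = mapGL ℝ ((t x : Gamma0 N) : SL(2, ℤ)) * heckeMatrix q (σ x).val) :
    periodMap N (CuspForm.heckeULin 2 hqN f) (Additive.ofMul (jConjGamma0 N γ))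
      = ∑ x, periodMap N f (Additive.ofMul (jConjGamma0 N (t x))) := by
  choose δ hδ using exists_delta_heckeMatrix N (q := q)
  refine periodMap_eq_sum_jConj (fun x : ZMod q => heckeMatrix q x.val)
    (fun x => det_heckeMatrix_pos q x.val) f _ ?_ (Equiv.neg (ZMod q)) (fun x => neg_neg x) δ hδ
    γ σ t hmul
  rw [CuspForm.coe_heckeULin_apply, heckeU_eq_sum_zmod]

/-- Abstract packaging, with the involution compatibility only on the range of the period map. -/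
theorem periodHomPair_of_periodMap' {N : ℕ} [NeZero N]
    (T : CuspForm (Gamma0 N) 2 → CuspForm (Gamma0 N) 2)
    (τ : (Additive (Gamma0 N) →+ ℂ) →+ (Additive (Gamma0 N) →+ ℂ))
    (hT : ∀ f, periodMap N (T f) = τ (periodMap N f))
    (hinv : ∀ f, τ (charInvolution N ℂ ℂ (periodMap N f))
      = charInvolution N ℂ ℂ (periodMap N (T f)))
    (f g : CuspForm (Gamma0 N) 2) :
    periodHomPair N (T f, T g) = τ (periodHomPair N (f, g)) := by
  rw [periodHomPair_apply, periodHomPair_apply, map_add, map_sub, map_add, hinv, hinv, hT f, hT g]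

local instance factPrimesHP (l : Nat.Primes) : Fact (l : ℕ).Prime := ⟨l.2⟩

/-- **LB-H2, final form**: `hper` of `ker_dvd_of_hecke` for helper49's `cohGen`. -/
theorem periodHomPair_heckeFormsGen_cohGen (N : ℕ) [NeZero N] (l : Nat.Primes)
    (f g : CuspForm (Gamma0 N) 2) :
    periodHomPair N
        ((CuspForm.heckeFormsGen N 2 l : Module.End ℂ (CuspForm (Gamma0 N) 2)) f,
          (CuspForm.heckeFormsGen N 2 l : Module.End ℂ (CuspForm (Gamma0 N) 2)) g)
      = cohGen N ℂ l (periodHomPair N (f, g)) := by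
  have : NeZero (l : ℕ) := ⟨l.2.ne_zero⟩
  by_cases h : (l : ℕ) ∣ N
  · rw [CuspForm.heckeFormsGen_of_dvd h, CuspForm.heckeAlgebra.coe_U]
    refine periodHomPair_of_periodMap' (fun f => CuspForm.heckeULin 2 h f) (cohGen N ℂ l)
      ?_ ?_ f g
    · intro f
      refine AddMonoidHom.ext fun γ₀ => ?_
      obtain ⟨γ, rfl⟩ : ∃ γ' : Gamma0 N, Additive.ofMul γ' = γ₀ := ⟨Additive.toMul γ₀, rfl⟩
      obtain ⟨σ, t, hr, ha⟩ := cohGen_apply_of_dvd N l h γ
      rw [ha ℂ, periodMap_heckeU h f γ t σ hr]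
    · intro f
      refine AddMonoidHom.ext fun γ₀ => ?_
      obtain ⟨γ, rfl⟩ : ∃ γ' : Gamma0 N, Additive.ofMul γ' = γ₀ := ⟨Additive.toMul γ₀, rfl⟩
      obtain ⟨σ, t, hr, ha⟩ := cohGen_apply_of_dvd N l h γ
      rw [ha ℂ, charInvolution_apply, toMul_ofMul, periodMap_heckeU_jConj h f γ t σ hr]
      simp only [charInvolution_apply, toMul_ofMul]
  · rw [CuspForm.heckeFormsGen_of_not_dvd h, CuspForm.heckeAlgebra.coe_T]
    refine periodHomPair_of_periodMap' (fun f => CuspForm.heckeTLin 2 l.2 h f) (cohGen N ℂ l)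
      ?_ ?_ f g
    · intro f
      refine AddMonoidHom.ext fun γ₀ => ?_
      obtain ⟨γ, rfl⟩ : ∃ γ' : Gamma0 N, Additive.ofMul γ' = γ₀ := ⟨Additive.toMul γ₀, rfl⟩
      obtain ⟨σ, t, hr, ha⟩ := cohGen_apply_of_not_dvd N l h γ
      rw [ha ℂ, periodMap_heckeT l.2 h f γ t σ hr]
    · intro f
      refine AddMonoidHom.ext fun γ₀ => ?_
      obtain ⟨γ, rfl⟩ : ∃ γ' : Gamma0 N, Additive.ofMul γ' = γ₀ := ⟨Additive.toMul γ₀, rfl⟩
      obtain ⟨σ, t, hr, ha⟩ := cohGen_apply_of_not_dvd N l h γ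
      rw [ha ℂ, charInvolution_apply, toMul_ofMul, periodMap_heckeT_jConj l.2 h f γ t σ hr]
      simp only [charInvolution_apply, toMul_ofMul]

end Fermat.Agent.S16.LB.HeckePeriod
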