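import Mathlib

/-!
# LB-CONG: the abstract congruence step of the lower bound of S16

Operators `τ l` on an additive group are packaged as an algebra hom out of the free algebra
`FreeAlgebra ℤ ι`; no commutativity of the `τ l` is needed.  If a polynomial `P` in commuting
variables kills `m` on the "forms" side, `Φ` is an integral class whose complexification is the
period of `m`, and the reduction `r Φ` is an eigenclass of exact order `n` with eigenvalues `lam`,
then `n ∣ P(lam)`.
-/

namespace Fermat.Agent.S16.LB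

open MvPolynomial

section Cong

variable {ι : Type*}

/-- The canonical map from the free algebra onto the polynomial ring. -/
noncomputable def freeToMv (ι : Type*) : FreeAlgebra ℤ ι →ₐ[ℤ] MvPolynomial ι ℤ :=
  FreeAlgebra.lift ℤ (fun i => (X i : MvPolynomial ι ℤ))

@[simp] theorem freeToMv_ι (i : ι) : freeToMv ι (FreeAlgebra.ι ℤ i) = X i := by
  simp [freeToMv]

theorem freeToMv_surjective : Function.Surjective (freeToMv ι) := by
  intro P
  induction P using MvPolynomial.induction_on with
  | C a => exact ⟨algebraMap ℤ _ a, by simp⟩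
  | add p q hp hq =>
    obtain ⟨a, rfl⟩ := hp
    obtain ⟨b, rfl⟩ := hq
    exact ⟨a + b, map_add _ _ _⟩
  | mul_X p i hp =>
    obtain ⟨a, rfl⟩ := hp
    exact ⟨a * FreeAlgebra.ι ℤ i, by simp⟩

/-- Additive operators `τ l` on `H`, as an algebra hom from the free algebra. -/
noncomputable def freeAct {H : Type*} [AddCommGroup H] (τ : ι → H →+ H) :
    FreeAlgebra ℤ ι →ₐ[ℤ] Module.End ℤ H :=
  FreeAlgebra.lift ℤ (fun i => (τ i).toIntLinearMap)

@[simp] theorem freeAct_ι {H : Type*} [AddCommGroup H] (τ : ι → H →+ H) (i : ι) (x : H) :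
    freeAct τ (FreeAlgebra.ι ℤ i) x = τ i x := by
  simp [freeAct]

theorem freeAct_mul {H : Type*} [AddCommGroup H] (τ : ι → H →+ H) (a b : FreeAlgebra ℤ ι)
    (x : H) : freeAct τ (a * b) x = freeAct τ a (freeAct τ b x) := by
  rw [map_mul]; rfl

theorem freeAct_algebraMap {H : Type*} [AddCommGroup H] (τ : ι → H →+ H) (c : ℤ) (x : H) :
    freeAct τ (algebraMap ℤ _ c) x = c • x := by
  rw [AlgHom.commutes, Module.algebraMap_end_apply]

/-- A map intertwining the generators intertwines the whole free-algebra action. -/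
theorem freeAct_intertwine {H H' : Type*} [AddCommGroup H] [AddCommGroup H']
    (τ : ι → H →+ H) (τ' : ι → H' →+ H') (φ : H →+ H')
    (h : ∀ l x, φ (τ l x) = τ' l (φ x)) (Q : FreeAlgebra ℤ ι) (x : H) :
    φ (freeAct τ Q x) = freeAct τ' Q (φ x) := by
  induction Q using FreeAlgebra.induction generalizing x with
  | grade0 c => rw [freeAct_algebraMap, freeAct_algebraMap, map_zsmul]
  | grade1 i => rw [freeAct_ι, freeAct_ι, h]
  | mul a b ha hb => rw [freeAct_mul, freeAct_mul, ha, hb]
  | add a b ha hb => simp only [map_add, LinearMap.add_apply, ha, hb]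

/-- On an eigenvector the free-algebra action is multiplication by the evaluated polynomial. -/
theorem freeAct_eigen {H : Type*} [AddCommGroup H] (τ : ι → H →+ H) (lam : ι → ℤ) (ψ : H)
    (h : ∀ l, τ l ψ = lam l • ψ) (Q : FreeAlgebra ℤ ι) :
    freeAct τ Q ψ = (MvPolynomial.eval lam (freeToMv ι Q)) • ψ := by
  induction Q using FreeAlgebra.induction with
  | grade0 c =>
    rw [freeAct_algebraMap, AlgHom.commutes, MvPolynomial.algebraMap_eq, MvPolynomial.eval_C]
  | grade1 i => rw [freeAct_ι, freeToMv_ι, MvPolynomial.eval_X, h]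
  | mul a b ha hb =>
    rw [freeAct_mul, hb, map_zsmul, ha, map_mul, map_mul, smul_smul, mul_comm]
  | add a b ha hb => simp only [map_add, LinearMap.add_apply, ha, hb, add_smul]

/-- The free-algebra action through scalar multiplication by a commutative ring is the action
of the evaluated polynomial. -/
theorem freeAct_smul {S M : Type*} [CommRing S] [AddCommGroup M] [Module S M] (t : ι → S)
    (Q : FreeAlgebra ℤ ι) (m : M) :
    freeAct (fun l => DistribSMul.toAddMonoidHom M (t l)) Q m
      = (MvPolynomial.aeval t (freeToMv ι Q) : S) • m := by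
  induction Q using FreeAlgebra.induction generalizing m with
  | grade0 c =>
    rw [freeAct_algebraMap, AlgHom.commutes, AlgHom.commutes, algebraMap_int_eq,
      eq_intCast, Int.cast_smul_eq_zsmul]
  | grade1 i => rw [freeAct_ι, freeToMv_ι, MvPolynomial.aeval_X]; rfl
  | mul a b ha hb => rw [freeAct_mul, hb, ha, map_mul, map_mul, mul_smul]
  | add a b ha hb => simp only [map_add, LinearMap.add_apply, ha, hb, add_smul]

/-- **LB-CONG.** -/
theorem dvd_eval_of_aeval_smul_eq_zero
    {S M HZ HC Hn : Type*} [CommRing S] [AddCommGroup M] [Module S M]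
    [AddCommGroup HZ] [AddCommGroup HC] [AddCommGroup Hn]
    (t : ι → S) (τZ : ι → HZ →+ HZ) (τC : ι → HC →+ HC) (τn : ι → Hn →+ Hn)
    (i : HZ →+ HC) (hi : Function.Injective i) (r : HZ →+ Hn)
    (hiτ : ∀ l x, i (τZ l x) = τC l (i x)) (hrτ : ∀ l x, r (τZ l x) = τn l (r x))
    (per : M →+ HC) (hper : ∀ l m, per (t l • m) = τC l (per m))
    (lam : ι → ℤ) (n : ℕ) (Φ : HZ) (m : M) (hΦ : i Φ = per m)
    (heig : ∀ l, τn l (r Φ) = lam l • r Φ) (hord : ∀ k : ℤ, k • r Φ = 0 → (n : ℤ) ∣ k)
    (P : MvPolynomial ι ℤ) (hP : (MvPolynomial.aeval t P : S) • m = 0) :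
    (n : ℤ) ∣ MvPolynomial.eval lam P := by
  obtain ⟨Q, rfl⟩ := freeToMv_surjective P
  apply hord
  rw [← freeAct_eigen τn lam (r Φ) heig Q, ← freeAct_intertwine τZ τn r hrτ Q Φ]
  have h0 : freeAct τZ Q Φ = 0 := by
    apply hi
    rw [map_zero, freeAct_intertwine τZ τC i hiτ Q Φ, hΦ,
      ← freeAct_intertwine (fun l => DistribSMul.toAddMonoidHom M (t l)) τC per
        (fun l x => hper l x) Q m, freeAct_smul, hP, map_zero]
  rw [h0, map_zero]

end Cong

end Fermat.Agent.S16.LB
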