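/-
T16 / LB-e (helper65): a homomorphism `e : Γ₀(N) → ℤ` with `e(T) = 1`, for `N ≥ 2`.
(The cusp loop `T` is primitive in `Γ₀(N)^ab / torsion`; equivalently the residue map
`Hom(Γ₀(N), ℤ) → ℤ`, `φ ↦ φ(T)` is onto.)

Construction (intersection pairing with the modular symbol `{0,∞}`, done without topology):
`s(z) := [0 < Re z]`, `z₀ := 1/2 + 2i`,
`φ(γ) := ∑_{h ∈ Γ₀(N)} ( s(h γ z₀) - s(h z₀) )` (finite support), `φ = 2 e`.
Mathlib only.
-/
import Mathlib

set_option autoImplicit false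

open UpperHalfPlane ModularGroup Matrix.SpecialLinearGroup MatrixGroups CongruenceSubgroup

namespace Fermat.Agent.S16.LB

/-! ### the real part of `h • z` -/

/-- numerator of `Re (h • z)` -/
def numRe (h : SL(2, ℤ)) (x y : ℝ) : ℝ :=
  (h 0 0 : ℝ) * (h 1 0 : ℝ) * (x ^ 2 + y ^ 2) +
    ((h 0 0 : ℝ) * (h 1 1 : ℝ) + (h 0 1 : ℝ) * (h 1 0 : ℝ)) * x + (h 0 1 : ℝ) * (h 1 1 : ℝ)

theorem det_real (h : SL(2, ℤ)) :
    (h 0 0 : ℝ) * (h 1 1 : ℝ) - (h 0 1 : ℝ) * (h 1 0 : ℝ) = 1 := by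
  have := h.det_coe
  rw [Matrix.det_fin_two] at this
  exact_mod_cast this

theorem re_smul_eq (h : SL(2, ℤ)) (z : ℍ) :
    (h • z).re = numRe h z.re z.im / Complex.normSq (denom h z) := by
  have h1 : ((h • z : ℍ) : ℂ) = (((h 0 0 : ℤ) : ℂ) * z + ((h 0 1 : ℤ) : ℂ)) /
      (((h 1 0 : ℤ) : ℂ) * z + ((h 1 1 : ℤ) : ℂ)) := by
    have := UpperHalfPlane.coe_specialLinearGroup_apply h z
    simpa using this
  have h2 : (h • z).re = ((h • z : ℍ) : ℂ).re := rfl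
  rw [h2, h1, Complex.div_re]
  have hden : denom h z = ((h 1 0 : ℤ) : ℂ) * z + ((h 1 1 : ℤ) : ℂ) := by
    rw [ModularGroup.denom_apply]
  rw [hden]
  have hx : (z : ℂ).re = z.re := rfl
  have hy : (z : ℂ).im = z.im := rfl
  simp only [Complex.add_re, Complex.mul_re, Complex.intCast_re, Complex.intCast_im, zero_mul,
    sub_zero, Complex.add_im, Complex.mul_im, add_zero, hx, hy]
  unfold numRe
  rw [← add_div]
  congr 1
  ring

theorem re_smul_pos_iff (h : SL(2, ℤ)) (z : ℍ) :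
    0 < (h • z).re ↔ 0 < numRe h z.re z.im := by
  rw [re_smul_eq]
  have hpos : 0 < Complex.normSq (denom h z) :=
    Complex.normSq_pos.2 (UpperHalfPlane.denom_ne_zero _ z)
  constructor
  · intro hh
    by_contra hcon
    rw [not_lt] at hcon
    exact absurd hh (not_lt.2 (div_nonpos_of_nonpos_of_nonneg hcon hpos.le))
  · intro hh
    exact div_pos hh hpos

/-! ### entries of `h` are bounded when `Re (h • z) = 0` -/

theorem numRe_eq (h : SL(2, ℤ)) (x y : ℝ) :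
    numRe h x y = ((h 0 0 : ℝ) * x + h 0 1) * ((h 1 0 : ℝ) * x + h 1 1) +
      (h 0 0 : ℝ) * (h 1 0 : ℝ) * y ^ 2 := by
  unfold numRe; ring

/-- Brahmagupta: `|P|² |Q|² = (Re P Q̄)² + y²` for `P = a z + b`, `Q = c z + d`. -/
theorem normSq_mul_normSq (h : SL(2, ℤ)) (x y : ℝ) :
    (((h 0 0 : ℝ) * x + h 0 1) ^ 2 + ((h 0 0 : ℝ)) ^ 2 * y ^ 2) *
      (((h 1 0 : ℝ) * x + h 1 1) ^ 2 + ((h 1 0 : ℝ)) ^ 2 * y ^ 2) =
      numRe h x y ^ 2 + y ^ 2 := by
  have hdet := det_real h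
  rw [numRe_eq]
  have key : (((h 0 0 : ℝ) * x + h 0 1) ^ 2 + ((h 0 0 : ℝ)) ^ 2 * y ^ 2) *
      (((h 1 0 : ℝ) * x + h 1 1) ^ 2 + ((h 1 0 : ℝ)) ^ 2 * y ^ 2) =
      (((h 0 0 : ℝ) * x + h 0 1) * ((h 1 0 : ℝ) * x + h 1 1) +
        (h 0 0 : ℝ) * (h 1 0 : ℝ) * y ^ 2) ^ 2 +
      y ^ 2 * ((h 0 0 : ℝ) * (h 1 1 : ℝ) - (h 0 1 : ℝ) * (h 1 0 : ℝ)) ^ 2 := by ring
  rw [key, hdet]; ring

theorem int_sq_ge_one {n : ℤ} (hn : n ≠ 0) : (1 : ℝ) ≤ (n : ℝ) ^ 2 := by
  have h1 : (1 : ℤ) ≤ n ^ 2 := by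
    have h2 : n ^ 2 ≠ 0 := pow_ne_zero 2 hn
    have := sq_nonneg n
    omega
  exact_mod_cast h1

/-- `|c z + d|² ≥ min(1, y²)` in the form of a disjunction. -/
theorem lower_normSq_bot (h : SL(2, ℤ)) (x y : ℝ) :
    y ^ 2 ≤ ((h 1 0 : ℝ) * x + h 1 1) ^ 2 + ((h 1 0 : ℝ)) ^ 2 * y ^ 2 ∨
      1 ≤ ((h 1 0 : ℝ) * x + h 1 1) ^ 2 + ((h 1 0 : ℝ)) ^ 2 * y ^ 2 := by
  have hdet := det_real h
  by_cases hc0 : (h 1 0 : ℤ) = 0
  · right
    have hc0' : ((h 1 0 : ℤ) : ℝ) = 0 := by rw [hc0]; simp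
    rw [hc0'] at hdet ⊢
    have had : ((h 0 0 : ℤ) : ℝ) * ((h 1 1 : ℤ) : ℝ) = 1 := by linarith
    have hai : (h 1 1 : ℤ) * (h 0 0 : ℤ) = 1 := by
      have : ((h 1 1 : ℤ) : ℝ) * ((h 0 0 : ℤ) : ℝ) = 1 := by rw [mul_comm]; exact had
      exact_mod_cast this
    have hd1 : ((h 1 1 : ℤ) : ℝ) ^ 2 = 1 := by
      rcases Int.eq_one_or_neg_one_of_mul_eq_one hai with h1 | h1 <;> rw [h1] <;> simp
    simp [hd1]
  · left
    have hc1 := int_sq_ge_one hc0
    nlinarith [sq_nonneg ((h 1 0 : ℝ) * x + h 1 1), sq_nonneg y]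

/-- `|a z + b|² ≥ min(1, y²)` in the form of a disjunction. -/
theorem lower_normSq_top (h : SL(2, ℤ)) (x y : ℝ) :
    y ^ 2 ≤ ((h 0 0 : ℝ) * x + h 0 1) ^ 2 + ((h 0 0 : ℝ)) ^ 2 * y ^ 2 ∨
      1 ≤ ((h 0 0 : ℝ) * x + h 0 1) ^ 2 + ((h 0 0 : ℝ)) ^ 2 * y ^ 2 := by
  have hdet := det_real h
  by_cases ha0 : (h 0 0 : ℤ) = 0
  · right
    have ha0' : ((h 0 0 : ℤ) : ℝ) = 0 := by rw [ha0]; simp
    rw [ha0'] at hdet ⊢
    have hbc : ((h 0 1 : ℤ) : ℝ) * (-((h 1 0 : ℤ) : ℝ)) = 1 := by linarith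
    have hbi : (h 0 1 : ℤ) * (-(h 1 0 : ℤ)) = 1 := by exact_mod_cast hbc
    have hb1 : ((h 0 1 : ℤ) : ℝ) ^ 2 = 1 := by
      rcases Int.eq_one_or_neg_one_of_mul_eq_one hbi with h1 | h1 <;> rw [h1] <;> simp
    simp [hb1]
  · left
    have ha1 := int_sq_ge_one ha0
    nlinarith [sq_nonneg ((h 0 0 : ℝ) * x + h 0 1), sq_nonneg y]

/-- If `Re (h • (x + i y)) = 0` then all entries of `h` are bounded in terms of `x, y`. -/
theorem entries_bounded_of_numRe_eq_zero (h : SL(2, ℤ)) (x y : ℝ) (hy : 0 < y)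
    (h0 : numRe h x y = 0) (i j : Fin 2) :
    |(h i j : ℝ)| ≤ 1 + y + 1 / y + (1 + 1 / y) * |x| := by
  have hB := normSq_mul_normSq h x y
  rw [h0] at hB
  have hlt := lower_normSq_top h x y
  have hlb := lower_normSq_bot h x y
  set a : ℝ := (h 0 0 : ℝ) with ha
  set b : ℝ := (h 0 1 : ℝ) with hb
  set c : ℝ := (h 1 0 : ℝ) with hc
  set d : ℝ := (h 1 1 : ℝ) with hd
  set P2 : ℝ := (a * x + b) ^ 2 + a ^ 2 * y ^ 2 with hP2
  set Q2 : ℝ := (c * x + d) ^ 2 + c ^ 2 * y ^ 2 with hQ2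
  have hy2 : 0 < y ^ 2 := by positivity
  have hiy : 0 < 1 / y := by positivity
  have hPQ : P2 * Q2 = y ^ 2 := by rw [hB]; ring
  have hPnn : 0 ≤ P2 := by positivity
  have hQnn : 0 ≤ Q2 := by positivity
  -- upper bounds `P2, Q2 ≤ 1 + y²`
  have hPle : P2 ≤ 1 + y ^ 2 := by
    rcases hlb with h1 | h1
    · -- y² ≤ Q2, so P2 ≤ 1
      have : P2 ≤ 1 := by
        by_contra hcon
        rw [not_le] at hcon
        nlinarith
      linarith
    · -- 1 ≤ Q2, so P2 ≤ y²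
      have : P2 ≤ y ^ 2 := by nlinarith
      linarith
  have hQle : Q2 ≤ 1 + y ^ 2 := by
    rcases hlt with h1 | h1
    · have : Q2 ≤ 1 := by
        by_contra hcon
        rw [not_le] at hcon
        nlinarith
      linarith
    · have : Q2 ≤ y ^ 2 := by nlinarith
      linarith
  have h1y : 1 + y ^ 2 ≤ (1 + y) ^ 2 := by nlinarith
  -- |u|, |v| ≤ 1 + y
  have hu_bd : |a * x + b| ≤ 1 + y := by
    apply abs_le_of_sq_le_sq' _ (by positivity) |> fun hh => abs_le.2 hh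
    calc (a * x + b) ^ 2 ≤ P2 := by rw [hP2]; nlinarith [sq_nonneg (a * y)]
      _ ≤ (1 + y) ^ 2 := hPle.trans h1y
  have hv_bd : |c * x + d| ≤ 1 + y := by
    apply abs_le_of_sq_le_sq' _ (by positivity) |> fun hh => abs_le.2 hh
    calc (c * x + d) ^ 2 ≤ Q2 := by rw [hQ2]; nlinarith [sq_nonneg (c * y)]
      _ ≤ (1 + y) ^ 2 := hQle.trans h1y
  -- |a|, |c| ≤ 1 + 1/y
  have ha_bd : |a| ≤ 1 + 1 / y := by
    have h2 : (|a| * y) ^ 2 ≤ (1 + y) ^ 2 := by
      rw [mul_pow, sq_abs]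
      calc a ^ 2 * y ^ 2 ≤ P2 := by rw [hP2]; nlinarith [sq_nonneg (a * x + b)]
        _ ≤ (1 + y) ^ 2 := hPle.trans h1y
    have h3 : |a| * y ≤ 1 + y := by
      have := abs_le_of_sq_le_sq' h2 (by positivity)
      exact this.2
    have h4 : |a| ≤ (1 + y) / y := by rw [le_div_iff₀ hy]; exact h3
    have h5 : (1 + y) / y = 1 + 1 / y := by field_simp; ring
    rw [h5] at h4; exact h4
  have hc_bd : |c| ≤ 1 + 1 / y := by
    have h2 : (|c| * y) ^ 2 ≤ (1 + y) ^ 2 := by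
      rw [mul_pow, sq_abs]
      calc c ^ 2 * y ^ 2 ≤ Q2 := by rw [hQ2]; nlinarith [sq_nonneg (c * x + d)]
        _ ≤ (1 + y) ^ 2 := hQle.trans h1y
    have h3 : |c| * y ≤ 1 + y := by
      have := abs_le_of_sq_le_sq' h2 (by positivity)
      exact this.2
    have h4 : |c| ≤ (1 + y) / y := by rw [le_div_iff₀ hy]; exact h3
    have h5 : (1 + y) / y = 1 + 1 / y := by field_simp; ring
    rw [h5] at h4; exact h4
  have hxn : 0 ≤ |x| := abs_nonneg x
  have hb_bd : |b| ≤ 1 + y + (1 + 1 / y) * |x| := by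
    have : b = (a * x + b) - a * x := by ring
    rw [this]
    calc |(a * x + b) - a * x| ≤ |a * x + b| + |a * x| := abs_sub _ _
      _ = |a * x + b| + |a| * |x| := by rw [abs_mul]
      _ ≤ (1 + y) + (1 + 1 / y) * |x| := by
          apply add_le_add hu_bd
          exact mul_le_mul_of_nonneg_right ha_bd hxn
  have hd_bd : |d| ≤ 1 + y + (1 + 1 / y) * |x| := by
    have : d = (c * x + d) - c * x := by ring
    rw [this]
    calc |(c * x + d) - c * x| ≤ |c * x + d| + |c * x| := abs_sub _ _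
      _ = |c * x + d| + |c| * |x| := by rw [abs_mul]
      _ ≤ (1 + y) + (1 + 1 / y) * |x| := by
          apply add_le_add hv_bd
          exact mul_le_mul_of_nonneg_right hc_bd hxn
  have hpos : 0 ≤ (1 + 1 / y) * |x| := by positivity
  fin_cases i <;> fin_cases j
  · show |a| ≤ _
    linarith
  · show |b| ≤ _
    linarith
  · show |c| ≤ _
    linarith
  · show |d| ≤ _
    linarith

/-! ### the side indicator and finiteness of separations -/

/-- `1` on the right half of `ℍ`, `0` elsewhere -/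
noncomputable def side (z : ℍ) : ℤ := if 0 < z.re then 1 else 0

theorem side_smul (h : SL(2, ℤ)) (z : ℍ) :
    side (h • z) = if 0 < numRe h z.re z.im then 1 else 0 := by
  unfold side
  simp only [re_smul_pos_iff]

theorem side_neg_smul (h : SL(2, ℤ)) (z : ℍ) : side ((-h) • z) = side (h • z) := by
  rw [ModularGroup.SL_neg_smul]

theorem continuous_numRe_path (h : SL(2, ℤ)) (x0 y0 x1 y1 : ℝ) :
    Continuous fun t : ℝ => numRe h ((1 - t) * x0 + t * x1) ((1 - t) * y0 + t * y1) := by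
  unfold numRe
  fun_prop

theorem exists_zero_of_sign_change (h : SL(2, ℤ)) (x0 y0 x1 y1 : ℝ)
    (h0 : numRe h x0 y0 ≤ 0) (h1 : 0 < numRe h x1 y1) :
    ∃ t ∈ Set.Icc (0 : ℝ) 1, numRe h ((1 - t) * x0 + t * x1) ((1 - t) * y0 + t * y1) = 0 := by
  have hc := (continuous_numRe_path h x0 y0 x1 y1).continuousOn (s := Set.Icc (0 : ℝ) 1)
  have := intermediate_value_Icc (zero_le_one' ℝ) hc
  have hmem : (0 : ℝ) ∈ Set.Icc
      (numRe h ((1 - 0) * x0 + 0 * x1) ((1 - 0) * y0 + 0 * y1))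
      (numRe h ((1 - 1) * x0 + 1 * x1) ((1 - 1) * y0 + 1 * y1)) := by
    constructor
    · simpa using h0
    · simpa using h1.le
  obtain ⟨t, ht, hft⟩ := this hmem
  exact ⟨t, ht, hft⟩

/-- the bound on the entries of the matrices separating `z0` from `z1` -/
noncomputable def sepBound (z0 z1 : ℍ) : ℝ :=
  1 + (z0.im + z1.im) + 1 / min z0.im z1.im +
    (1 + 1 / min z0.im z1.im) * (|z0.re| + |z1.re|)

theorem entries_bounded_of_sign_change (h : SL(2, ℤ)) (z0 z1 : ℍ)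
    (h0 : numRe h z0.re z0.im ≤ 0) (h1 : 0 < numRe h z1.re z1.im) (i j : Fin 2) :
    |(h i j : ℝ)| ≤ sepBound z0 z1 := by
  obtain ⟨t, ⟨ht0, ht1⟩, hz⟩ := exists_zero_of_sign_change h z0.re z0.im z1.re z1.im h0 h1
  have hy0 := z0.im_pos
  have hy1 := z1.im_pos
  set m := min z0.im z1.im with hm
  have hmpos : 0 < m := lt_min hy0 hy1
  have hm0 : m ≤ z0.im := min_le_left _ _
  have hm1 : m ≤ z1.im := min_le_right _ _
  set ys := (1 - t) * z0.im + t * z1.im with hys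
  set xs := (1 - t) * z0.re + t * z1.re with hxs
  have h1t : 0 ≤ 1 - t := by linarith
  have hys_ge : m ≤ ys := by
    have : m = (1 - t) * m + t * m := by ring
    rw [this, hys]
    apply add_le_add
    · exact mul_le_mul_of_nonneg_left hm0 h1t
    · exact mul_le_mul_of_nonneg_left hm1 ht0
  have hys_pos : 0 < ys := lt_of_lt_of_le hmpos hys_ge
  have hys_le : ys ≤ z0.im + z1.im := by
    rw [hys]
    have h2 : (1 - t) * z0.im ≤ z0.im := by nlinarith
    have h3 : t * z1.im ≤ z1.im := by nlinarith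
    linarith
  have hxs_le : |xs| ≤ |z0.re| + |z1.re| := by
    rw [hxs]
    calc |(1 - t) * z0.re + t * z1.re| ≤ |(1 - t) * z0.re| + |t * z1.re| := abs_add_le _ _
      _ = (1 - t) * |z0.re| + t * |z1.re| := by
          rw [abs_mul, abs_mul, abs_of_nonneg h1t, abs_of_nonneg ht0]
      _ ≤ |z0.re| + |z1.re| := by
          have h2 : (1 - t) * |z0.re| ≤ |z0.re| := by nlinarith [abs_nonneg z0.re]
          have h3 : t * |z1.re| ≤ |z1.re| := by nlinarith [abs_nonneg z1.re]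
          linarith
  have hinv : 1 / ys ≤ 1 / m := one_div_le_one_div_of_le hmpos hys_ge
  have hA := entries_bounded_of_numRe_eq_zero h xs ys hys_pos hz i j
  refine hA.trans ?_
  unfold sepBound
  have hinvpos : 0 < 1 / ys := by positivity
  have hx0 : 0 ≤ |xs| := abs_nonneg _
  have h5 : (1 + 1 / ys) * |xs| ≤ (1 + 1 / m) * (|z0.re| + |z1.re|) := by
    apply mul_le_mul _ hxs_le hx0 (by positivity)
    linarith
  linarith

theorem sepBound_comm (z0 z1 : ℍ) : sepBound z0 z1 = sepBound z1 z0 := by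
  unfold sepBound
  rw [min_comm, add_comm z0.im, add_comm |z0.re|]

theorem entries_bounded_of_side_ne (h : SL(2, ℤ)) (z0 z1 : ℍ)
    (hne : side (h • z0) ≠ side (h • z1)) (i j : Fin 2) :
    |(h i j : ℝ)| ≤ sepBound z0 z1 := by
  rw [side_smul, side_smul] at hne
  by_cases h0 : 0 < numRe h z0.re z0.im
  · by_cases h1 : 0 < numRe h z1.re z1.im
    · simp [h0, h1] at hne
    · rw [not_lt] at h1
      rw [sepBound_comm]
      exact entries_bounded_of_sign_change h z1 z0 h1 h0 i j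
  · rw [not_lt] at h0
    by_cases h1 : 0 < numRe h z1.re z1.im
    · exact entries_bounded_of_sign_change h z0 z1 h0 h1 i j
    · have h0' : ¬ 0 < numRe h z0.re z0.im := not_lt.2 h0
      simp [h0', h1] at hne

/-- integer matrices with bounded entries form a finite set -/
theorem finite_bounded_SL (B : ℝ) : {h : SL(2, ℤ) | ∀ i j, |(h i j : ℝ)| ≤ B}.Finite := by
  obtain ⟨n, hn⟩ := exists_nat_ge B
  have hfin : (Set.pi Set.univ fun _ : Fin 2 => Set.pi Set.univ fun _ : Fin 2 =>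
      Set.Icc (-(n : ℤ)) n).Finite :=
    Set.Finite.pi fun _ => Set.Finite.pi fun _ => Set.finite_Icc _ _
  have hinj : Function.Injective (fun h : SL(2, ℤ) => (h : Matrix (Fin 2) (Fin 2) ℤ)) :=
    Subtype.val_injective
  refine Set.Finite.subset (hfin.preimage hinj.injOn) ?_
  intro h hh
  refine Set.mem_preimage.2 ?_
  intro i _ j _
  refine Set.mem_Icc.2 ?_
  have h1 := (hh i j).trans hn
  have h2 : |(h i j : ℤ)| ≤ (n : ℤ) := by
    have : ((|(h i j : ℤ)| : ℤ) : ℝ) ≤ ((n : ℤ) : ℝ) := by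
      rw [Int.cast_abs]; exact_mod_cast h1
    exact_mod_cast this
  exact abs_le.1 h2

theorem finite_side_ne (z0 z1 : ℍ) :
    {h : SL(2, ℤ) | side (h • z0) ≠ side (h • z1)}.Finite :=
  (finite_bounded_SL (sepBound z0 z1)).subset fun h hh i j =>
    entries_bounded_of_side_ne h z0 z1 hh i j

/-! ### the sign-sum homomorphism of a subgroup `Γ ≤ SL(2,ℤ)` -/

section hom

variable (Γ : Subgroup SL(2, ℤ)) (z0 : ℍ)

/-- one term of the sign-sum -/
noncomputable def term (γ h : Γ) : ℤ :=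
  side (((h : SL(2, ℤ)) * (γ : SL(2, ℤ))) • z0) - side ((h : SL(2, ℤ)) • z0)

theorem finite_support_term (γ : Γ) : (Function.support (term Γ z0 γ)).Finite := by
  have hfin := finite_side_ne ((γ : SL(2, ℤ)) • z0) z0
  have hinj : Function.Injective (fun h : Γ => (h : SL(2, ℤ))) := Subtype.val_injective
  refine (hfin.preimage hinj.injOn).subset ?_
  intro h hh
  refine Set.mem_preimage.2 ?_
  show side _ ≠ side _
  intro heq
  apply hh
  unfold term
  rw [mul_smul, heq, sub_self]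

theorem term_mul (γ γ' h : Γ) :
    term Γ z0 (γ * γ') h = term Γ z0 γ' (h * γ) + term Γ z0 γ h := by
  unfold term
  simp only [Subgroup.coe_mul, mul_assoc]
  ring

/-- the sign-sum `φ(γ) = ∑_h (s(h γ z₀) - s(h z₀))` -/
noncomputable def phi (γ : Γ) : ℤ := ∑ᶠ h : Γ, term Γ z0 γ h

theorem phi_mul (γ γ' : Γ) : phi Γ z0 (γ * γ') = phi Γ z0 γ + phi Γ z0 γ' := by
  unfold phi
  have h1 : (fun h : Γ => term Γ z0 (γ * γ') h) =
      fun h : Γ => term Γ z0 γ' (h * γ) + term Γ z0 γ h := by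
    funext h; exact term_mul Γ z0 γ γ' h
  rw [h1]
  have hs1 : (Function.support fun h : Γ => term Γ z0 γ' (h * γ)).Finite := by
    have := finite_support_term Γ z0 γ'
    have hinj : Function.Injective (fun h : Γ => h * γ) := mul_left_injective γ
    refine (this.preimage hinj.injOn).subset ?_
    intro h hh
    exact hh
  rw [finsum_add_distrib hs1 (finite_support_term Γ z0 γ)]
  have h2 : ∑ᶠ h : Γ, term Γ z0 γ' (h * γ) = ∑ᶠ h : Γ, term Γ z0 γ' h :=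
    finsum_comp_equiv (Equiv.mulRight γ) (f := term Γ z0 γ')
  rw [h2, add_comm]

/-- the normalisation `0 < c ∨ (c = 0 ∧ 0 < d)` choosing one of `± h` -/
def IsPosRow (h : SL(2, ℤ)) : Prop := 0 < h 1 0 ∨ (h 1 0 = 0 ∧ 0 < h 1 1)

instance (h : SL(2, ℤ)) : Decidable (IsPosRow h) := by unfold IsPosRow; infer_instance

theorem isPosRow_neg_iff (h : SL(2, ℤ)) : IsPosRow (-h) ↔ ¬ IsPosRow h := by
  unfold IsPosRow
  have hdet := h.det_coe
  rw [Matrix.det_fin_two] at hdet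
  have hc : (-h) 1 0 = -(h 1 0) := by simp
  have hd : (-h) 1 1 = -(h 1 1) := by simp
  rw [hc, hd]
  constructor
  · rintro (h1 | ⟨h1, h2⟩)
    · rintro (h3 | ⟨h3, _⟩) <;> omega
    · rintro (h3 | ⟨_, h4⟩) <;> omega
  · intro hn
    rw [not_or, not_and_or] at hn
    obtain ⟨h1, h2⟩ := hn
    rcases lt_trichotomy (h 1 0) 0 with h3 | h3 | h3
    · left; omega
    · right
      refine ⟨by omega, ?_⟩
      rcases h2 with h2 | h2
      · exact absurd h3 h2
      · have hd0 : h 1 1 ≠ 0 := by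
          intro h0
          rw [h3, h0] at hdet
          simp at hdet
        omega
    · exact absurd h3 h1

theorem term_neg (hneg : ∀ g ∈ Γ, -g ∈ Γ) (γ h : Γ) :
    term Γ z0 γ ⟨-(h : SL(2, ℤ)), hneg _ h.2⟩ = term Γ z0 γ h := by
  unfold term
  simp only [neg_mul, side_neg_smul]

/-- the half sign-sum -/
noncomputable def psi (γ : Γ) : ℤ :=
  ∑ᶠ h : Γ, if IsPosRow (h : SL(2, ℤ)) then term Γ z0 γ h else 0

theorem phi_eq_two_mul_psi (hneg : ∀ g ∈ Γ, -g ∈ Γ) (γ : Γ) :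
    phi Γ z0 γ = 2 * psi Γ z0 γ := by
  unfold phi psi
  set f := term Γ z0 γ with hf
  set f1 : Γ → ℤ := fun h => if IsPosRow (h : SL(2, ℤ)) then f h else 0 with hf1
  set f2 : Γ → ℤ := fun h => if IsPosRow (h : SL(2, ℤ)) then 0 else f h with hf2
  have hsum : f = fun h => f1 h + f2 h := by
    funext h
    simp only [hf1, hf2]
    split_ifs <;> simp
  have hfin := finite_support_term Γ z0 γ
  have hs1 : (Function.support f1).Finite := by
    refine hfin.subset ?_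
    intro h hh
    simp only [hf1, Function.mem_support] at hh ⊢
    intro h0; apply hh; rw [← hf] at h0; simp [h0]
  have hs2 : (Function.support f2).Finite := by
    refine hfin.subset ?_
    intro h hh
    simp only [hf2, Function.mem_support] at hh ⊢
    intro h0; apply hh; rw [← hf] at h0; simp [h0]
  let e : Γ ≃ Γ :=
    { toFun := fun h => ⟨-(h : SL(2, ℤ)), hneg _ h.2⟩
      invFun := fun h => ⟨-(h : SL(2, ℤ)), hneg _ h.2⟩
      left_inv := fun h => by ext1; simp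
      right_inv := fun h => by ext1; simp }
  have he : ∀ h : Γ, ((e h : Γ) : SL(2, ℤ)) = -(h : SL(2, ℤ)) := fun h => rfl
  have h21 : ∑ᶠ h : Γ, f2 h = ∑ᶠ h : Γ, f1 h := by
    rw [← finsum_comp_equiv e (f := f2)]
    congr 1
    funext h
    simp only [hf1, hf2, he, isPosRow_neg_iff]
    have : f (e h) = f h := term_neg Γ z0 hneg γ h
    rw [this]
    split_ifs <;> simp
  calc ∑ᶠ h : Γ, f h = ∑ᶠ h : Γ, (f1 h + f2 h) := by rw [hsum]
    _ = ∑ᶠ h : Γ, f1 h + ∑ᶠ h : Γ, f2 h := finsum_add_distrib hs1 hs2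
    _ = 2 * ∑ᶠ h : Γ, f1 h := by rw [h21]; ring

theorem psi_mul (hneg : ∀ g ∈ Γ, -g ∈ Γ) (γ γ' : Γ) :
    psi Γ z0 (γ * γ') = psi Γ z0 γ + psi Γ z0 γ' := by
  have h := phi_mul Γ z0 γ γ'
  rw [phi_eq_two_mul_psi Γ z0 hneg, phi_eq_two_mul_psi Γ z0 hneg, phi_eq_two_mul_psi Γ z0 hneg] at h
  omega

end hom

/-! ### the value at `T` for `Γ₀(N)`, `N ≥ 2` -/

section value

/-- `numRe · (a c) = (a c x + (a d + b c)/2)² + (a c y)² - 1/4` -/
theorem numRe_mul_ac (h : SL(2, ℤ)) (x y : ℝ) :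
    numRe h x y * ((h 0 0 : ℝ) * (h 1 0 : ℝ)) =
      ((h 0 0 : ℝ) * (h 1 0 : ℝ) * x + ((h 0 0 : ℝ) * (h 1 1 : ℝ) + (h 0 1 : ℝ) * (h 1 0 : ℝ)) / 2) ^ 2
        + ((h 0 0 : ℝ) * (h 1 0 : ℝ) * y) ^ 2 - 1 / 4 := by
  have hdet := det_real h
  have h2 : (1 : ℝ) / 4 = ((h 0 0 : ℝ) * (h 1 1 : ℝ) - (h 0 1 : ℝ) * (h 1 0 : ℝ)) ^ 2 / 4 := by
    rw [hdet]; norm_num
  rw [h2]
  unfold numRe
  ring

/-- above height `1`, the sign of `Re (h • z)` is the sign of `a c` when `a c ≠ 0` -/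
theorem numRe_pos_iff_of_ne_zero (h : SL(2, ℤ)) (ha : h 0 0 ≠ 0) (hc : h 1 0 ≠ 0) (x y : ℝ)
    (hy : 1 ≤ y) : 0 < numRe h x y ↔ 0 < (h 0 0 : ℝ) * (h 1 0 : ℝ) := by
  have ha1 := int_sq_ge_one ha
  have hc1 := int_sq_ge_one hc
  have hkey := numRe_mul_ac h x y
  have hac : 1 ≤ ((h 0 0 : ℝ) * (h 1 0 : ℝ)) ^ 2 := by
    rw [mul_pow]; nlinarith
  have hpos : 0 < numRe h x y * ((h 0 0 : ℝ) * (h 1 0 : ℝ)) := by
    rw [hkey]
    have h1 : 1 ≤ ((h 0 0 : ℝ) * (h 1 0 : ℝ) * y) ^ 2 := by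
      rw [mul_pow]
      have : 1 ≤ y ^ 2 := by nlinarith
      nlinarith
    nlinarith [sq_nonneg ((h 0 0 : ℝ) * (h 1 0 : ℝ) * x +
      ((h 0 0 : ℝ) * (h 1 1 : ℝ) + (h 0 1 : ℝ) * (h 1 0 : ℝ)) / 2)]
  constructor
  · intro hn
    by_contra hcon
    rw [not_lt] at hcon
    nlinarith
  · intro hn
    by_contra hcon
    rw [not_lt] at hcon
    nlinarith

/-- in `Γ₀(N)`, `N ≥ 2`, a nonzero lower-left entry forces a nonzero upper-left entry -/
theorem a_ne_zero_of_mem_Gamma0 {N : ℕ} (hN : 2 ≤ N) {h : SL(2, ℤ)} (hh : h ∈ Gamma0 N) :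
    h 0 0 ≠ 0 := by
  intro ha
  have hdet := h.det_coe
  rw [Matrix.det_fin_two, ha, zero_mul, zero_sub] at hdet
  rw [Gamma0_mem, ZMod.intCast_zmod_eq_zero_iff_dvd] at hh
  have h1 : (N : ℤ) ∣ 1 := by
    have : (N : ℤ) ∣ -(h 0 1 * h 1 0) := (dvd_mul_of_dvd_right hh _).neg_right
    rwa [hdet] at this
  have h2 := Int.le_of_dvd one_pos h1
  omega

/-- the base point `1/2 + 2i` -/
noncomputable def zBase : ℍ := ⟨(1 / 2 : ℂ) + 2 * Complex.I, by simp⟩

theorem zBase_re : zBase.re = 1 / 2 := by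
  show ((1 / 2 : ℂ) + 2 * Complex.I).re = 1 / 2
  simp

theorem zBase_im : zBase.im = 2 := by
  show ((1 / 2 : ℂ) + 2 * Complex.I).im = 2
  simp

theorem T_mem_Gamma0 (N : ℕ) : ModularGroup.T ∈ Gamma0 N := by
  rw [Gamma0_mem, ModularGroup.coe_T]; simp

theorem T_inv_mem_Gamma0 (N : ℕ) : ModularGroup.T⁻¹ ∈ Gamma0 N :=
  (Gamma0 N).inv_mem (T_mem_Gamma0 N)

theorem neg_mem_Gamma0 (N : ℕ) : ∀ g ∈ Gamma0 N, -g ∈ Gamma0 N := by
  intro g hg
  rw [Gamma0_mem] at hg ⊢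
  simp [hg]

/-- `term T h` at the base point, in terms of `numRe` -/
theorem term_T_eq (N : ℕ) (h : Gamma0 N) :
    term (Gamma0 N) zBase ⟨ModularGroup.T, T_mem_Gamma0 N⟩ h =
      (if 0 < numRe (h : SL(2, ℤ)) (3 / 2) 2 then 1 else 0) -
        (if 0 < numRe (h : SL(2, ℤ)) (1 / 2) 2 then 1 else 0) := by
  unfold term
  rw [mul_smul, side_smul, side_smul, ModularGroup.re_T_smul, ModularGroup.im_T_smul, zBase_re,
    zBase_im]
  norm_num

theorem psi_T (N : ℕ) (hN : 2 ≤ N) :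
    psi (Gamma0 N) zBase ⟨ModularGroup.T, T_mem_Gamma0 N⟩ = 1 := by
  unfold psi
  rw [finsum_eq_single _ (⟨ModularGroup.T⁻¹, T_inv_mem_Gamma0 N⟩ : Gamma0 N)]
  · -- the value at `T⁻¹`
    have hpos : IsPosRow (ModularGroup.T⁻¹) := by
      unfold IsPosRow
      right
      rw [ModularGroup.coe_T_inv]
      simp
    rw [if_pos hpos, term_T_eq]
    have h1 : numRe ModularGroup.T⁻¹ (3 / 2) 2 = 1 / 2 := by
      unfold numRe
      rw [ModularGroup.coe_T_inv]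
      norm_num
    have h2 : numRe ModularGroup.T⁻¹ (1 / 2) 2 = -1 / 2 := by
      unfold numRe
      rw [ModularGroup.coe_T_inv]
      norm_num
    simp only [h1, h2]
    norm_num
  · -- all other `h`
    intro h hne
    by_cases hP : IsPosRow (h : SL(2, ℤ))
    swap
    · rw [if_neg hP]
    rw [if_pos hP, term_T_eq]
    by_cases hc : (h : SL(2, ℤ)) 1 0 = 0
    · -- `c = 0`, `d > 0`: `h = T^b`, `b ≠ -1`
      have hP' := hP
      unfold IsPosRow at hP'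
      have hd : 0 < (h : SL(2, ℤ)) 1 1 := by
        rcases hP' with h1 | ⟨_, h2⟩
        · omega
        · exact h2
      have hdet := (h : SL(2, ℤ)).det_coe
      rw [Matrix.det_fin_two, hc, mul_zero, sub_zero] at hdet
      have hd1 : (h : SL(2, ℤ)) 1 1 = 1 := by
        have h' : (h : SL(2, ℤ)) 1 1 * (h : SL(2, ℤ)) 0 0 = 1 := by rw [mul_comm]; exact hdet
        rcases Int.eq_one_or_neg_one_of_mul_eq_one h' with h1 | h1
        · exact h1
        · omega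
      have ha1 : (h : SL(2, ℤ)) 0 0 = 1 := by rw [hd1, mul_one] at hdet; exact hdet
      have hb : (h : SL(2, ℤ)) 0 1 ≠ -1 := by
        intro hb
        apply hne
        apply Subtype.ext
        apply Subtype.ext
        show ((h : SL(2, ℤ)) : Matrix (Fin 2) (Fin 2) ℤ) = ((ModularGroup.T⁻¹ : SL(2, ℤ)) : Matrix (Fin 2) (Fin 2) ℤ)
        rw [ModularGroup.coe_T_inv]
        ext i j
        fin_cases i <;> fin_cases j <;> simp [ha1, hb, hc, hd1]
      have hnum : ∀ x : ℝ, numRe (h : SL(2, ℤ)) x 2 = x + ((h : SL(2, ℤ)) 0 1 : ℝ) := by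
        intro x
        unfold numRe
        rw [ha1, hd1, hc]
        push_cast
        ring
      simp only [hnum]
      rcases lt_or_ge ((h : SL(2, ℤ)) 0 1) (-1) with hlt | hge
      · have h1 : ((h : SL(2, ℤ)) 0 1 : ℝ) ≤ -2 := by
          have : (h : SL(2, ℤ)) 0 1 ≤ -2 := by omega
          exact_mod_cast this
        have n1 : ¬ (0 : ℝ) < 3 / 2 + ((h : SL(2, ℤ)) 0 1 : ℝ) := by linarith
        have n2 : ¬ (0 : ℝ) < 1 / 2 + ((h : SL(2, ℤ)) 0 1 : ℝ) := by linarith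
        rw [if_neg n1, if_neg n2]; norm_num
      · have h1 : (0 : ℝ) ≤ ((h : SL(2, ℤ)) 0 1 : ℝ) := by
          have : 0 ≤ (h : SL(2, ℤ)) 0 1 := by omega
          exact_mod_cast this
        have n1 : (0 : ℝ) < 3 / 2 + ((h : SL(2, ℤ)) 0 1 : ℝ) := by linarith
        have n2 : (0 : ℝ) < 1 / 2 + ((h : SL(2, ℤ)) 0 1 : ℝ) := by linarith
        rw [if_pos n1, if_pos n2]; norm_num
    · have ha := a_ne_zero_of_mem_Gamma0 hN h.2
      have e1 := numRe_pos_iff_of_ne_zero _ ha hc (3 / 2) 2 (by norm_num)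
      have e2 := numRe_pos_iff_of_ne_zero _ ha hc (1 / 2) 2 (by norm_num)
      simp only [e1, e2, sub_self]

/-- **The cusp loop `T` is primitive**: there is a homomorphism `Γ₀(N) → ℤ` with value `1` at `T`. -/
theorem exists_hom_T_eq_one (N : ℕ) (hN : 2 ≤ N) :
    ∃ e : ↥(Gamma0 N) →* Multiplicative ℤ,
      e ⟨ModularGroup.T, T_mem_Gamma0 N⟩ = Multiplicative.ofAdd 1 := by
  refine ⟨
    { toFun := fun γ => Multiplicative.ofAdd (psi (Gamma0 N) zBase γ)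
      map_one' := ?_
      map_mul' := ?_ }, ?_⟩
  · have h := psi_mul (Gamma0 N) zBase (neg_mem_Gamma0 N) 1 1
    rw [mul_one] at h
    have : psi (Gamma0 N) zBase 1 = 0 := by omega
    rw [this]; rfl
  · intro γ γ'
    rw [psi_mul (Gamma0 N) zBase (neg_mem_Gamma0 N), ofAdd_add]
  · show Multiplicative.ofAdd (psi (Gamma0 N) zBase _) = _
    rw [psi_T N hN]

/-- additive form: a function `e : Γ₀(N) → ℤ` with `e (γ γ') = e γ + e γ'` and `e T = 1`. -/
theorem exists_addHom_T_eq_one (N : ℕ) (hN : 2 ≤ N) :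
    ∃ e : ↥(Gamma0 N) → ℤ, (∀ γ γ', e (γ * γ') = e γ + e γ') ∧
      e ⟨ModularGroup.T, T_mem_Gamma0 N⟩ = 1 :=
  ⟨psi (Gamma0 N) zBase, psi_mul (Gamma0 N) zBase (neg_mem_Gamma0 N), psi_T N hN⟩

end value

end Fermat.Agent.S16.LB
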