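import Mathlib
import Fermat.Agent.S16.LB.Cong
import Fermat.Agent.S21
import Fermat.Agent.S23
import Fermat.Prelude.Def_CuspForm_HeckeLocal
import Fermat.Prelude.Def_CuspForm_HeckeEvalForms
import Fermat.Prelude.Def_HeckeGalois_EichlerShimura
import Fermat.Prelude.Def_ModularCurve_PeriodHomPair

/-!
# LB-FIN (core): `n ∣ P(eisensteinSystem)` for every Hecke polynomial killing the lattice

Everything that is not yet on main (cohomological Hecke operators `cohGen`, their period
equivariance, the Shimura class `ψ` and its integral parabolic lift `Φ`) enters as a hypothesis.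
-/

set_option autoImplicit false

namespace Fermat.Agent.S16.LB

open CongruenceSubgroup ModularCurve ModularCurve.Period CuspForm

/-- post-composition with a coefficient map, as an additive hom between hom-groups -/
def coeffMap {G A B : Type*} [AddZeroClass G] [AddCommGroup A] [AddCommGroup B] (g : A →+ B) :
    (G →+ A) →+ (G →+ B) :=
  AddMonoidHom.compHom g

@[simp] theorem coeffMap_apply {G A B : Type*} [AddZeroClass G] [AddCommGroup A] [AddCommGroup B]
    (g : A →+ B) (φ : G →+ A) (x : G) : coeffMap g φ x = g (φ x) := rfl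

theorem coeffMap_injective {G A B : Type*} [AddZeroClass G] [AddCommGroup A] [AddCommGroup B]
    (g : A →+ B) (hg : Function.Injective g) : Function.Injective (coeffMap (G := G) g) := by
  intro φ φ' h
  ext x
  exact hg (DFunLike.congr_fun h x)

theorem ker_dvd_of (p : ℕ) [Fact p.Prime] (n : ℕ)
    (cohGen : ∀ (A : Type) [AddCommGroup A], Nat.Primes →
      (Additive (Gamma0 p) →+ A) →+ (Additive (Gamma0 p) →+ A))
    (cohGen_comp : ∀ (A B : Type) [AddCommGroup A] [AddCommGroup B] (g : A →+ B)
      (l : Nat.Primes) (φ : Additive (Gamma0 p) →+ A),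
      cohGen B l (g.comp φ) = g.comp (cohGen A l φ))
    (hper : ∀ (l : Nat.Primes) (f g : CuspForm (Gamma0 p) 2),
      haveI : NeZero p := ⟨(Fact.out : p.Prime).ne_zero⟩
      periodHomPair p ((heckeFormsGen p 2 l : Module.End ℂ (CuspForm (Gamma0 p) 2)) f,
          (heckeFormsGen p 2 l : Module.End ℂ (CuspForm (Gamma0 p) 2)) g)
        = cohGen ℂ l (periodHomPair p (f, g)))
    (ψ : Additive (Gamma0 p) →+ ZMod n)
    (hψord : ∀ k : ℤ, k • ψ = 0 → (n : ℤ) ∣ k)
    (hψeig : ∀ l : Nat.Primes, cohGen (ZMod n) l ψ = eisensteinSystem p l • ψ)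
    (Φ : Additive (Gamma0 p) →+ ℤ) (hΦpar : IsParabolicHom (Gamma0 p) Φ)
    (hΦψ : ∀ g, ((Φ g : ℤ) : ZMod n) = ψ g)
    (P : ModularCurve.HeckeAlg)
    (hP : haveI : NeZero p := ⟨(Fact.out : p.Prime).ne_zero⟩
      ((latticeRestrictHom p ∅).toRingHom.comp (heckeEvalForms p 2)) P = 0) :
    (n : ℤ) ∣ MvPolynomial.aeval (eisensteinSystem p) P := by
  have : NeZero p := ⟨(Fact.out : p.Prime).ne_zero⟩
  -- the polynomial is zero in the Hecke algebra on forms
  have hP' : (MvPolynomial.aeval (heckeFormsGen p 2) P : heckeAlgebra p 2 ∅) = 0 := by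
    have hinj := (latticeRestrictHom_bijective p ∅ (Fermat.Agent.S23.result p)).1
    apply hinj
    rw [map_zero]
    exact hP
  -- S21 : the complexified integral class is a period
  have hS21 := (Fermat.Agent.S21.result p).2
  have hmem : coeffMap (Int.castAddHom ℂ) Φ ∈ parabolicHoms ℂ (Gamma0 p) ℂ := by
    rw [mem_parabolicHoms_iff]
    intro γ hγ
    show ((Φ (Additive.ofMul γ) : ℤ) : ℂ) = 0
    rw [hΦpar γ hγ, Int.cast_zero]
  rw [← hS21] at hmem
  obtain ⟨m, hm⟩ := hmem
  have key := dvd_eval_of_aeval_smul_eq_zero (ι := Nat.Primes)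
    (S := heckeAlgebra p 2 ∅) (M := CuspForm (Gamma0 p) 2 × CuspForm (Gamma0 p) 2)
    (heckeFormsGen p 2) (cohGen ℤ) (cohGen ℂ) (cohGen (ZMod n))
    (coeffMap (Int.castAddHom ℂ)) (coeffMap_injective _ Int.cast_injective)
    (coeffMap (Int.castAddHom (ZMod n)))
    (fun l x => (cohGen_comp ℤ ℂ (Int.castAddHom ℂ) l x).symm)
    (fun l x => (cohGen_comp ℤ (ZMod n) (Int.castAddHom (ZMod n)) l x).symm)
    (periodHomPair p).toAddMonoidHom
    (fun l m => by
      obtain ⟨f, g⟩ := m
      exact hper l f g)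
    (eisensteinSystem p) n Φ m hm.symm ?_ ?_ P ?_
  · exact key
  · have hr : coeffMap (Int.castAddHom (ZMod n)) Φ = ψ := by
      ext g
      exact hΦψ g
    intro l
    rw [hr]
    exact hψeig l
  · have hr : coeffMap (Int.castAddHom (ZMod n)) Φ = ψ := by
      ext g
      exact hΦψ g
    rw [hr]
    exact hψord
  · rw [hP', zero_smul]

end Fermat.Agent.S16.LB
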