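/-
T16 / LB-SH (helper49), SH2: `psi` is an Eisenstein eigenclass for ANY family of operators
`cohGen` on `Hom(Γ₀(p), ℤ/n)` given by the prelude coset relations.

EXPORTS (namespace `Fermat.Agent.S16.LB.SH`):
* `sum_psi_heckeRep'`  (σ merely bijective), `sum_psi_heckeMatrix_of_eq` (prime `q = p`)
* `psi_eigen_of_apply` : abstract SH2 — from the two apply-lemmas (shape of LB-H1) one gets
  `∀ l, cohGen l (psi p) = eisensteinSystem p l • psi p`.
-/
import Fermat.Agent.S16.LB.ShimuraEigen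

set_option autoImplicit false

open scoped MatrixGroups
open CongruenceSubgroup Matrix ModularCurve ModularCurve.Period Matrix.SpecialLinearGroup
open P2MW.S_ModularForm_heckeT_slash_eq_self_of_mem_Gamma0.ModularForm.HeckeSlashInvariance

namespace Fermat.Agent.S16.LB.SH

variable (p : ℕ) [Fact p.Prime]

/-- local instance (Prop-valued class, harmless for consumers). -/
local instance factPrimeOfPrimes (l : Nat.Primes) : Fact (l : ℕ).Prime := ⟨l.2⟩

/-- Telescoping with a merely bijective reindexing `σ`. -/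
theorem sum_psi_heckeRep' (ℓ : ℕ) [Fact ℓ.Prime] (hℓp : ℓ ≠ p) (g : Gamma0 p)
    (σ : OnePoint (ZMod ℓ) → OnePoint (ZMod ℓ)) (hσ : Function.Bijective σ)
    (t : OnePoint (ZMod ℓ) → Gamma0 p)
    (h : ∀ x, heckeRep ℓ x * mapGL ℝ (g : SL(2, ℤ))
      = mapGL ℝ (t x : SL(2, ℤ)) * heckeRep ℓ (σ x)) :
    ∑ x, psi p (Additive.ofMul (t x)) = ((1 + ℓ : ℕ) : ℤ) • psi p (Additive.ofMul g) :=
  sum_psi_heckeRep p ℓ hℓp g (Equiv.ofBijective σ hσ) t h

/-- Telescoping for `U_q`, `q = p`. -/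
theorem sum_psi_heckeMatrix_of_eq (q : ℕ) (hq : q = p) (g : Gamma0 p) (σ : ZMod q → ZMod q)
    (t : ZMod q → Gamma0 p)
    (h : ∀ x : ZMod q, ModularForm.heckeMatrix q x.val * mapGL ℝ (g : SL(2, ℤ))
      = mapGL ℝ (t x : SL(2, ℤ)) * ModularForm.heckeMatrix q (σ x).val) :
    haveI : NeZero q := ⟨hq ▸ (Fact.out : p.Prime).ne_zero⟩
    ∑ x, psi p (Additive.ofMul (t x)) = psi p (Additive.ofMul g) := by
  subst hq
  exact sum_psi_heckeMatrix_self q g σ t h

/-- **Abstract SH2.**  Any family of operators on `Hom(Γ₀(p), ℤ/n)` whose values are the coset sums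
of the prelude relations (`heckeRep_mul` for `ℓ ∤ p`, `heckeMatrix_mul_of_dvd` for `ℓ ∣ p`) has
`psi` as an eigenvector with the Eisenstein eigenvalues. -/
theorem psi_eigen_of_apply
    (cohGen : Nat.Primes → (Additive (Gamma0 p) →+ ZMod (eisensteinNumerator p)) →+
      (Additive (Gamma0 p) →+ ZMod (eisensteinNumerator p)))
    (hT : ∀ (l : Nat.Primes), ¬ (l : ℕ) ∣ p → ∀ g : Gamma0 p,
      ∃ (σ : OnePoint (ZMod l) → OnePoint (ZMod l)) (t : OnePoint (ZMod l) → Gamma0 p),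
        Function.Bijective σ ∧
        (∀ x, heckeRep l x * mapGL ℝ (g : SL(2, ℤ))
          = mapGL ℝ (t x : SL(2, ℤ)) * heckeRep l (σ x)) ∧
        cohGen l (psi p) (Additive.ofMul g) = ∑ x, psi p (Additive.ofMul (t x)))
    (hU : ∀ (l : Nat.Primes), (l : ℕ) ∣ p → ∀ g : Gamma0 p,
      ∃ (σ : ZMod l → ZMod l) (t : ZMod l → Gamma0 p),
        (∀ x, ModularForm.heckeMatrix l x.val * mapGL ℝ (g : SL(2, ℤ))
          = mapGL ℝ (t x : SL(2, ℤ)) * ModularForm.heckeMatrix l (σ x).val) ∧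
        cohGen l (psi p) (Additive.ofMul g) = ∑ x, psi p (Additive.ofMul (t x)))
    (l : Nat.Primes) :
    cohGen l (psi p) = eisensteinSystem p l • psi p := by
  refine AddMonoidHom.ext fun g' => ?_
  obtain ⟨g, rfl⟩ : ∃ g : Gamma0 p, Additive.ofMul g = g' := ⟨Additive.toMul g', rfl⟩
  rw [AddMonoidHom.smul_apply]
  by_cases hl : (l : ℕ) ∣ p
  · obtain ⟨σ, t, hrel, happ⟩ := hU l hl g
    rw [happ, eisensteinSystem_of_dvd hl, one_smul]
    have hq : (l : ℕ) = p := (Nat.prime_dvd_prime_iff_eq l.2 (Fact.out : p.Prime)).mp hl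
    have := sum_psi_heckeMatrix_of_eq p l hq g σ t hrel
    convert this
  · obtain ⟨σ, t, hσ, hrel, happ⟩ := hT l hl g
    rw [happ, eisensteinSystem_of_not_dvd hl]
    have hne : (l : ℕ) ≠ p := fun h => hl (h ▸ dvd_rfl)
    rw [sum_psi_heckeRep' p l hne g σ hσ t hrel]
    push_cast
    rfl

end Fermat.Agent.S16.LB.SH
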