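import Mathlib
import Fermat.Agent.S16.LB.KerDvd
import Fermat.Agent.S16.LB.ShimuraCoh
import Fermat.Agent.S16.LB.ShimuraLift

/-!
# LB-FIN (second layer): `ker_dvd` from the H1 interface (`cohGen`, naturality, the two apply
lemmas) and the H2 equivariance `hper`; the Shimura class (`SH.psi`), its eigen-property
(`SH.psi_eigen_of_apply`) and the integral parabolic lift (`SH.exists_parabolic_lift`) are on main.
-/

set_option autoImplicit false

namespace Fermat.Agent.S16.LB

open scoped MatrixGroups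
open CongruenceSubgroup ModularCurve ModularCurve.Period CuspForm Matrix.SpecialLinearGroup
open P2MW.S_ModularForm_heckeT_slash_eq_self_of_mem_Gamma0.ModularForm.HeckeSlashInvariance

/-- local instance (Prop-valued class, harmless for consumers). -/
local instance factPrimeOfPrimes' (l : Nat.Primes) : Fact (l : ℕ).Prime := ⟨l.2⟩

theorem eisensteinNumerator_pos (p : ℕ) [Fact p.Prime] : 0 < eisensteinNumerator p := by
  have hp : 2 ≤ p := (Fact.out : p.Prime).two_le
  have h1 : 0 < p - 1 := by omega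
  unfold eisensteinNumerator
  exact Nat.div_pos (Nat.le_of_dvd h1 (Nat.gcd_dvd_left _ _)) (Nat.gcd_pos_of_pos_left _ h1)

theorem ker_dvd_of_hecke (p : ℕ) [Fact p.Prime]
    (cohGen : ∀ (A : Type) [AddCommGroup A], Nat.Primes →
      (Additive (Gamma0 p) →+ A) →+ (Additive (Gamma0 p) →+ A))
    (cohGen_comp : ∀ (A B : Type) [AddCommGroup A] [AddCommGroup B] (g : A →+ B)
      (l : Nat.Primes) (φ : Additive (Gamma0 p) →+ A),
      cohGen B l (g.comp φ) = g.comp (cohGen A l φ))
    (happT : ∀ (l : Nat.Primes), ¬ (l : ℕ) ∣ p → ∀ γ : Gamma0 p,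
      ∃ (σ : Equiv.Perm (OnePoint (ZMod l))) (t : OnePoint (ZMod l) → Gamma0 p),
        (∀ x, heckeRep l x * mapGL ℝ (γ : SL(2, ℤ))
          = mapGL ℝ (t x : SL(2, ℤ)) * heckeRep l (σ x)) ∧
        ∀ (A : Type) [AddCommGroup A] (φ : Additive (Gamma0 p) →+ A),
          cohGen A l φ (Additive.ofMul γ) = ∑ x, φ (Additive.ofMul (t x)))
    (happU : ∀ (l : Nat.Primes), (l : ℕ) ∣ p → ∀ γ : Gamma0 p,
      ∃ (σ : Equiv.Perm (ZMod l)) (t : ZMod l → Gamma0 p),
        (∀ x, ModularForm.heckeMatrix l x.val * mapGL ℝ (γ : SL(2, ℤ))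
          = mapGL ℝ (t x : SL(2, ℤ)) * ModularForm.heckeMatrix l (σ x).val) ∧
        ∀ (A : Type) [AddCommGroup A] (φ : Additive (Gamma0 p) →+ A),
          cohGen A l φ (Additive.ofMul γ) = ∑ x, φ (Additive.ofMul (t x)))
    (hper : ∀ (l : Nat.Primes) (f g : CuspForm (Gamma0 p) 2),
      haveI : NeZero p := ⟨(Fact.out : p.Prime).ne_zero⟩
      periodHomPair p ((heckeFormsGen p 2 l : Module.End ℂ (CuspForm (Gamma0 p) 2)) f,
          (heckeFormsGen p 2 l : Module.End ℂ (CuspForm (Gamma0 p) 2)) g)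
        = cohGen ℂ l (periodHomPair p (f, g)))
    (P : ModularCurve.HeckeAlg)
    (hP : haveI : NeZero p := ⟨(Fact.out : p.Prime).ne_zero⟩
      ((latticeRestrictHom p ∅).toRingHom.comp (heckeEvalForms p 2)) P = 0) :
    (eisensteinNumerator p : ℤ) ∣ MvPolynomial.aeval (eisensteinSystem p) P := by
  have : NeZero (eisensteinNumerator p) := ⟨(eisensteinNumerator_pos p).ne'⟩
  obtain ⟨Φ, hΦpar, hΦψ⟩ := SH.exists_parabolic_lift p (eisensteinNumerator p) (SH.psi p)
    (SH.psi_finOrder p) (SH.psi_isParabolicHom p)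
  refine ker_dvd_of p (eisensteinNumerator p) cohGen cohGen_comp hper (SH.psi p)
    (SH.psi_order p) ?_ Φ hΦpar hΦψ P hP
  refine SH.psi_eigen_of_apply p (cohGen (ZMod (eisensteinNumerator p))) ?_ ?_
  · intro l hl g
    obtain ⟨σ, t, hrel, happ⟩ := happT l hl g
    exact ⟨σ, t, σ.bijective, hrel, happ _ _⟩
  · intro l hl g
    obtain ⟨σ, t, hrel, happ⟩ := happU l hl g
    exact ⟨σ, t, hrel, happ _ _⟩

end Fermat.Agent.S16.LB
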