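import Mathlib
import Fermat.Agent.S16.LB.KerDvdHecke
import Fermat.Agent.S16.LB.HeckePeriodPair
import Fermat.Agent.S16.PairingKer

/-!
# LB-FIN (third layer): `Cong p (eisensteinNumerator p)` from the H1 interface and LB-INV

The only inputs that are still hypotheses: the cohomological Hecke operators `cohGen` with
naturality and the two apply lemmas (LB-H1), and the two definition-independent involution
lemmas (LB-INV).
-/

set_option autoImplicit false

namespace Fermat.Agent.S16.LB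

open scoped MatrixGroups
open CongruenceSubgroup ModularCurve ModularCurve.Period CuspForm Matrix.SpecialLinearGroup
open P2MW.S_ModularForm_heckeT_slash_eq_self_of_mem_Gamma0.ModularForm.HeckeSlashInvariance

/-- local instance (Prop-valued class, harmless for consumers). -/
local instance factPrimeOfPrimes'' (l : Nat.Primes) : Fact (l : ℕ).Prime := ⟨l.2⟩

theorem lower_of_hecke (p : ℕ) [Fact p.Prime]
    (cohGen : ∀ (A : Type) [AddCommGroup A], Nat.Primes →
      (Additive (Gamma0 p) →+ A) →+ (Additive (Gamma0 p) →+ A))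
    (cohGen_comp : ∀ (A B : Type) [AddCommGroup A] [AddCommGroup B] (g : A →+ B)
      (l : Nat.Primes) (φ : Additive (Gamma0 p) →+ A),
      cohGen B l (g.comp φ) = g.comp (cohGen A l φ))
    (happT : ∀ (l : Nat.Primes), ¬ (l : ℕ) ∣ p → ∀ γ : Gamma0 p,
      ∃ (σ : Equiv.Perm (OnePoint (ZMod l))) (t : OnePoint (ZMod l) → Gamma0 p),
        (∀ x, heckeRep l x * mapGL ℝ (γ : SL(2, ℤ))
          = mapGL ℝ (t x : SL(2, ℤ)) * heckeRep l (σ x)) ∧
        ∀ (A : Type) [AddCommGroup A] (φ : Additive (Gamma0 p) →+ A),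
          cohGen A l φ (Additive.ofMul γ) = ∑ x, φ (Additive.ofMul (t x)))
    (happU : ∀ (l : Nat.Primes), (l : ℕ) ∣ p → ∀ γ : Gamma0 p,
      ∃ (σ : Equiv.Perm (ZMod l)) (t : ZMod l → Gamma0 p),
        (∀ x, ModularForm.heckeMatrix l x.val * mapGL ℝ (γ : SL(2, ℤ))
          = mapGL ℝ (t x : SL(2, ℤ)) * ModularForm.heckeMatrix l (σ x).val) ∧
        ∀ (A : Type) [AddCommGroup A] (φ : Additive (Gamma0 p) →+ A),
          cohGen A l φ (Additive.ofMul γ) = ∑ x, φ (Additive.ofMul (t x)))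
    (hinvT : ∀ (l : Nat.Primes) (φ : Additive (Gamma0 p) →+ ℂ) (γ : Gamma0 p)
      (σ σ' : Equiv.Perm (OnePoint (ZMod l))) (t t' : OnePoint (ZMod l) → Gamma0 p),
      (∀ x, heckeRep l x * mapGL ℝ (γ : SL(2, ℤ))
          = mapGL ℝ (t x : SL(2, ℤ)) * heckeRep l (σ x)) →
      (∀ x, heckeRep l x * mapGL ℝ ((jConjGamma0 p γ : Gamma0 p) : SL(2, ℤ))
          = mapGL ℝ (t' x : SL(2, ℤ)) * heckeRep l (σ' x)) →
      ∑ x, φ (Additive.ofMul (jConjGamma0 p (t x))) = ∑ x, φ (Additive.ofMul (t' x)))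
    (hinvU : ∀ (l : Nat.Primes) (φ : Additive (Gamma0 p) →+ ℂ) (γ : Gamma0 p)
      (σ σ' : Equiv.Perm (ZMod l)) (t t' : ZMod l → Gamma0 p),
      (∀ x, ModularForm.heckeMatrix l x.val * mapGL ℝ (γ : SL(2, ℤ))
          = mapGL ℝ (t x : SL(2, ℤ)) * ModularForm.heckeMatrix l (σ x).val) →
      (∀ x, ModularForm.heckeMatrix l x.val * mapGL ℝ ((jConjGamma0 p γ : Gamma0 p) : SL(2, ℤ))
          = mapGL ℝ (t' x : SL(2, ℤ)) * ModularForm.heckeMatrix l (σ' x).val) →
      ∑ x, φ (Additive.ofMul (jConjGamma0 p (t x))) = ∑ x, φ (Additive.ofMul (t' x))) :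
    Fermat.Agent.S16.Cong p (eisensteinNumerator p) := by
  have : NeZero p := ⟨(Fact.out : p.Prime).ne_zero⟩
  -- commutation of `cohGen ℂ l` with the character involution
  have hinv : ∀ (l : Nat.Primes) (φ : Additive (Gamma0 p) →+ ℂ),
      cohGen ℂ l (charInvolution p ℂ ℂ φ) = charInvolution p ℂ ℂ (cohGen ℂ l φ) := by
    intro l φ
    refine AddMonoidHom.ext fun γ' => ?_
    obtain ⟨γ, rfl⟩ : ∃ γ : Gamma0 p, Additive.ofMul γ = γ' := ⟨Additive.toMul γ', rfl⟩
    rw [charInvolution_apply]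
    by_cases hl : (l : ℕ) ∣ p
    · obtain ⟨σ, t, hrel, happ⟩ := happU l hl γ
      obtain ⟨σ', t', hrel', happ'⟩ := happU l hl (jConjGamma0 p γ)
      rw [happ ℂ, toMul_ofMul, happ' ℂ]
      simp only [charInvolution_apply, toMul_ofMul]
      exact hinvU l φ γ σ σ' t t' hrel hrel'
    · obtain ⟨σ, t, hrel, happ⟩ := happT l hl γ
      obtain ⟨σ', t', hrel', happ'⟩ := happT l hl (jConjGamma0 p γ)
      rw [happ ℂ, toMul_ofMul, happ' ℂ]
      simp only [charInvolution_apply, toMul_ofMul]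
      exact hinvT l φ γ σ σ' t t' hrel hrel'
  refine Fermat.Agent.S16.cong_of_ker_dvd p _ fun P hP => ?_
  refine ker_dvd_of_hecke p cohGen cohGen_comp happT happU ?_ P hP
  intro l f g
  refine HeckePeriod.periodHomPair_heckeFormsGen_of l (cohGen ℂ l) ?_ ?_ (hinv l) f g
  · intro hl γ
    obtain ⟨σ, t, hrel, happ⟩ := happT l hl γ
    exact ⟨σ, t, hrel, fun φ => happ ℂ φ⟩
  · intro hl γ
    obtain ⟨σ, t, hrel, happ⟩ := happU l hl γ
    exact ⟨σ, t, hrel, fun φ => happ ℂ φ⟩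

end Fermat.Agent.S16.LB
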