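import Mathlib
import Fermat.Agent.S16.LB.LowerOf
import Fermat.Agent.S16.LB.HeckeInvol
import Fermat.Agent.S16_helper49.HeckeGen

/-!
# LB-FIN: the lower bound of S16 by the cohomological (Shimura class) route

`lower p : Cong p (eisensteinNumerator p)`: there is a cusp form in the integral lattice of
`S₂(Γ₀(p))` congruent to the Eisenstein series modulo `n = (p-1)/gcd(p-1,12)`.

Ingredients (all on main): the Shimura class `ψ : Γ₀(p) → ℤ/n` (helper49), its integral parabolic
lift (helper95 / helper4 / helper61), cohomological Hecke operators `cohGen` (helper49), their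
period equivariance (helper86) and compatibility with the character involution (helper23),
Eichler–Shimura S21, the integral structure S23, the pairing `cong_of_ker_dvd` (helper53) and the
abstract congruence lemma LB-CONG.
-/

set_option autoImplicit false

namespace Fermat.Agent.S16.LB

open scoped MatrixGroups
open CongruenceSubgroup ModularCurve ModularCurve.Period CuspForm Matrix.SpecialLinearGroup
open P2MW.S_ModularForm_heckeT_slash_eq_self_of_mem_Gamma0.ModularForm.HeckeSlashInvariance

/-- local instance (Prop-valued class, harmless for consumers). -/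
local instance factPrimeOfPrimes''' (l : Nat.Primes) : Fact (l : ℕ).Prime := ⟨l.2⟩

/-- **LOWER (route H).** -/
theorem lower (p : ℕ) [Fact p.Prime] :
    Fermat.Agent.S16.Cong p (eisensteinNumerator p) := by
  have : NeZero p := ⟨(Fact.out : p.Prime).ne_zero⟩
  exact lower_of_hecke p
    (fun A _ l => Fermat.Agent.S16_helper49.cohGen p A l)
    (fun A B _ _ g l φ => Fermat.Agent.S16_helper49.cohGen_comp p g l φ)
    (fun l hl γ => Fermat.Agent.S16_helper49.cohGen_apply_of_not_dvd p l hl γ)
    (fun l hl γ => Fermat.Agent.S16_helper49.cohGen_apply_of_dvd p l hl γ)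
    (fun l φ γ σ σ' t t' h h' => Invol.sum_jConj_heckeRep φ γ σ σ' t t' h h')
    (fun l φ γ σ σ' t t' h h' => Invol.sum_jConj_heckeMatrix φ γ σ σ' t t' h h')

end Fermat.Agent.S16.LB
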