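import Mathlib

/-!
# `PSL(2,ℤ) = C₂ * C₃` by ping-pong, and the resulting universal property of `SL(2,ℤ)`

Owner: helper4 (T16 / LB, hedge for the lifting lemma SH3).  Mathlib only.

Main results:

* `pslEquiv : Monoid.CoprodI Hfam ≃* PSL` (free product of `C₂` and `C₃` is `SL(2,ℤ)/{±1}`);
* `exists_hom_of_sq_cube` : for every group `K` and `s u : K` with `s ^ 2 = 1`, `u ^ 3 = 1` there is
  a monoid hom `ρ : SL(2,ℤ) →* K` with `ρ S = s`, `ρ (S * T) = u` (and `ρ (-1) = 1`).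
-/

set_option autoImplicit false

open scoped MatrixGroups
open UpperHalfPlane ModularGroup

namespace Fermat.Agent.S16.LB.PingPong

/-- real part of `g • z` -/
theorem re_smul_eq (g : SL(2,ℤ)) (z : ℍ) :
    (g • z).re = ((g 0 0 * g 1 0 : ℤ) * Complex.normSq z
      + ((g 0 0 * g 1 1 + g 0 1 * g 1 0 : ℤ)) * z.re
      + (g 0 1 * g 1 1 : ℤ)) / Complex.normSq (denom g z) := by
  have h := UpperHalfPlane.coe_specialLinearGroup_apply g z
  have : (g • z).re = ((g • z : ℍ) : ℂ).re := rfl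
  rw [this, h, Complex.div_re]
  simp [denom, Complex.normSq_apply]
  field_simp
  ring

theorem normSq_denom_pos (g : SL(2,ℤ)) (z : ℍ) : 0 < Complex.normSq (denom g z) :=
  Complex.normSq_pos.mpr (denom_ne_zero g z)

theorem S_sq : (S : SL(2,ℤ)) ^ 2 = -1 := by decide

theorem ST_cube : (S * T : SL(2,ℤ)) ^ 3 = -1 := by decide

theorem neg_one_sq : (-1 : SL(2,ℤ)) ^ 2 = 1 := by decide

/-- The centre `{±1}` of `SL(2,ℤ)`. -/
def Zc : Subgroup SL(2,ℤ) := Subgroup.zpowers (-1)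

theorem neg_one_mem_Zc : (-1 : SL(2,ℤ)) ∈ Zc := Subgroup.mem_zpowers _

theorem mem_Zc_iff (g : SL(2,ℤ)) : g ∈ Zc ↔ g = 1 ∨ g = -1 := by
  constructor
  · rintro ⟨k, rfl⟩
    rcases Int.even_or_odd k with ⟨m, rfl⟩ | ⟨m, rfl⟩
    · left
      show (-1 : SL(2,ℤ)) ^ (m + m) = 1
      rw [← two_mul, zpow_mul, zpow_two, ← sq, neg_one_sq, one_zpow]
    · right
      show (-1 : SL(2,ℤ)) ^ (2 * m + 1) = -1
      rw [zpow_add, zpow_mul, zpow_two, ← sq, neg_one_sq, one_zpow, one_mul, zpow_one]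
  · rintro (rfl | rfl)
    · exact one_mem _
    · exact neg_one_mem_Zc

instance : Zc.Normal := by
  refine ⟨fun n hn g => ?_⟩
  rcases (mem_Zc_iff n).1 hn with rfl | rfl
  · simp
  · have : g * -1 * g⁻¹ = -1 := by
      rw [mul_neg, mul_one, neg_mul, mul_inv_cancel]
    rw [this]; exact neg_one_mem_Zc

/-- `PSL(2,ℤ)` as a quotient. -/
abbrev PSL : Type := SL(2,ℤ) ⧸ Zc

/-- the projection -/
def toPSL : SL(2,ℤ) →* PSL := QuotientGroup.mk' Zc

theorem toPSL_surjective : Function.Surjective toPSL := QuotientGroup.mk'_surjective Zc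

theorem toPSL_neg_one : toPSL (-1) = 1 :=
  (QuotientGroup.eq_one_iff _).2 neg_one_mem_Zc

theorem toPSL_eq_one_iff (g : SL(2,ℤ)) : toPSL g = 1 ↔ g = 1 ∨ g = -1 := by
  rw [← mem_Zc_iff]; exact QuotientGroup.eq_one_iff g

theorem Zc_le_ker_toPermHom : Zc ≤ (MulAction.toPermHom SL(2,ℤ) ℍ).ker := by
  intro g hg
  rw [MonoidHom.mem_ker]
  rcases (mem_Zc_iff g).1 hg with rfl | rfl
  · exact map_one _
  · ext z
    simp [MulAction.toPermHom_apply]

/-- action of `PSL` on the upper half plane, as a hom to permutations -/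
noncomputable def actP : PSL →* Equiv.Perm ℍ :=
  QuotientGroup.lift Zc (MulAction.toPermHom SL(2,ℤ) ℍ) Zc_le_ker_toPermHom

noncomputable instance instMulActionPSL : MulAction PSL ℍ := MulAction.compHom ℍ actP

theorem toPSL_smul (g : SL(2,ℤ)) (z : ℍ) : (toPSL g) • z = g • z := rfl


/-! ### the two cyclic factors -/

/-- `Hfam 0 = C₂`, `Hfam 1 = C₃`. -/
abbrev Hfam (i : Fin 2) : Type := Multiplicative (ZMod (i.val + 2))

/-- hom out of a cyclic group `Multiplicative (ZMod n)` determined by an element of order dividing `n` -/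
noncomputable def cycHom {K : Type*} [Group K] (n : ℕ) (x : K) (hx : x ^ n = 1) :
    Multiplicative (ZMod n) →* K :=
  AddMonoidHom.toMultiplicativeLeft
    (ZMod.lift n ⟨zmultiplesHom (Additive K) (Additive.ofMul x), by
      show ((n : ℤ) • Additive.ofMul x) = 0
      rw [natCast_zsmul, ← ofMul_pow, hx]; rfl⟩)

theorem cycHom_ofAdd_intCast {K : Type*} [Group K] (n : ℕ) (x : K) (hx : x ^ n = 1) (k : ℤ) :
    cycHom n x hx (Multiplicative.ofAdd (k : ZMod n)) = x ^ k := by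
  show Additive.toMul (ZMod.lift n _ (k : ZMod n)) = x ^ k
  rw [ZMod.lift_coe]
  rfl

theorem cycHom_ofAdd_one {K : Type*} [Group K] (n : ℕ) (x : K) (hx : x ^ n = 1) :
    cycHom n x hx (Multiplicative.ofAdd (1 : ZMod n)) = x := by
  have := cycHom_ofAdd_intCast n x hx 1
  simpa using this

/-- generators of the images of the two factors in a group `K` -/
def genK {K : Type*} (s u : K) : Fin 2 → K := ![s, u]

theorem genK_pow {K : Type*} [Group K] (s u : K) (hs : s ^ 2 = 1) (hu : u ^ 3 = 1) (i : Fin 2) :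
    genK s u i ^ (i.val + 2) = 1 := by
  fin_cases i
  · simpa [genK] using hs
  · simpa [genK] using hu

/-- the family of homs `Hfam i →* K` attached to `s`, `u` -/
noncomputable def famHom {K : Type*} [Group K] (s u : K) (hs : s ^ 2 = 1) (hu : u ^ 3 = 1)
    (i : Fin 2) : Hfam i →* K :=
  cycHom (i.val + 2) (genK s u i) (genK_pow s u hs hu i)

theorem toPSL_S_sq : (toPSL S) ^ 2 = 1 := by
  rw [← map_pow, S_sq, toPSL_neg_one]

theorem toPSL_ST_cube : (toPSL (S * T)) ^ 3 = 1 := by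
  rw [← map_pow, ST_cube, toPSL_neg_one]

/-- the canonical family into `PSL` -/
noncomputable def fP (i : Fin 2) : Hfam i →* PSL :=
  famHom (toPSL S) (toPSL (S * T)) toPSL_S_sq toPSL_ST_cube i

/-- ping-pong sets: right and left half planes -/
def Xpp (i : Fin 2) : Set ℍ := if i = 0 then {z | 0 < z.re} else {z | z.re < 0}

theorem zmod2_cases (k : ZMod 2) (hk : k ≠ 0) : k = 1 := by
  revert k; decide

theorem zmod3_cases (k : ZMod 3) (hk : k ≠ 0) : k = 1 ∨ k = 2 := by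
  revert k; decide

theorem S_smul_re_pos {z : ℍ} (hz : z.re < 0) : 0 < (S • z).re := by
  rw [re_smul_eq]
  apply div_pos _ (normSq_denom_pos _ _)
  simp [S]
  exact hz

theorem coe_ST : ((S * T : SL(2,ℤ)) : Matrix (Fin 2) (Fin 2) ℤ) = !![0, -1; 1, 1] := by decide

theorem coe_ST_sq : (((S * T : SL(2,ℤ)) ^ 2 : SL(2,ℤ)) : Matrix (Fin 2) (Fin 2) ℤ)
    = !![-1, -1; 1, 0] := by decide

theorem ST_smul_re_neg {z : ℍ} (hz : 0 < z.re) : ((S * T : SL(2,ℤ)) • z).re < 0 := by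
  rw [re_smul_eq]
  apply div_neg_of_neg_of_pos _ (normSq_denom_pos _ _)
  rw [coe_ST]
  simp
  linarith

theorem ST_sq_smul_re_neg {z : ℍ} (hz : 0 < z.re) : (((S * T : SL(2,ℤ)) ^ 2) • z).re < 0 := by
  rw [re_smul_eq]
  apply div_neg_of_neg_of_pos _ (normSq_denom_pos _ _)
  rw [coe_ST_sq]
  have hn : 0 ≤ Complex.normSq (z : ℂ) := Complex.normSq_nonneg _
  simp
  linarith


/-! ### values of the canonical family -/

theorem famHom_zero_gen {K : Type*} [Group K] (s u : K) (hs : s ^ 2 = 1) (hu : u ^ 3 = 1) :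
    famHom s u hs hu 0 (Multiplicative.ofAdd (1 : ZMod 2)) = s :=
  cycHom_ofAdd_one 2 s hs

theorem famHom_one_gen {K : Type*} [Group K] (s u : K) (hs : s ^ 2 = 1) (hu : u ^ 3 = 1) :
    famHom s u hs hu 1 (Multiplicative.ofAdd (1 : ZMod 3)) = u :=
  cycHom_ofAdd_one 3 u hu

theorem fP_zero_apply (h : Hfam 0) (hh : h ≠ 1) : fP 0 h = toPSL S := by
  have h1 : Multiplicative.toAdd h = (1 : ZMod 2) := by
    apply zmod2_cases
    intro h0
    apply hh
    exact Multiplicative.toAdd.injective h0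
  have h2 : h = Multiplicative.ofAdd (1 : ZMod 2) := Multiplicative.toAdd.injective h1
  rw [h2]
  exact famHom_zero_gen _ _ _ _

theorem fP_one_apply (h : Hfam 1) (hh : h ≠ 1) :
    fP 1 h = toPSL (S * T) ∨ fP 1 h = toPSL ((S * T) ^ 2) := by
  have h1 : Multiplicative.toAdd h = (1 : ZMod 3) ∨ Multiplicative.toAdd h = (2 : ZMod 3) := by
    apply zmod3_cases
    intro h0
    apply hh
    exact Multiplicative.toAdd.injective h0
  rcases h1 with h1 | h1
  · left
    have h2 : h = Multiplicative.ofAdd (1 : ZMod 3) := Multiplicative.toAdd.injective h1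
    rw [h2]
    exact famHom_one_gen _ _ _ _
  · right
    have h2 : h = Multiplicative.ofAdd (1 : ZMod 3) * Multiplicative.ofAdd (1 : ZMod 3) :=
      Multiplicative.toAdd.injective (by rw [h1]; decide)
    rw [h2, map_mul, map_pow, sq]
    congr 1 <;> exact famHom_one_gen _ _ _ _

theorem Xpp_zero : Xpp 0 = {z | 0 < z.re} := by simp [Xpp]

theorem Xpp_one : Xpp 1 = {z | z.re < 0} := by simp [Xpp]

theorem Xpp_nonempty (i : Fin 2) : (Xpp i).Nonempty := by
  fin_cases i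
  · refine ⟨UpperHalfPlane.mk (1 + Complex.I) (by simp), ?_⟩
    show (UpperHalfPlane.mk (1 + Complex.I) _) ∈ Xpp 0
    rw [Xpp_zero]
    show (0 : ℝ) < (1 + Complex.I).re
    simp
  · refine ⟨UpperHalfPlane.mk (-1 + Complex.I) (by simp), ?_⟩
    show (UpperHalfPlane.mk (-1 + Complex.I) _) ∈ Xpp 1
    rw [Xpp_one]
    show (-1 + Complex.I).re < (0 : ℝ)
    simp

theorem Xpp_disjoint : Pairwise (Function.onFun Disjoint Xpp) := by
  intro i j hij
  show Disjoint (Xpp i) (Xpp j)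
  rw [Set.disjoint_left]
  fin_cases i <;> fin_cases j
  · exact absurd rfl hij
  · intro z hz hz'
    have h0 : z ∈ Xpp 0 := hz
    have h1 : z ∈ Xpp 1 := hz'
    rw [Xpp_zero] at h0; rw [Xpp_one] at h1
    exact lt_asymm (show (0 : ℝ) < z.re from h0) (show z.re < 0 from h1)
  · intro z hz hz'
    have h1 : z ∈ Xpp 1 := hz
    have h0 : z ∈ Xpp 0 := hz'
    rw [Xpp_zero] at h0; rw [Xpp_one] at h1
    exact lt_asymm (show (0 : ℝ) < z.re from h0) (show z.re < 0 from h1)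
  · exact absurd rfl hij

open scoped Pointwise in
theorem Xpp_pingpong :
    Pairwise fun i j : Fin 2 => ∀ h : Hfam i, h ≠ 1 → fP i h • Xpp j ⊆ Xpp i := by
  intro i j hij
  fin_cases i <;> fin_cases j
  · exact absurd rfl hij
  · intro h hh
    show fP 0 h • Xpp 1 ⊆ Xpp 0
    rw [fP_zero_apply h hh, Xpp_zero, Xpp_one]
    rintro _ ⟨z, hz, rfl⟩
    exact S_smul_re_pos hz
  · intro h hh
    show fP 1 h • Xpp 0 ⊆ Xpp 1
    rw [Xpp_zero, Xpp_one]
    rcases fP_one_apply h hh with h1 | h1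
    · rw [h1]
      rintro _ ⟨z, hz, rfl⟩
      exact ST_smul_re_neg hz
    · rw [h1]
      rintro _ ⟨z, hz, rfl⟩
      exact ST_sq_smul_re_neg hz
  · exact absurd rfl hij

theorem card_Hfam_one : 3 ≤ Cardinal.mk (Hfam 1) := by
  have : Cardinal.mk (Hfam 1) = 3 := by
    show Cardinal.mk (Multiplicative (ZMod 3)) = 3
    rw [Cardinal.mk_fintype]
    simp [ZMod.card]
  rw [this]

theorem lift_fP_injective : Function.Injective (Monoid.CoprodI.lift fP) :=
  Monoid.CoprodI.lift_injective_of_ping_pong fP (Or.inr ⟨1, card_Hfam_one⟩) Xpp Xpp_nonempty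
    Xpp_disjoint Xpp_pingpong


/-! ### surjectivity and the isomorphism -/

theorem lift_fP_of_zero :
    Monoid.CoprodI.lift fP (Monoid.CoprodI.of (i := (0 : Fin 2)) (Multiplicative.ofAdd (1 : ZMod 2)))
      = toPSL S := by
  rw [Monoid.CoprodI.lift_of]
  exact famHom_zero_gen _ _ _ _

theorem lift_fP_of_one :
    Monoid.CoprodI.lift fP (Monoid.CoprodI.of (i := (1 : Fin 2)) (Multiplicative.ofAdd (1 : ZMod 3)))
      = toPSL (S * T) := by
  rw [Monoid.CoprodI.lift_of]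
  exact famHom_one_gen _ _ _ _

theorem lift_fP_surjective : Function.Surjective (Monoid.CoprodI.lift fP) := by
  rw [← MonoidHom.range_eq_top]
  set R := (Monoid.CoprodI.lift fP).range with hR
  have hS : toPSL S ∈ R := ⟨_, lift_fP_of_zero⟩
  have hST : toPSL (S * T) ∈ R := ⟨_, lift_fP_of_one⟩
  have hT : toPSL T ∈ R := by
    have : toPSL T = (toPSL S)⁻¹ * toPSL (S * T) := by
      rw [map_mul, inv_mul_cancel_left]
    rw [this]
    exact R.mul_mem (R.inv_mem hS) hST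
  have hle : (⊤ : Subgroup SL(2,ℤ)) ≤ R.comap toPSL := by
    rw [← SpecialLinearGroup.SL2Z_generators, Subgroup.closure_le]
    rintro g (rfl | rfl)
    · exact hS
    · exact hT
  rw [eq_top_iff]
  intro x _
  obtain ⟨g, rfl⟩ := toPSL_surjective x
  exact hle (Subgroup.mem_top g)

/-- `C₂ * C₃ ≃* PSL(2,ℤ)`. -/
noncomputable def pslEquiv : Monoid.CoprodI Hfam ≃* PSL :=
  MulEquiv.ofBijective (Monoid.CoprodI.lift fP) ⟨lift_fP_injective, lift_fP_surjective⟩

theorem pslEquiv_symm_S :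
    pslEquiv.symm (toPSL S)
      = Monoid.CoprodI.of (i := (0 : Fin 2)) (Multiplicative.ofAdd (1 : ZMod 2)) := by
  rw [MulEquiv.symm_apply_eq]
  exact lift_fP_of_zero.symm

theorem pslEquiv_symm_ST :
    pslEquiv.symm (toPSL (S * T))
      = Monoid.CoprodI.of (i := (1 : Fin 2)) (Multiplicative.ofAdd (1 : ZMod 3)) := by
  rw [MulEquiv.symm_apply_eq]
  exact lift_fP_of_one.symm

/-- **Universal property of `PSL(2,ℤ) = C₂ * C₃`.** -/
theorem exists_hom_PSL {K : Type*} [Group K] (s u : K) (hs : s ^ 2 = 1) (hu : u ^ 3 = 1) :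
    ∃ ρ : PSL →* K, ρ (toPSL S) = s ∧ ρ (toPSL (S * T)) = u := by
  refine ⟨(Monoid.CoprodI.lift (famHom s u hs hu)).comp pslEquiv.symm.toMonoidHom, ?_, ?_⟩
  · show Monoid.CoprodI.lift (famHom s u hs hu) (pslEquiv.symm (toPSL S)) = s
    rw [pslEquiv_symm_S, Monoid.CoprodI.lift_of]
    exact famHom_zero_gen _ _ _ _
  · show Monoid.CoprodI.lift (famHom s u hs hu) (pslEquiv.symm (toPSL (S * T))) = u
    rw [pslEquiv_symm_ST, Monoid.CoprodI.lift_of]
    exact famHom_one_gen _ _ _ _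

/-- **Universal property, `SL(2,ℤ)` form**: for `s ^ 2 = 1`, `u ^ 3 = 1` in any group `K` there is
a hom `ρ : SL(2,ℤ) →* K` with `ρ S = s`, `ρ (S * T) = u`; it kills `-1`. -/
theorem exists_hom_of_sq_cube {K : Type*} [Group K] (s u : K) (hs : s ^ 2 = 1) (hu : u ^ 3 = 1) :
    ∃ ρ : SL(2,ℤ) →* K, ρ S = s ∧ ρ (S * T) = u ∧ ρ (-1) = 1 := by
  obtain ⟨ρ, h1, h2⟩ := exists_hom_PSL s u hs hu
  refine ⟨ρ.comp toPSL, h1, h2, ?_⟩
  show ρ (toPSL (-1)) = 1
  rw [toPSL_neg_one, map_one]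

/-- uniqueness: two homs out of `SL(2,ℤ)` agreeing on `S` and `S * T` agree. -/
theorem hom_ext_S_ST {K : Type*} [Group K] (ρ ρ' : SL(2,ℤ) →* K) (hS : ρ S = ρ' S)
    (hST : ρ (S * T) = ρ' (S * T)) : ρ = ρ' := by
  have hT : ρ T = ρ' T := by
    have h1 : ρ T = (ρ S)⁻¹ * ρ (S * T) := by rw [map_mul, inv_mul_cancel_left]
    have h2 : ρ' T = (ρ' S)⁻¹ * ρ' (S * T) := by rw [map_mul, inv_mul_cancel_left]
    rw [h1, h2, hS, hST]
  have hle : (⊤ : Subgroup SL(2,ℤ)) ≤ MonoidHom.eqLocus ρ ρ' := by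
    rw [← SpecialLinearGroup.SL2Z_generators, Subgroup.closure_le]
    rintro g (rfl | rfl)
    · exact hS
    · exact hT
  exact MonoidHom.ext fun g => hle (Subgroup.mem_top g)

end Fermat.Agent.S16.LB.PingPong
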