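/-
T16 / LB-LIFT (helper95): the integral parabolic lift of the Shimura class `psi p`
(helper49, `LB/ShimuraPsi.lean`), in exactly the shape of the hypotheses `Φ`, `hΦpar`, `hΦψ`
of `LB/KerDvd.lean` (`ker_dvd_of`, helper99).
-/
import Fermat.Agent.S16.LB.ShimuraLift
import Fermat.Agent.S16.LB.ShimuraPsi

set_option autoImplicit false

open CongruenceSubgroup ModularCurve ModularCurve.Period

namespace Fermat.Agent.S16.LB.SH

/-- `eisensteinNumerator p` is positive for a prime `p`. -/
theorem eisensteinNumerator_pos' (p : ℕ) [Fact p.Prime] : 0 < eisensteinNumerator p :=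
  Shimura.nn_pos p

/-- LB-LIFT for the Shimura class: an integral PARABOLIC homomorphism reducing to `psi p`. -/
theorem exists_parabolic_lift_psi (p : ℕ) [Fact p.Prime] :
    ∃ Phi : Additive (Gamma0 p) →+ ℤ, IsParabolicHom (Gamma0 p) Phi ∧
      ∀ g, ((Phi g : ℤ) : ZMod (eisensteinNumerator p)) = psi p g := by
  haveI : NeZero (eisensteinNumerator p) := ⟨(eisensteinNumerator_pos' p).ne'⟩
  exact exists_parabolic_lift p (eisensteinNumerator p) (psi p) (psi_finOrder p)
    (psi_isParabolicHom p)

end Fermat.Agent.S16.LB.SH
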