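/-
T16 / LB (helper65): the WEIGHTED sign-sum homomorphism.
For a subgroup `Γ ≤ SL(2,ℤ)`, an additive commutative group `A` and a weight `W : SL(2,ℤ) → A` with
`W (h * γ) = W h` for `γ ∈ Γ`, the finite sum
`Ψ_W(γ) := ∑_{h ∈ SL(2,ℤ)} (s(h γ z₀) - s(h z₀)) • W h`, `s(z) = [0 < Re z]`,
is a homomorphism `Γ → A`, natural in `A`.  (With `W = 1_Γ` it is `phi` of `CuspHom.lean`.)
Mathlib + `CuspHom.lean` only.
-/
import Fermat.Agent.S16.LB.CuspHom

set_option autoImplicit false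

open UpperHalfPlane ModularGroup Matrix.SpecialLinearGroup MatrixGroups CongruenceSubgroup

namespace Fermat.Agent.S16.LB

section weighted

variable {A : Type*} [AddCommGroup A] (Γ : Subgroup SL(2, ℤ)) (z0 : ℍ) (W : SL(2, ℤ) → A)

/-- the jump of the side indicator: `δ_h(γ) = s(h γ z₀) - s(h z₀)` -/
noncomputable def jump (γ : Γ) (h : SL(2, ℤ)) : ℤ :=
  side ((h * (γ : SL(2, ℤ))) • z0) - side (h • z0)

theorem finite_support_jump (γ : Γ) : (Function.support (jump Γ z0 γ)).Finite := by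
  refine (finite_side_ne ((γ : SL(2, ℤ)) • z0) z0).subset ?_
  intro h hh
  show side _ ≠ side _
  intro heq
  apply hh
  unfold jump
  rw [mul_smul, heq, sub_self]

theorem jump_mul (γ γ' : Γ) (h : SL(2, ℤ)) :
    jump Γ z0 (γ * γ') h = jump Γ z0 γ' (h * (γ : SL(2, ℤ))) + jump Γ z0 γ h := by
  unfold jump
  simp only [Subgroup.coe_mul, mul_assoc]
  ring

theorem jump_neg (γ : Γ) (h : SL(2, ℤ)) : jump Γ z0 γ (-h) = jump Γ z0 γ h := by
  unfold jump
  simp only [neg_mul, side_neg_smul]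

theorem jump_one (h : SL(2, ℤ)) : jump Γ z0 1 h = 0 := by
  unfold jump
  simp

/-- one term of the weighted sign-sum -/
noncomputable def wterm (γ : Γ) (h : SL(2, ℤ)) : A := jump Γ z0 γ h • W h

theorem finite_support_wterm (γ : Γ) : (Function.support (wterm Γ z0 W γ)).Finite := by
  refine (finite_support_jump Γ z0 γ).subset ?_
  intro h hh
  simp only [Function.mem_support] at hh ⊢
  intro h0
  apply hh
  unfold wterm
  rw [h0, zero_smul]

theorem wterm_mul (hW : ∀ (h : SL(2, ℤ)) (γ : Γ), W (h * (γ : SL(2, ℤ))) = W h) (γ γ' : Γ)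
    (h : SL(2, ℤ)) :
    wterm Γ z0 W (γ * γ') h = wterm Γ z0 W γ' (h * (γ : SL(2, ℤ))) + wterm Γ z0 W γ h := by
  unfold wterm
  rw [jump_mul, add_smul, hW]

/-- the weighted sign-sum `Ψ_W` -/
noncomputable def wsum (γ : Γ) : A := ∑ᶠ h : SL(2, ℤ), wterm Γ z0 W γ h

theorem wsum_mul (hW : ∀ (h : SL(2, ℤ)) (γ : Γ), W (h * (γ : SL(2, ℤ))) = W h) (γ γ' : Γ) :
    wsum Γ z0 W (γ * γ') = wsum Γ z0 W γ + wsum Γ z0 W γ' := by
  unfold wsum
  have h1 : (fun h : SL(2, ℤ) => wterm Γ z0 W (γ * γ') h) =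
      fun h => wterm Γ z0 W γ' (h * (γ : SL(2, ℤ))) + wterm Γ z0 W γ h := by
    funext h; exact wterm_mul Γ z0 W hW γ γ' h
  rw [h1]
  have hs1 : (Function.support fun h : SL(2, ℤ) =>
      wterm Γ z0 W γ' (h * (γ : SL(2, ℤ)))).Finite := by
    have := finite_support_wterm Γ z0 W γ'
    have hinj : Function.Injective (fun h : SL(2, ℤ) => h * (γ : SL(2, ℤ))) :=
      mul_left_injective _
    refine (this.preimage hinj.injOn).subset ?_
    intro h hh
    exact hh
  rw [finsum_add_distrib hs1 (finite_support_wterm Γ z0 W γ)]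
  have h2 : ∑ᶠ h : SL(2, ℤ), wterm Γ z0 W γ' (h * (γ : SL(2, ℤ))) =
      ∑ᶠ h : SL(2, ℤ), wterm Γ z0 W γ' h :=
    finsum_comp_equiv (Equiv.mulRight (γ : SL(2, ℤ))) (f := wterm Γ z0 W γ')
  rw [h2, add_comm]

theorem wsum_one : wsum Γ z0 W 1 = 0 := by
  unfold wsum wterm
  simp [jump_one]

/-- `Ψ_W` as an additive homomorphism -/
noncomputable def wsumHom (hW : ∀ (h : SL(2, ℤ)) (γ : Γ), W (h * (γ : SL(2, ℤ))) = W h) :
    Additive Γ →+ A where
  toFun γ := wsum Γ z0 W (Additive.toMul γ)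
  map_zero' := wsum_one Γ z0 W
  map_add' _ _ := wsum_mul Γ z0 W hW _ _

@[simp] theorem wsumHom_apply (hW : ∀ (h : SL(2, ℤ)) (γ : Γ), W (h * (γ : SL(2, ℤ))) = W h)
    (γ : Γ) : wsumHom Γ z0 W hW (Additive.ofMul γ) = wsum Γ z0 W γ := rfl

/-- naturality in the coefficient group -/
theorem map_wsum {B : Type*} [AddCommGroup B] (f : A →+ B) (γ : Γ) :
    f (wsum Γ z0 W γ) = wsum Γ z0 (fun h => f (W h)) γ := by
  unfold wsum
  rw [AddMonoidHom.map_finsum f (finite_support_wterm Γ z0 W γ)]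
  congr 1
  funext h
  unfold wterm
  rw [map_zsmul]

/-- the sum only sees finitely many `h`: it is a `Finset` sum over any finite set containing the
separating matrices -/
theorem wsum_eq_sum (γ : Γ) (s : Finset SL(2, ℤ))
    (hs : ∀ h : SL(2, ℤ), side ((h * (γ : SL(2, ℤ))) • z0) ≠ side (h • z0) → h ∈ s) :
    wsum Γ z0 W γ = ∑ h ∈ s, wterm Γ z0 W γ h := by
  unfold wsum
  apply finsum_eq_sum_of_support_subset
  intro h hh
  simp only [Function.mem_support] at hh
  apply hs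
  intro heq
  apply hh
  unfold wterm jump
  rw [heq, sub_self, zero_smul]

/-- for an even weight the terms at `h` and `-h` agree -/
theorem wterm_neg (hneg : ∀ h, W (-h) = W h) (γ : Γ) (h : SL(2, ℤ)) :
    wterm Γ z0 W γ (-h) = wterm Γ z0 W γ h := by
  unfold wterm
  rw [jump_neg, hneg]

end weighted

end Fermat.Agent.S16.LB
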