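/-
T16 / LB-SS (helper65): evaluation of the weighted sign-sums (for helper94's LIFT, board 968).
`SS.pos z0 k = [0 < Re (k • z0)]`, `SS.D z0 g k = pos (k g) - pos k`,
`SS.Psi z0 W g = ∑_k D z0 g k • W k` for an ARBITRARY `g : SL(2,ℤ)`;
(SS2) `Psi (γ g) = Psi γ + Psi g` for `γ ∈ Γ`, `W` right-`Γ`-invariant; naturality;
(SS3) base-point independence; (SS4) the support of `D z0 T` (four matrices) and the parabolic
evaluation `Psi (g T^m g⁻¹) = 4 • ∑_{i<m} W ((g T^(i+1))⁻¹)`.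
Mathlib + `CuspHom.lean` + `SignSum.lean` only.
-/
import Fermat.Agent.S16.LB.SignSum

set_option autoImplicit false

open UpperHalfPlane ModularGroup Matrix.SpecialLinearGroup MatrixGroups CongruenceSubgroup

namespace Fermat.Agent.S16.LB.SS

variable {A : Type*} [AddCommGroup A] (z0 : ℍ) (W : SL(2, ℤ) → A)

/-! ### SS1: `pos`, `D` -/

/-- `pos z0 k = [0 < Re (k • z0)]` -/
noncomputable def pos (k : SL(2, ℤ)) : ℤ := side (k • z0)

/-- `D z0 g k = pos (k g) - pos k` -/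
noncomputable def D (g k : SL(2, ℤ)) : ℤ := pos z0 (k * g) - pos z0 k

theorem pos_neg (k : SL(2, ℤ)) : pos z0 (-k) = pos z0 k := side_neg_smul k z0

theorem pos_mul (k g : SL(2, ℤ)) : pos z0 (k * g) = pos (g • z0) k := by
  unfold pos
  rw [mul_smul]

theorem D_neg (g k : SL(2, ℤ)) : D z0 g (-k) = D z0 g k := by
  unfold D
  rw [neg_mul, pos_neg, pos_neg]

theorem D_one (k : SL(2, ℤ)) : D z0 1 k = 0 := by
  unfold D
  simp

theorem D_mul (g g' k : SL(2, ℤ)) : D z0 (g * g') k = D z0 g' (k * g) + D z0 g k := by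
  unfold D
  rw [mul_assoc]
  ring

theorem finite_side_sub (z1 : ℍ) :
    (Function.support fun k : SL(2, ℤ) => pos z1 k - pos z0 k).Finite := by
  refine (finite_side_ne z1 z0).subset ?_
  intro k hk
  show side _ ≠ side _
  intro heq
  apply hk
  show pos z1 k - pos z0 k = 0
  unfold pos
  rw [heq, sub_self]

theorem finite_support_D (g : SL(2, ℤ)) : (Function.support (D z0 g)).Finite := by
  have h := finite_side_sub z0 (g • z0)
  refine h.subset ?_
  intro k hk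
  simp only [Function.mem_support] at hk ⊢
  rwa [← pos_mul]

theorem finite_support_D_smul (g : SL(2, ℤ)) :
    (Function.support fun k => D z0 g k • W k).Finite := by
  refine (finite_support_D z0 g).subset ?_
  intro k hk
  simp only [Function.mem_support] at hk ⊢
  intro h0
  apply hk
  rw [h0, zero_smul]

/-! ### SS2: `Psi` -/

/-- `Psi z0 W g = ∑_k D z0 g k • W k`, for any `g : SL(2,ℤ)` -/
noncomputable def Psi (g : SL(2, ℤ)) : A := ∑ᶠ k : SL(2, ℤ), D z0 g k • W k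

theorem Psi_one : Psi z0 W 1 = 0 := by
  unfold Psi
  simp [D_one]

/-- reindexing a finite-support sum over `SL(2,ℤ)` by a right translation -/
theorem finsum_mul_right (F : SL(2, ℤ) → A) (g : SL(2, ℤ)) :
    ∑ᶠ k : SL(2, ℤ), F (k * g) = ∑ᶠ k : SL(2, ℤ), F k :=
  finsum_comp_equiv (Equiv.mulRight g) (f := F)

theorem finite_support_comp_mul_right {B : Type*} [Zero B] (F : SL(2, ℤ) → B) (g : SL(2, ℤ))
    (hF : (Function.support F).Finite) :
    (Function.support fun k : SL(2, ℤ) => F (k * g)).Finite := by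
  have hinj : Function.Injective (fun k : SL(2, ℤ) => k * g) := mul_left_injective _
  refine (hF.preimage hinj.injOn).subset ?_
  intro k hk
  exact hk

/-- the cocycle relation without any invariance: `Psi W (g g') = Psi W g + Psi (W (· g⁻¹)) g'` -/
theorem Psi_mul_gen (g g' : SL(2, ℤ)) :
    Psi z0 W (g * g') = Psi z0 W g + Psi z0 (fun k => W (k * g⁻¹)) g' := by
  unfold Psi
  have h1 : (fun k : SL(2, ℤ) => D z0 (g * g') k • W k) =
      fun k => D z0 g' (k * g) • W (k * g * g⁻¹) + D z0 g k • W k := by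
    funext k
    rw [D_mul, add_smul, mul_inv_cancel_right]
  rw [h1]
  have hs1 : (Function.support fun k : SL(2, ℤ) => D z0 g' (k * g) • W (k * g * g⁻¹)).Finite :=
    finite_support_comp_mul_right (fun k => D z0 g' k • W (k * g⁻¹)) g
      (finite_support_D_smul z0 (fun k => W (k * g⁻¹)) g')
  rw [finsum_add_distrib hs1 (finite_support_D_smul z0 W g)]
  rw [finsum_mul_right (fun k => D z0 g' k • W (k * g⁻¹)) g, add_comm]

theorem Psi_mul (Γ : Subgroup SL(2, ℤ)) (hW : ∀ k, ∀ γ ∈ Γ, W (k * γ) = W k) {γ : SL(2, ℤ)}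
    (hγ : γ ∈ Γ) (g : SL(2, ℤ)) : Psi z0 W (γ * g) = Psi z0 W γ + Psi z0 W g := by
  rw [Psi_mul_gen]
  have : (fun k => W (k * γ⁻¹)) = W := by
    funext k
    exact hW k γ⁻¹ (Γ.inv_mem hγ)
  rw [this]

/-- naturality in the coefficient group -/
theorem map_Psi {B : Type*} [AddCommGroup B] (f : A →+ B) (g : SL(2, ℤ)) :
    f (Psi z0 W g) = Psi z0 (fun k => f (W k)) g := by
  unfold Psi
  rw [AddMonoidHom.map_finsum f (finite_support_D_smul z0 W g)]
  congr 1
  funext k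
  rw [map_zsmul]

/-- link with `wsum` of `SignSum.lean` -/
theorem Psi_eq_wsum (Γ : Subgroup SL(2, ℤ)) (γ : Γ) :
    Psi z0 W (γ : SL(2, ℤ)) = wsum Γ z0 W γ := rfl

/-! ### SS3: base-point independence -/

theorem Psi_basepoint_indep (Γ : Subgroup SL(2, ℤ)) (hW : ∀ k, ∀ γ ∈ Γ, W (k * γ) = W k)
    {γ : SL(2, ℤ)} (hγ : γ ∈ Γ) (z1 : ℍ) : Psi z1 W γ = Psi z0 W γ := by
  rw [← sub_eq_zero]
  unfold Psi
  rw [← finsum_sub_distrib (finite_support_D_smul z1 W γ) (finite_support_D_smul z0 W γ)]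
  -- `E k = pos z1 k - pos z0 k` has finite support
  set E : SL(2, ℤ) → ℤ := fun k => pos z1 k - pos z0 k with hE
  have hEfin : (Function.support fun k => E k • W k).Finite := by
    refine (finite_side_sub z0 z1).subset ?_
    intro k hk
    simp only [Function.mem_support] at hk ⊢
    intro h0
    apply hk
    show E k • W k = 0
    rw [hE]
    simp only
    rw [h0, zero_smul]
  have h1 : (fun k : SL(2, ℤ) => D z1 γ k • W k - D z0 γ k • W k) =
      fun k => E (k * γ) • W (k * γ) - E k • W k := by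
    funext k
    rw [hW k γ hγ, ← sub_smul, ← sub_smul]
    congr 1
    simp only [hE, D]
    ring
  rw [h1, finsum_sub_distrib (finite_support_comp_mul_right (fun k => E k • W k) γ hEfin) hEfin,
    finsum_mul_right (fun k => E k • W k) γ, sub_self]

/-- SS3 in helper94's shape -/
theorem Psi_basepoint (Γ : Subgroup SL(2, ℤ)) (hW : ∀ k, ∀ γ ∈ Γ, W (k * γ) = W k)
    {γ : SL(2, ℤ)} (hγ : γ ∈ Γ) (g : SL(2, ℤ)) :
    ∑ᶠ k : SL(2, ℤ), (pos z0 (k * γ * g) - pos z0 (k * g)) • W k = Psi z0 W γ := by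
  rw [← Psi_basepoint_indep z0 W Γ hW hγ (g • z0)]
  unfold Psi D
  congr 1
  funext k
  rw [pos_mul z0 (k * γ) g, pos_mul z0 k g]

/-! ### SS4: the support of `D z0 T` and the parabolic evaluation -/

theorem coe_neg_T_inv : ((-T⁻¹ : SL(2,ℤ)) : Matrix (Fin 2) (Fin 2) ℤ) = !![-1, 1; 0, -1] := by decide
theorem coe_S_mul_T_inv : ((S * T⁻¹ : SL(2,ℤ)) : Matrix (Fin 2) (Fin 2) ℤ) = !![0, -1; 1, -1] := by decide
theorem coe_neg_S_mul_T_inv : ((-(S * T⁻¹) : SL(2,ℤ)) : Matrix (Fin 2) (Fin 2) ℤ) = !![0, 1; -1, 1] := by decide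

theorem eq_iff_entries (k M : SL(2, ℤ)) (a b c d : ℤ)
    (hM : (M : Matrix (Fin 2) (Fin 2) ℤ) = !![a, b; c, d]) :
    k = M ↔ k 0 0 = a ∧ k 0 1 = b ∧ k 1 0 = c ∧ k 1 1 = d := by
  constructor
  · rintro rfl
    rw [hM]
    simp
  · rintro ⟨h1, h2, h3, h4⟩
    apply Matrix.SpecialLinearGroup.ext
    intro i j
    rw [hM]
    fin_cases i <;> fin_cases j <;> simp [h1, h2, h3, h4]

/-- `D z0 T k` in terms of the entries of `k`, for `0 < Re z0 < 1 ≤ Im z0` -/
theorem D_T_entries (hre0 : 0 < z0.re) (hre1 : z0.re < 1) (him : 1 ≤ z0.im) (k : SL(2, ℤ)) :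
    D z0 T k = if k 1 0 = 0 ∧ k 0 1 * k 1 1 = -1 then 1
      else if k 0 0 = 0 ∧ k 0 1 * k 1 1 = 1 then -1 else 0 := by
  unfold D pos
  rw [mul_smul, side_smul, side_smul, ModularGroup.re_T_smul, ModularGroup.im_T_smul]
  set x := z0.re with hx
  set y := z0.im with hy
  have hdet := k.det_coe
  rw [Matrix.det_fin_two] at hdet
  have hdetR := det_real k
  by_cases hc : k 1 0 = 0
  · -- `c = 0`
    have had : k 0 0 * k 1 1 = 1 := by rw [hc] at hdet; simpa using hdet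
    have ha : k 0 0 ≠ 0 := by
      intro h0
      rw [h0] at had
      simp at had
    have hnum : ∀ t : ℝ, numRe k t y = t + ((k 0 1 * k 1 1 : ℤ) : ℝ) := by
      intro t
      unfold numRe
      have : (k 0 0 : ℝ) * (k 1 1 : ℝ) = 1 := by exact_mod_cast had
      rw [hc]
      push_cast
      linear_combination t * this
    simp only [hnum]
    set b' : ℤ := k 0 1 * k 1 1 with hb'
    have hsecond : ¬ (k 0 0 = 0 ∧ b' = 1) := fun h => ha h.1
    rcases lt_trichotomy b' (-1) with hlt | heq | hgt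
    · have h1 : (b' : ℝ) ≤ -2 := by
        have : b' ≤ -2 := by omega
        exact_mod_cast this
      have n1 : ¬ (0 : ℝ) < x + 1 + (b' : ℝ) := by linarith
      have n2 : ¬ (0 : ℝ) < x + (b' : ℝ) := by linarith
      have n3 : ¬ (k 1 0 = 0 ∧ b' = -1) := by
        intro h; omega
      rw [if_neg n1, if_neg n2, if_neg n3, if_neg hsecond]; norm_num
    · have h1 : (b' : ℝ) = -1 := by exact_mod_cast heq
      have n1 : (0 : ℝ) < x + 1 + (b' : ℝ) := by rw [h1]; linarith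
      have n2 : ¬ (0 : ℝ) < x + (b' : ℝ) := by rw [h1]; linarith
      have n3 : (k 1 0 = 0 ∧ b' = -1) := ⟨hc, heq⟩
      rw [if_pos n1, if_neg n2, if_pos n3]; norm_num
    · have h1 : (0 : ℝ) ≤ (b' : ℝ) := by
        have : 0 ≤ b' := by omega
        exact_mod_cast this
      have n1 : (0 : ℝ) < x + 1 + (b' : ℝ) := by linarith
      have n2 : (0 : ℝ) < x + (b' : ℝ) := by linarith
      have n3 : ¬ (k 1 0 = 0 ∧ b' = -1) := by
        intro h; omega
      rw [if_pos n1, if_pos n2, if_neg n3, if_neg hsecond]; norm_num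
  · have hfirst : ¬ (k 1 0 = 0 ∧ k 0 1 * k 1 1 = -1) := fun h => hc h.1
    rw [if_neg hfirst]
    by_cases ha : k 0 0 = 0
    · -- `a = 0`
      have hbc : k 0 1 * k 1 0 = -1 := by rw [ha] at hdet; simp at hdet; omega
      have hnum : ∀ t : ℝ, numRe k t y = -t + ((k 0 1 * k 1 1 : ℤ) : ℝ) := by
        intro t
        unfold numRe
        have : (k 0 1 : ℝ) * (k 1 0 : ℝ) = -1 := by exact_mod_cast hbc
        rw [ha]
        push_cast
        linear_combination t * this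
      simp only [hnum]
      set b' : ℤ := k 0 1 * k 1 1 with hb'
      rcases lt_trichotomy b' 1 with hlt | heq | hgt
      · have h1 : (b' : ℝ) ≤ 0 := by
          have : b' ≤ 0 := by omega
          exact_mod_cast this
        have n1 : ¬ (0 : ℝ) < -(x + 1) + (b' : ℝ) := by linarith
        have n2 : ¬ (0 : ℝ) < -x + (b' : ℝ) := by linarith
        have n3 : ¬ (k 0 0 = 0 ∧ b' = 1) := by
          intro h; omega
        rw [if_neg n1, if_neg n2, if_neg n3]; norm_num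
      · have h1 : (b' : ℝ) = 1 := by exact_mod_cast heq
        have n1 : ¬ (0 : ℝ) < -(x + 1) + (b' : ℝ) := by rw [h1]; linarith
        have n2 : (0 : ℝ) < -x + (b' : ℝ) := by rw [h1]; linarith
        have n3 : (k 0 0 = 0 ∧ b' = 1) := ⟨ha, heq⟩
        rw [if_neg n1, if_pos n2, if_pos n3]; norm_num
      · have h1 : (2 : ℝ) ≤ (b' : ℝ) := by
          have : 2 ≤ b' := by omega
          exact_mod_cast this
        have n1 : (0 : ℝ) < -(x + 1) + (b' : ℝ) := by linarith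
        have n2 : (0 : ℝ) < -x + (b' : ℝ) := by linarith
        have n3 : ¬ (k 0 0 = 0 ∧ b' = 1) := by
          intro h; omega
        rw [if_pos n1, if_pos n2, if_neg n3]; norm_num
    · have hsecond : ¬ (k 0 0 = 0 ∧ k 0 1 * k 1 1 = 1) := fun h => ha h.1
      rw [if_neg hsecond]
      have e1 := numRe_pos_iff_of_ne_zero k ha hc (x + 1) y him
      have e2 := numRe_pos_iff_of_ne_zero k ha hc x y him
      simp only [e1, e2, sub_self]

theorem entries_iff_T_inv (k : SL(2, ℤ)) :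
    (k 1 0 = 0 ∧ k 0 1 * k 1 1 = -1) ↔ (k = T⁻¹ ∨ k = -T⁻¹) := by
  constructor
  · rintro ⟨hc, hbd⟩
    have hdet := k.det_coe
    rw [Matrix.det_fin_two, hc, mul_zero, sub_zero] at hdet
    have hd : k 1 1 = 1 ∨ k 1 1 = -1 :=
      Int.eq_one_or_neg_one_of_mul_eq_one (by rw [mul_comm]; exact hdet)
    rcases hd with hd | hd
    · left
      rw [eq_iff_entries k T⁻¹ 1 (-1) 0 1 ModularGroup.coe_T_inv]
      rw [hd] at hdet hbd
      refine ⟨by omega, by omega, hc, hd⟩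
    · right
      rw [eq_iff_entries k (-T⁻¹) (-1) 1 0 (-1) coe_neg_T_inv]
      rw [hd] at hdet hbd
      refine ⟨by omega, by omega, hc, hd⟩
  · rintro (rfl | rfl) <;> decide

theorem entries_iff_S_T_inv (k : SL(2, ℤ)) :
    (k 0 0 = 0 ∧ k 0 1 * k 1 1 = 1) ↔ (k = S * T⁻¹ ∨ k = -(S * T⁻¹)) := by
  constructor
  · rintro ⟨ha, hbd⟩
    have hdet := k.det_coe
    rw [Matrix.det_fin_two, ha, zero_mul, zero_sub] at hdet
    have hb : k 0 1 = 1 ∨ k 0 1 = -1 := Int.eq_one_or_neg_one_of_mul_eq_one hbd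
    rcases hb with hb | hb
    · right
      rw [eq_iff_entries k (-(S * T⁻¹)) 0 1 (-1) 1 coe_neg_S_mul_T_inv]
      rw [hb] at hdet hbd
      refine ⟨ha, hb, by omega, by omega⟩
    · left
      rw [eq_iff_entries k (S * T⁻¹) 0 (-1) 1 (-1) coe_S_mul_T_inv]
      rw [hb] at hdet hbd
      refine ⟨ha, hb, by omega, by omega⟩
  · rintro (rfl | rfl) <;> decide

/-- **the support of `D z0 T`** (with values), for `0 < Re z0 < 1 ≤ Im z0` -/
theorem D_T_eq (hre0 : 0 < z0.re) (hre1 : z0.re < 1) (him : 1 ≤ z0.im) (k : SL(2, ℤ)) :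
    D z0 T k = if k = T⁻¹ ∨ k = -T⁻¹ then 1
      else if k = S * T⁻¹ ∨ k = -(S * T⁻¹) then -1 else 0 := by
  rw [D_T_entries z0 hre0 hre1 him k]
  simp only [entries_iff_T_inv, entries_iff_S_T_inv]

/-- `Psi V T` for an arbitrary weight `V` -/
theorem Psi_T_eq (hre0 : 0 < z0.re) (hre1 : z0.re < 1) (him : 1 ≤ z0.im) (V : SL(2, ℤ) → A) :
    Psi z0 V T = V T⁻¹ + V (-T⁻¹) - V (S * T⁻¹) - V (-(S * T⁻¹)) := by
  unfold Psi
  have hsupp : Function.support (fun k => D z0 T k • V k) ⊆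
      ((({T⁻¹, -T⁻¹, S * T⁻¹, -(S * T⁻¹)} : Finset SL(2, ℤ))) : Set SL(2, ℤ)) := by
    intro k hk
    simp only [Function.mem_support] at hk
    by_contra hnot
    apply hk
    rw [D_T_eq z0 hre0 hre1 him k]
    simp only [Finset.coe_insert, Finset.coe_singleton, Set.mem_insert_iff,
      Set.mem_singleton_iff, not_or] at hnot
    rw [if_neg (by tauto), if_neg (by tauto), zero_smul]
  rw [finsum_eq_sum_of_support_subset _ hsupp]
  rw [Finset.sum_insert (by decide), Finset.sum_insert (by decide),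
    Finset.sum_insert (by decide), Finset.sum_singleton]
  rw [D_T_eq z0 hre0 hre1 him T⁻¹, D_T_eq z0 hre0 hre1 him (-T⁻¹),
    D_T_eq z0 hre0 hre1 him (S * T⁻¹), D_T_eq z0 hre0 hre1 him (-(S * T⁻¹))]
  rw [if_pos (Or.inl rfl), if_pos (Or.inr rfl), if_neg (by decide), if_pos (Or.inl rfl),
    if_neg (by decide), if_pos (Or.inr rfl)]
  simp only [one_smul]
  abel

/-- telescoping over the powers of `T` -/
theorem Psi_T_pow (V : SL(2, ℤ) → A) (m : ℕ) :
    Psi z0 V (T ^ m) = ∑ i ∈ Finset.range m, Psi z0 (fun k => V (k * (T ^ i)⁻¹)) T := by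
  induction m with
  | zero => simp [Psi_one]
  | succ m ih => rw [pow_succ, Psi_mul_gen, ih, Finset.sum_range_succ]

/-- conjugation: `Psi W (g γ' g⁻¹) = Psi (W (· g⁻¹)) γ'` when `g γ' g⁻¹ ∈ Γ` -/
theorem Psi_conj (Γ : Subgroup SL(2, ℤ)) (hW : ∀ k, ∀ γ ∈ Γ, W (k * γ) = W k)
    (g γ' : SL(2, ℤ)) (hmem : g * γ' * g⁻¹ ∈ Γ) :
    Psi z0 W (g * γ' * g⁻¹) = Psi z0 (fun k => W (k * g⁻¹)) γ' := by
  rw [mul_assoc, Psi_mul_gen, Psi_mul_gen z0 (fun k => W (k * g⁻¹)) γ' g⁻¹]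
  have h3 : (fun k => (fun k => W (k * g⁻¹)) (k * γ'⁻¹)) = fun k => W (k * g⁻¹) := by
    funext k
    show W (k * γ'⁻¹ * g⁻¹) = W (k * g⁻¹)
    have : k * γ'⁻¹ * g⁻¹ = k * g⁻¹ * (g * γ' * g⁻¹)⁻¹ := by group
    rw [this, hW _ _ (Γ.inv_mem hmem)]
  have h0 := Psi_mul_gen z0 W g g⁻¹
  rw [mul_inv_cancel, Psi_one] at h0
  rw [h3, add_comm (Psi z0 (fun k => W (k * g⁻¹)) γ'), ← add_assoc, ← h0, zero_add]

theorem S_mul_S : (S * S : SL(2, ℤ)) = -1 := by decide

theorem W_neg_of_S (hS : ∀ k, W (S * k) = - W k) (k : SL(2, ℤ)) : W (-k) = W k := by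
  have h1 : -k = S * (S * k) := by
    rw [← mul_assoc, S_mul_S, neg_mul, one_mul]
  rw [h1, hS, hS, neg_neg]

/-- the parabolic evaluation, general weight (no `S`-antisymmetry) -/
theorem Psi_conj_T_pow_gen (hre0 : 0 < z0.re) (hre1 : z0.re < 1) (him : 1 ≤ z0.im)
    (Γ : Subgroup SL(2, ℤ)) (hW : ∀ k, ∀ γ ∈ Γ, W (k * γ) = W k)
    (g : SL(2, ℤ)) (m : ℕ) (hmem : g * T ^ m * g⁻¹ ∈ Γ) :
    Psi z0 W (g * T ^ m * g⁻¹) = ∑ i ∈ Finset.range m,
      (W ((g * T ^ (i + 1))⁻¹) + W (-(g * T ^ (i + 1))⁻¹)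
        - W (S * (g * T ^ (i + 1))⁻¹) - W (-(S * (g * T ^ (i + 1))⁻¹))) := by
  rw [Psi_conj z0 W Γ hW g (T ^ m) hmem, Psi_T_pow]
  refine Finset.sum_congr rfl ?_
  intro i _
  rw [Psi_T_eq z0 hre0 hre1 him]
  have e1 : (g * T ^ (i + 1))⁻¹ = T⁻¹ * (T ^ i)⁻¹ * g⁻¹ := by
    rw [pow_succ]; group
  simp only [e1, neg_mul, mul_assoc]

/-- **SS4, the parabolic evaluation**: for a right-`Γ`-invariant, `S`-antisymmetric weight,
`Psi W (g T^m g⁻¹) = 4 ∑_{i<m} W ((g T^(i+1))⁻¹)` whenever `g T^m g⁻¹ ∈ Γ`. -/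
theorem Psi_conj_T_pow (hre0 : 0 < z0.re) (hre1 : z0.re < 1) (him : 1 ≤ z0.im)
    (Γ : Subgroup SL(2, ℤ)) (hW : ∀ k, ∀ γ ∈ Γ, W (k * γ) = W k)
    (hS : ∀ k, W (S * k) = - W k) (g : SL(2, ℤ)) (m : ℕ) (hmem : g * T ^ m * g⁻¹ ∈ Γ) :
    Psi z0 W (g * T ^ m * g⁻¹) = 4 • ∑ i ∈ Finset.range m, W ((g * T ^ (i + 1))⁻¹) := by
  rw [Psi_conj_T_pow_gen z0 W hre0 hre1 him Γ hW g m hmem, Finset.smul_sum]
  refine Finset.sum_congr rfl ?_
  intro i _
  rw [W_neg_of_S W hS, W_neg_of_S W hS, hS]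
  abel

end Fermat.Agent.S16.LB.SS
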